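/-
Program ORD (S33), brick A1 (abstract core) — helper90.

**Cayley–Hamilton by Chebotarev density.**  `A` a noetherian local ring, `W` a finitely generated
`A`-module with a continuous action `R` of `G_ℚ`, `ρ : GaloisRepAdic A` with Frobenius
characteristic polynomials `X² - c ℓ X + ℓ` (`ℓ ∉ Sbad`), `Lam ⊆ W` a stable submodule on which the
Eichler–Shimura relation `R φ ² - c ℓ R φ + ℓ = 0` holds for every Frobenius lift `φ` at `ℓ ∉ Sbad`.
Then for EVERY `g : G_ℚ` and `v ∈ Lam`: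

  `R g (R g v) - tr ρ(g) • R g v + det ρ(g) • v = 0`.

Proof: generator form of Chebotarev (`ChebQbar23`) approximates `g` by a power `φ ^ i` of a Frobenius
lift on a common level of `R` and `ρ` modulo `𝔪 ^ n`; Lucas for operators
(`F² - aF + δ = 0 ⇒ F^{2i} - V_i(a, δ) F^i + δ^i = 0`) and for `ρ` (`Lucas15`) give the relation for
`φ ^ i`; trace and determinant of `ρ` are continuous; Krull on `W`.

`A` need not be a domain, a DVR or complete; `W` need not be free.
-/
import Mathlib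
import Fermat.Prelude.Def_GaloisRep_Adic
import Fermat.Agent.ES.ALG.RelDense9
import Fermat.Agent.ES.ALG31.Lucas15
import Fermat.Agent.ES.ALG31.TraceDense15
import Fermat.Agent.ES.GAL.ChebQbar23

set_option autoImplicit false

noncomputable section

namespace Fermat.Agent.ORD.Alg.CHCore90

open Polynomial Fermat.Agent.ES.ALG31.Lucas15 Fermat.Agent.ES.ALG.RelDense9

local notation "Qb" => AlgebraicClosure ℚ
local notation "GQ" => (AlgebraicClosure ℚ ≃ₐ[ℚ] AlgebraicClosure ℚ)

/-! ### Lucas for operators -/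

section Lucas

variable {A : Type*} [CommRing A] {E : Type*} [Ring E] [Algebra A E]

/-- the quadratic operator `F² - t F + d`. -/
def quad (t d : A) (F : E) : E := F * F - t • F + d • (1 : E)

theorem quad_def (t d : A) (F : E) : quad t d F = F * F - t • F + d • (1 : E) := rfl

variable {F : E} {a δ : A}

theorem mul_conj_of_quad (h : quad a δ F = 0) : F * (a • (1 : E) - F) = δ • (1 : E) := by
  rw [quad_def] at h
  rw [mul_sub, mul_smul_comm, mul_one]
  have : a • F - F * F = δ • (1 : E) - (F * F - a • F + δ • (1 : E)) := by abel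
  rw [this, h, sub_zero]

theorem conj_mul_of_quad (h : quad a δ F = 0) : (a • (1 : E) - F) * F = δ • (1 : E) := by
  rw [quad_def] at h
  rw [sub_mul, smul_mul_assoc, one_mul]
  have : a • F - F * F = δ • (1 : E) - (F * F - a • F + δ • (1 : E)) := by abel
  rw [this, h, sub_zero]

/-- `F ^ i + G ^ i = V_i(a, δ)` for the conjugate root `G = a - F`. -/
theorem pow_add_conj_pow (h : quad a δ F = 0) (i : ℕ) :
    F ^ i + (a • (1 : E) - F) ^ i = lucasV a δ i • (1 : E) := by
  set G : E := a • (1 : E) - F with hG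
  have hFG : F * G = δ • (1 : E) := mul_conj_of_quad h
  have hGF : G * F = δ • (1 : E) := conj_mul_of_quad h
  have hsum : F + G = a • (1 : E) := by rw [hG]; abel
  induction i using Nat.twoStepInduction with
  | zero => rw [pow_zero, pow_zero, lucasV_zero, ← one_add_one_eq_two, add_smul, one_smul]
  | one => rw [pow_one, pow_one, lucasV_one, hsum]
  | more i h0 h1 =>
    have key : (F ^ (i + 1) + G ^ (i + 1)) * (F + G) =
        (F ^ (i + 2) + G ^ (i + 2)) + δ • (F ^ i + G ^ i) := by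
      have e1 : F ^ (i + 1) * G = δ • F ^ i := by
        rw [pow_succ, mul_assoc, hFG, mul_smul_comm, mul_one]
      have e2 : G ^ (i + 1) * F = δ • G ^ i := by
        rw [pow_succ, mul_assoc, hGF, mul_smul_comm, mul_one]
      rw [add_mul, mul_add, mul_add, e1, e2, ← pow_succ, ← pow_succ, smul_add]
      abel
    rw [h1, h0, hsum] at key
    have : F ^ (i + 2) + G ^ (i + 2) =
        lucasV a δ (i + 1) • (1 : E) * a • (1 : E) - δ • lucasV a δ i • (1 : E) := by
      rw [key]; abel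
    rw [this, lucasV_add_two, smul_mul_smul_comm, mul_one, smul_smul, ← sub_smul, mul_comm a]

/-- **Lucas for operators**: `F² - aF + δ = 0 ⇒ (F^i)² - V_i(a, δ) F^i + δ^i = 0`. -/
theorem quad_pow (h : quad a δ F = 0) (i : ℕ) : quad (lucasV a δ i) (δ ^ i) (F ^ i) = 0 := by
  set G : E := a • (1 : E) - F with hG
  have hFG : F * G = δ • (1 : E) := mul_conj_of_quad h
  have hGF : G * F = δ • (1 : E) := conj_mul_of_quad h
  have hcomm : Commute G F := by rw [Commute, SemiconjBy, hGF, hFG]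
  have hGFi : G ^ i * F ^ i = (δ ^ i) • (1 : E) := by
    rw [← hcomm.mul_pow, hGF, _root_.smul_pow, one_pow]
  have hV : lucasV a δ i • F ^ i = F ^ i * F ^ i + G ^ i * F ^ i := by
    rw [← add_mul, pow_add_conj_pow h i, smul_mul_assoc, one_mul]
  rw [quad_def, hV, hGFi]
  abel

end Lucas

/-! ### Congruences -/

section Congr

variable {A : Type*} [CommRing A] {W : Type*} [AddCommGroup W] [Module A W]

theorem endCongr_sub {I : Ideal A} {f g f' g' : Module.End A W} (h : EndCongr I f g)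
    (h' : EndCongr I f' g') : EndCongr I (f - f') (g - g') := fun v => by
  have := Submodule.sub_mem _ (h v) (h' v)
  simpa [sub_sub_sub_comm] using this

/-- congruent data give congruent quadratic operators. -/
theorem endCongr_quad {I : Ideal A} {f g : Module.End A W} (h : EndCongr I f g) {t t' d d' : A}
    (ht : t - t' ∈ I) (hd : d - d' ∈ I) : EndCongr I (quad t d f) (quad t' d' g) := by
  rw [quad_def, quad_def]
  exact (endCongr_sub (h.mul h) (h.smul ht)).add ((EndCongr.refl I 1).smul hd)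

/-- `f (1 + small) ≡ f`. -/
theorem endCongr_mul_of_congr_one {I : Ideal A} (f u : Module.End A W)
    (hu : ∀ w, u w - w ∈ I • (⊤ : Submodule A W)) : EndCongr I (f * u) f := fun w => by
  rw [Module.End.mul_apply, ← map_sub]
  exact map_mem_smul_top I f (hu w)

variable [Module.Free A W] [Module.Finite A W]

/-- an endomorphism of a finite free module congruent to `1` modulo `I` has determinant
congruent to `1`. -/
theorem det_sub_one_mem (I : Ideal A) (f : Module.End A W)
    (hf : ∀ w, f w - w ∈ I • (⊤ : Submodule A W)) : LinearMap.det f - 1 ∈ I := by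
  classical
  set b := Module.Free.chooseBasis A W
  rw [← LinearMap.det_toMatrix b f, ← Ideal.Quotient.eq, RingHom.map_det, map_one]
  have : (Ideal.Quotient.mk I).mapMatrix (LinearMap.toMatrix b b f) = 1 := by
    ext i j
    rw [RingHom.mapMatrix_apply, Matrix.map_apply, LinearMap.toMatrix_apply, Matrix.one_apply]
    have hmem := repr_mem_of_mem_smul_top b I (hf (b j)) i
    rw [map_sub, Finsupp.sub_apply, Module.Basis.repr_self, Finsupp.single_apply] at hmem
    rw [← map_one (Ideal.Quotient.mk I), ← map_zero (Ideal.Quotient.mk I)]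
    by_cases hij : i = j
    · rw [if_pos hij]
      rw [if_pos hij.symm] at hmem
      exact Ideal.Quotient.eq.mpr hmem
    · rw [if_neg hij]
      rw [if_neg (Ne.symm hij)] at hmem
      exact Ideal.Quotient.eq.mpr hmem
  rw [this, Matrix.det_one]

end Congr

/-! ### The main statement -/

section Main

variable {A : Type} [CommRing A] [IsLocalRing A]

/-- continuity of the determinant of a `GaloisRepAdic`. -/
theorem det_mul_sub_mem (ρ : GaloisRepAdic A) {n : ℕ} {L : IntermediateField ℚ Qb}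
    (hL : ∀ σ : GQ, (∀ x ∈ L, σ x = x) →
      ∀ v : ρ.V, ρ.ρ σ v - v ∈ (IsLocalRing.maximalIdeal A ^ n) • (⊤ : Submodule A ρ.V))
    (g h : GQ) (hh : ∀ x ∈ L, h x = x) :
    LinearMap.det (ρ.ρ (g * h)) - LinearMap.det (ρ.ρ g) ∈ IsLocalRing.maximalIdeal A ^ n := by
  rw [map_mul, map_mul]
  have e : LinearMap.det (ρ.ρ g) * LinearMap.det (ρ.ρ h) - LinearMap.det (ρ.ρ g) =
      LinearMap.det (ρ.ρ g) * (LinearMap.det (ρ.ρ h) - 1) := by ring
  rw [e]
  exact Ideal.mul_mem_left _ _ (det_sub_one_mem _ _ (hL h hh))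

variable [IsNoetherianRing A] {W : Type*} [AddCommGroup W] [Module A W] [Module.Finite A W]

/-- **Cayley–Hamilton by Chebotarev density.** -/
theorem cayleyHamilton (R : GQ →* Module.End A W)
    (hcont : ∀ n : ℕ, ∃ L : IntermediateField ℚ Qb, FiniteDimensional ℚ L ∧
      ∀ σ : GQ, (∀ x ∈ L, σ x = x) →
        ∀ w : W, R σ w - w ∈ (IsLocalRing.maximalIdeal A ^ n) • (⊤ : Submodule A W))
    (ρ : GaloisRepAdic A) (Sbad : Finset ℕ) (c : ℕ → A)
    (hρ : ∀ ℓ : ℕ, ℓ.Prime → ℓ ∉ Sbad → ∀ P : ValuationSubring Qb, P.LiesOverPrime ℓ →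
      ∀ φ : GQ, P.IsFrobeniusAt φ ℓ →
        (ρ.ρ φ).charpoly = X ^ 2 - C (c ℓ) * X + C ((ℓ : A)))
    (Lam : Submodule A W) (hst : ∀ g : GQ, ∀ v ∈ Lam, R g v ∈ Lam)
    (hES : ∀ ℓ : ℕ, ℓ.Prime → ℓ ∉ Sbad → ∀ P : ValuationSubring Qb, P.LiesOverPrime ℓ →
      ∀ φ : GQ, P.IsFrobeniusAt φ ℓ → ∀ v ∈ Lam,
        R φ (R φ v) - c ℓ • R φ v + (ℓ : A) • v = 0)
    (g : GQ) (v : W) (hv : v ∈ Lam) :
    R g (R g v) - LinearMap.trace A ρ.V (ρ.ρ g) • R g v + LinearMap.det (ρ.ρ g) • v = 0 := by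
  classical
  set 𝔪 := IsLocalRing.maximalIdeal A with h𝔪
  -- Krull
  have hKrull : (⨅ n : ℕ, 𝔪 ^ n • (⊤ : Submodule A W)) = ⊥ :=
    Ideal.iInf_pow_smul_eq_bot_of_isLocalRing 𝔪 (IsLocalRing.maximalIdeal.isMaximal A).ne_top
  have hgoal : quad (LinearMap.trace A ρ.V (ρ.ρ g)) (LinearMap.det (ρ.ρ g)) (R g) v = 0 := by
    rw [← Submodule.mem_bot A, ← hKrull, Submodule.mem_iInf]
    intro n
    obtain ⟨L₁, hL₁fd, hL₁⟩ := hcont n
    obtain ⟨L₂, hL₂fd, hL₂⟩ := ρ.isAdicContinuous n
    have := hL₁fd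
    have := hL₂fd
    obtain ⟨ℓ, P, φ, i, hℓ, hℓS, hP, hφ, hfix⟩ :=
      Fermat.Agent.ES.GAL.ChebQbar23.exists_frobenius_inv_mul_pow_fixes (L₁ ⊔ L₂) g Sbad
    set τ : GQ := g⁻¹ * φ ^ i with hτ
    have hφi : φ ^ i = g * τ := by rw [hτ, mul_inv_cancel_left]
    have hτ₁ : ∀ x ∈ L₁, τ x = x := fun x hx => hfix x (le_sup_left (a := L₁) (b := L₂) hx)
    have hτ₂ : ∀ x ∈ L₂, τ x = x := fun x hx => hfix x (le_sup_right (a := L₁) (b := L₂) hx)
    -- the relation for `φ ^ i` on `Lam`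
    have hzero : quad (LinearMap.trace A ρ.V (ρ.ρ (φ ^ i))) (LinearMap.det (ρ.ρ (φ ^ i)))
        (R (φ ^ i)) v = 0 := by
      have hcp := hρ ℓ hℓ hℓS P hP φ hφ
      have htr : LinearMap.trace A ρ.V (ρ.ρ (φ ^ i)) = lucasV (c ℓ) (ℓ : A) i := by
        rw [map_pow, trace_pow_of_charpoly ρ.finrank_eq (ρ.ρ φ) hcp i]
      have hdet : LinearMap.det (ρ.ρ (φ ^ i)) = (ℓ : A) ^ i := by
        rw [map_pow, map_pow, (trace_det_of_charpoly ρ.finrank_eq (ρ.ρ φ) hcp).2]
      rw [htr, hdet]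
      -- restrict to `Lam`
      set F : Module.End A Lam := (R φ).restrict (hst φ) with hF
      have hquadF : quad (c ℓ) (ℓ : A) F = 0 := by
        rw [quad_def]
        ext w
        have := hES ℓ hℓ hℓS P hP φ hφ w.1 w.2
        simpa [hF, LinearMap.restrict_apply] using this
      have hpow := quad_pow hquadF i
      have hFi : ∀ w : Lam, ((F ^ i) w : W) = (R φ ^ i) w := by
        intro w
        rw [hF, Module.End.pow_restrict, LinearMap.restrict_apply]
      have h1 := congrArg (fun G : Module.End A Lam => ((G ⟨v, hv⟩ : Lam) : W)) hpow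
      simp only [quad_def, LinearMap.add_apply, LinearMap.sub_apply, Module.End.mul_apply,
        LinearMap.smul_apply, Module.End.one_apply, Submodule.coe_add, Submodule.coe_sub,
        Submodule.coe_smul, LinearMap.zero_apply, Submodule.coe_zero] at h1
      rw [hFi, hFi] at h1
      rw [quad_def, map_pow]
      simpa [Module.End.mul_apply] using h1
    -- congruence
    have hc : EndCongr (𝔪 ^ n) (R (g * τ)) (R g) := by
      rw [map_mul]
      exact endCongr_mul_of_congr_one (R g) (R τ) (hL₁ τ hτ₁)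
    have ht : LinearMap.trace A ρ.V (ρ.ρ (g * τ)) - LinearMap.trace A ρ.V (ρ.ρ g) ∈ 𝔪 ^ n :=
      Fermat.Agent.ES.ALG31.TraceDense15.trace_mul_sub_mem ρ hL₂ g τ hτ₂
    have hd : LinearMap.det (ρ.ρ (g * τ)) - LinearMap.det (ρ.ρ g) ∈ 𝔪 ^ n :=
      det_mul_sub_mem ρ hL₂ g τ hτ₂
    have hq := (endCongr_quad hc ht hd).symm v
    rw [← hφi, hzero, sub_zero] at hq
    exact hq
  rw [quad_def] at hgoal
  simpa [Module.End.mul_apply] using hgoal

/-- operator form, for the whole module (`Lam = ⊤`). -/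
theorem cayleyHamilton_top (R : GQ →* Module.End A W)
    (hcont : ∀ n : ℕ, ∃ L : IntermediateField ℚ Qb, FiniteDimensional ℚ L ∧
      ∀ σ : GQ, (∀ x ∈ L, σ x = x) →
        ∀ w : W, R σ w - w ∈ (IsLocalRing.maximalIdeal A ^ n) • (⊤ : Submodule A W))
    (ρ : GaloisRepAdic A) (Sbad : Finset ℕ) (c : ℕ → A)
    (hρ : ∀ ℓ : ℕ, ℓ.Prime → ℓ ∉ Sbad → ∀ P : ValuationSubring Qb, P.LiesOverPrime ℓ →
      ∀ φ : GQ, P.IsFrobeniusAt φ ℓ →
        (ρ.ρ φ).charpoly = X ^ 2 - C (c ℓ) * X + C ((ℓ : A)))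
    (hES : ∀ ℓ : ℕ, ℓ.Prime → ℓ ∉ Sbad → ∀ P : ValuationSubring Qb, P.LiesOverPrime ℓ →
      ∀ φ : GQ, P.IsFrobeniusAt φ ℓ →
        R φ * R φ - c ℓ • R φ + (ℓ : A) • (1 : Module.End A W) = 0)
    (g : GQ) :
    R g * R g - LinearMap.trace A ρ.V (ρ.ρ g) • R g +
      LinearMap.det (ρ.ρ g) • (1 : Module.End A W) = 0 := by
  ext v
  have := cayleyHamilton R hcont ρ Sbad c hρ ⊤ (fun _ _ _ => Submodule.mem_top)
    (fun ℓ hℓ hℓS P hP φ hφ w _ => by
      have := congrArg (fun G : Module.End A W => G w) (hES ℓ hℓ hℓS P hP φ hφ)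
      simpa [Module.End.mul_apply] using this) g v Submodule.mem_top
  simpa [Module.End.mul_apply] using this

end Main

end Fermat.Agent.ORD.Alg.CHCore90
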