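/-
ORD (S33), brick A2 (i), Mathlib-only core — helper83.

* `exists_squarefree_aeval_eq_zero` : an integral element `r` of a reduced ring `R` is killed, in
  every algebra `B` over a field `K` of characteristic zero receiving `R`, by a squarefree
  polynomial over `K`.
* `isReduced_of_adjoin` : if `R` is reduced and integral over `ℤ`, `𝒪` a domain of characteristic
  zero, `T` a finite free `𝒪`-algebra generated over `𝒪` by the image of a ring homomorphism
  `π : R →+* T`, then `T` is reduced.
* `eq_zero_of_forall_mem_minimalPrimes`, `eq_of_forall_mk_eq` : in a reduced ring, identities may be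
  checked modulo every minimal prime.
-/
import Mathlib

set_option autoImplicit false

noncomputable section

namespace Fermat.Agent.ORD.Alg.RedT83

open Polynomial UniqueFactorizationMonoid TensorProduct

/-- An integral element of a reduced ring is killed by a squarefree polynomial in every algebra over
a field of characteristic zero. -/
theorem exists_squarefree_aeval_eq_zero {R : Type*} [CommRing R] [IsReduced R]
    {K : Type*} [Field K] [CharZero K] {B : Type*} [Ring B] [Algebra K B]
    (ψ : R →+* B) (r : R) (hr : IsIntegral ℤ r) :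
    ∃ q : K[X], Squarefree q ∧ aeval (ψ r) q = 0 := by
  classical
  obtain ⟨f, hfm, hf⟩ := hr
  set fq : ℚ[X] := f.map (algebraMap ℤ ℚ) with hfq
  have hfq_monic : fq.Monic := hfm.map _
  have hfq0 : fq ≠ 0 := hfq_monic.ne_zero
  set g : ℚ[X] := radical fq with hg
  have hgsq : Squarefree g := squarefree_radical
  obtain ⟨n, hn⟩ := exists_dvd_radical_self_pow hfq0
  obtain ⟨b, hbM, hb⟩ := IsLocalization.integerNormalization_spec (nonZeroDivisors ℤ) g
  set G : ℤ[X] := IsLocalization.integerNormalization (nonZeroDivisors ℤ) g with hG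
  have hb0 : b ≠ 0 := nonZeroDivisors.ne_zero hbM
  have hdiv : f ∣ G ^ n := by
    rw [← Polynomial.modByMonic_eq_zero_iff_dvd hfm]
    apply Polynomial.map_injective (algebraMap ℤ ℚ) (algebraMap ℤ ℚ).injective_int
    rw [Polynomial.map_modByMonic _ hfm, Polynomial.map_zero,
      Polynomial.modByMonic_eq_zero_iff_dvd hfq_monic, Polynomial.map_pow, hb, _root_.smul_pow,
      zsmul_eq_mul]
    exact Dvd.dvd.trans hn (Dvd.intro_left _ rfl)
  -- `G(r) = 0` by reducedness
  have hGr : eval₂ (algebraMap ℤ R) r G = 0 := by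
    obtain ⟨h, hh⟩ := hdiv
    refine IsNilpotent.eq_zero ⟨n, ?_⟩
    rw [← eval₂_pow, hh, eval₂_mul, hf, zero_mul]
  refine ⟨g.map (algebraMap ℚ K),
    (PerfectField.separable_iff_squarefree.mpr hgsq).map.squarefree, ?_⟩
  -- `b • q(ψ r) = ψ (G(r)) = 0`
  have h1 : (G.map (algebraMap ℤ ℚ)).map (algebraMap ℚ K) = (b : K[X]) * g.map (algebraMap ℚ K) := by
    rw [hb, zsmul_eq_mul, Polynomial.map_mul, Polynomial.map_intCast]
  have h2 : aeval (ψ r) ((G.map (algebraMap ℤ ℚ)).map (algebraMap ℚ K)) = 0 := by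
    rw [Polynomial.map_map, aeval_def, eval₂_map]
    have : (algebraMap K B).comp ((algebraMap ℚ K).comp (algebraMap ℤ ℚ)) =
        ψ.comp (algebraMap ℤ R) := Subsingleton.elim _ _
    rw [this, ← hom_eval₂, hGr, map_zero]
  rw [h1, map_mul, map_intCast] at h2
  have hbK : ((b : ℤ) : K) ≠ 0 := Int.cast_ne_zero.mpr hb0
  have h3 : ((b : ℤ) : B) = algebraMap K B ((b : ℤ) : K) := (map_intCast (algebraMap K B) b).symm
  rw [h3, ← Algebra.smul_def] at h2
  exact (smul_eq_zero_iff_right hbK).mp h2

/-- **`T` is reduced.**  `R` reduced and integral over `ℤ`, `𝒪` a domain of characteristic zero, `T`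
a finite free `𝒪`-algebra generated over `𝒪` by the image of `π : R →+* T`.  (The multiplication
operators on `Frac 𝒪 ⊗ T` are commuting semisimple endomorphisms; a nilpotent semisimple endomorphism
vanishes; `T` embeds into `Frac 𝒪 ⊗ T`.) -/
theorem isReduced_of_adjoin {R : Type*} [CommRing R] [IsReduced R] [Algebra.IsIntegral ℤ R]
    {𝒪 : Type*} [CommRing 𝒪] [IsDomain 𝒪] [CharZero 𝒪]
    {T : Type*} [CommRing T] [Algebra 𝒪 T] [Module.Finite 𝒪 T] [Module.Free 𝒪 T]
    (π : R →+* T) (hadj : Algebra.adjoin 𝒪 (Set.range π) = ⊤) : IsReduced T := by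
  have : CharZero (FractionRing 𝒪) :=
    charZero_of_injective_algebraMap (IsFractionRing.injective 𝒪 (FractionRing 𝒪))
  let L : (FractionRing 𝒪 ⊗[𝒪] T) →ₐ[FractionRing 𝒪]
      Module.End (FractionRing 𝒪) (FractionRing 𝒪 ⊗[𝒪] T) :=
    Algebra.lmul (FractionRing 𝒪) (FractionRing 𝒪 ⊗[𝒪] T)
  have hcomm : ∀ x y : FractionRing 𝒪 ⊗[𝒪] T, Commute (L x) (L y) := fun x y => by
    show L x * L y = L y * L x
    rw [← map_mul, ← map_mul, mul_comm]
  have hss : ∀ t : T, (L ((1 : FractionRing 𝒪) ⊗ₜ[𝒪] t)).IsSemisimple := by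
    intro t
    have ht : t ∈ Algebra.adjoin 𝒪 (Set.range π) := hadj ▸ Algebra.mem_top
    induction ht using Algebra.adjoin_induction with
    | mem x hx =>
      obtain ⟨r, rfl⟩ := hx
      obtain ⟨q, hq, hq0⟩ := exists_squarefree_aeval_eq_zero (K := FractionRing 𝒪)
        (B := Module.End (FractionRing 𝒪) (FractionRing 𝒪 ⊗[𝒪] T))
        ((L.toRingHom.comp (Algebra.TensorProduct.includeRight (R := 𝒪)
          (A := FractionRing 𝒪) (B := T)).toRingHom).comp π) r (Algebra.IsIntegral.isIntegral r)
      exact Module.End.isSemisimple_of_squarefree_aeval_eq_zero hq hq0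
    | algebraMap a =>
      have h1 : (1 : FractionRing 𝒪) ⊗ₜ[𝒪] (algebraMap 𝒪 T a) =
          algebraMap (FractionRing 𝒪) (FractionRing 𝒪 ⊗[𝒪] T) (algebraMap 𝒪 (FractionRing 𝒪) a) := by
        rw [Algebra.TensorProduct.algebraMap_apply, Algebra.algebraMap_self, RingHom.id_apply,
          Algebra.algebraMap_eq_smul_one (A := T), TensorProduct.tmul_smul,
          TensorProduct.smul_tmul', Algebra.algebraMap_eq_smul_one (A := FractionRing 𝒪)]
      rw [h1, AlgHom.commutes, Algebra.algebraMap_eq_smul_one]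
      exact Module.End.IsSemisimple_smul _ Module.End.isSemisimple_id
    | add x y _ _ hx hy =>
      rw [TensorProduct.tmul_add, map_add]
      exact Module.End.IsSemisimple.add_of_commute (hcomm _ _) hx hy
    | mul x y _ _ hx hy =>
      have h1 : (1 : FractionRing 𝒪) ⊗ₜ[𝒪] (x * y) = (1 ⊗ₜ x) * (1 ⊗ₜ y) := by
        rw [Algebra.TensorProduct.tmul_mul_tmul, one_mul]
      rw [h1, map_mul]
      exact Module.End.IsSemisimple.mul_of_commute (hcomm _ _) hx hy
  refine ⟨fun t ht => ?_⟩
  have h1 : IsNilpotent (L ((1 : FractionRing 𝒪) ⊗ₜ[𝒪] t)) :=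
    (ht.map (Algebra.TensorProduct.includeRight (R := 𝒪) (A := FractionRing 𝒪) (B := T))).map L
  have h2 := Module.End.eq_zero_of_isNilpotent_isSemisimple h1 (hss t)
  have h3 : (1 : FractionRing 𝒪) ⊗ₜ[𝒪] t = 0 := by
    have h4 := congrArg (fun f => f 1) h2
    simpa [L] using h4
  exact Algebra.TensorProduct.includeRight_injective (R := 𝒪) (A := FractionRing 𝒪) (B := T)
    (IsFractionRing.injective 𝒪 (FractionRing 𝒪)) (by simpa using h3)

/-- In a reduced ring, an element lying in every minimal prime vanishes. -/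
theorem eq_zero_of_forall_mem_minimalPrimes {T : Type*} [CommRing T] [IsReduced T] {x : T}
    (h : ∀ P ∈ minimalPrimes T, x ∈ P) : x = 0 := by
  have h1 : x ∈ sInf (minimalPrimes T) := by
    rw [Ideal.mem_sInf]
    exact fun {P} hP => h P hP
  have h2 : sInf (minimalPrimes T) = nilradical T := by
    rw [minimalPrimes, Ideal.sInf_minimalPrimes, nilradical]
    rfl
  rw [h2, nilradical_eq_zero] at h1
  exact h1

/-- In a reduced ring, an identity may be checked modulo every minimal prime. -/
theorem eq_of_forall_mk_eq {T : Type*} [CommRing T] [IsReduced T] {x y : T}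
    (h : ∀ P ∈ minimalPrimes T, Ideal.Quotient.mk P x = Ideal.Quotient.mk P y) : x = y := by
  rw [← sub_eq_zero]
  refine eq_zero_of_forall_mem_minimalPrimes fun P hP => ?_
  rw [← Ideal.Quotient.eq_zero_iff_mem, map_sub, h P hP, sub_self]

/-- A minimal prime of a ring is a prime ideal. -/
theorem isPrime_of_mem_minimalPrimes {T : Type*} [CommRing T] {P : Ideal T}
    (hP : P ∈ minimalPrimes T) : P.IsPrime := hP.1.1

/-- The elements of a minimal prime are zero divisors: if `T` is torsion-free over a domain `𝒪`,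
then `𝒪 → T ⧸ P` is injective for every minimal prime `P` of `T`. -/
theorem algebraMap_quotient_injective {𝒪 : Type*} [CommRing 𝒪] [IsDomain 𝒪] {T : Type*} [CommRing T]
    [Algebra 𝒪 T] [Module.IsTorsionFree 𝒪 T] {P : Ideal T} (hP : P ∈ minimalPrimes T) :
    Function.Injective (algebraMap 𝒪 (T ⧸ P)) := by
  rw [injective_iff_map_eq_zero]
  intro a ha
  by_contra ha0
  rw [IsScalarTower.algebraMap_apply 𝒪 T (T ⧸ P), Ideal.Quotient.algebraMap_eq,
    Ideal.Quotient.eq_zero_iff_mem] at ha
  have hnzd : algebraMap 𝒪 T a ∈ nonZeroDivisors T := by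
    rw [mem_nonZeroDivisors_iff_right]
    intro x hx
    rw [mul_comm, ← Algebra.smul_def] at hx
    exact (smul_eq_zero_iff_right ha0).mp hx
  exact (Ideal.disjoint_nonZeroDivisors_of_mem_minimalPrimes hP).le_bot ⟨ha, hnzd⟩

end Fermat.Agent.ORD.Alg.RedT83
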