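/-
Program ORD (S33), brick A1 (helper89), file 1: **Cayley–Hamilton by density, abstract form.**

* `pow_add_conj_pow`, `pow_mul_pow_eq` : if `F * F = a • F - δ • 1` in an `A`-algebra then
  `F ^ j + (a • 1 - F) ^ j = V_j(a, δ) • 1` and `F ^ j * F ^ j = V_j(a, δ) • F ^ j - δ ^ j • 1`
  (`V_j` the Lucas sequence of `ES/ALG31/Lucas15`);
* `eq_zero_of_forall_mem_smul_top` : in a finite free module `⋂ (I n • ⊤) = 0` when `⋂ I n = 0`;
* `ch_of_dense` : `M` finite free over `A`, `ρ : G →* End_A M`, `W ≤ M` a `ρ`-stable submodule,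
  `t d : G → A`.  If for every `n`, `g` there are `σ`, `a`, `δ`, `j` such that `ρ σ` satisfies
  `X² - a X + δ` on `W`, `ρ g ≡ (ρ σ) ^ j`, `t g ≡ V_j(a, δ)`, `d g ≡ δ ^ j` modulo `I n`, then every `ρ g`
  satisfies `X² - t(g) X + d(g)` on `W`.
-/
import Mathlib
import Fermat.Agent.ES.ALG.RelDense9
import Fermat.Agent.ES.ALG31.Lucas15

set_option autoImplicit false
set_option linter.unusedSectionVars false

namespace Fermat.Agent.ORD.Alg.CHAbs89

open Module
open Fermat.Agent.ES.ALG.RelDense9 Fermat.Agent.ES.ALG31.Lucas15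

/-! ### Lucas sequences and quadratic relations -/

section Lucas

variable {A : Type*} [CommRing A] {R : Type*} [Ring R] [Algebra A R]

theorem mul_conj (F : R) (a δ : A) (h : F * F = a • F - δ • (1 : R)) :
    F * (a • (1 : R) - F) = δ • (1 : R) := by
  rw [mul_sub, mul_smul_comm, mul_one, h]
  abel

theorem conj_mul (F : R) (a δ : A) (h : F * F = a • F - δ • (1 : R)) :
    (a • (1 : R) - F) * F = δ • (1 : R) := by
  rw [sub_mul, smul_mul_assoc, one_mul, h]
  abel

theorem commute_conj (F : R) (a : A) : Commute F (a • (1 : R) - F) := by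
  refine Commute.sub_right ?_ (Commute.refl F)
  rw [Commute, SemiconjBy, mul_smul_comm, mul_one, smul_mul_assoc, one_mul]

/-- `F ^ j + F' ^ j = V_j(a, δ)` for the two "roots" `F`, `F' = a - F` of `X² - a X + δ`. -/
theorem pow_add_conj_pow (F : R) (a δ : A) (h : F * F = a • F - δ • (1 : R)) (j : ℕ) :
    F ^ j + (a • (1 : R) - F) ^ j = lucasV a δ j • (1 : R) := by
  set F' : R := a • (1 : R) - F with hF'
  have h1 : F * F' = δ • (1 : R) := mul_conj F a δ h
  have h2 : F' * F = δ • (1 : R) := conj_mul F a δ h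
  have hsum : F + F' = a • (1 : R) := by rw [hF']; abel
  induction j using Nat.twoStepInduction with
  | zero => rw [pow_zero, pow_zero, lucasV_zero, two_smul]
  | one => rw [pow_one, pow_one, lucasV_one, hsum]
  | more j h0 h1' =>
    have e : F ^ (j + 2) + F' ^ (j + 2) =
        (F + F') * (F ^ (j + 1) + F' ^ (j + 1)) - (F * F') * (F ^ j + F' ^ j) := by
      have e1 : F ^ (j + 2) = F * (F * F ^ j) := by rw [pow_succ', pow_succ']
      have e2 : F' ^ (j + 2) = F' * (F' * F' ^ j) := by rw [pow_succ', pow_succ']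
      have e3 : F ^ (j + 1) = F * F ^ j := pow_succ' F j
      have e4 : F' ^ (j + 1) = F' * F' ^ j := pow_succ' F' j
      have e5 : F' * (F * F ^ j) = F * F' * F ^ j := by rw [← mul_assoc, h2, h1]
      rw [e1, e2, e3, e4, add_mul, mul_add, mul_add, e5, mul_add]
      rw [show F * (F' * F' ^ j) = F * F' * F' ^ j from (mul_assoc _ _ _).symm]
      abel
    rw [e, h0, h1', hsum, h1, lucasV_add_two, smul_mul_assoc, one_mul, smul_mul_assoc, one_mul,
      smul_smul, smul_smul, sub_smul]

/-- `F ^ j` satisfies `X² - V_j(a, δ) X + δ ^ j`. -/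
theorem pow_mul_pow_eq (F : R) (a δ : A) (h : F * F = a • F - δ • (1 : R)) (j : ℕ) :
    F ^ j * F ^ j = lucasV a δ j • F ^ j - δ ^ j • (1 : R) := by
  have h1 := pow_add_conj_pow F a δ h j
  have h2 : (a • (1 : R) - F) ^ j * F ^ j = δ ^ j • (1 : R) := by
    rw [← (commute_conj F a).symm.mul_pow, conj_mul F a δ h, smul_pow, one_pow]
  have h3 : lucasV a δ j • F ^ j = (F ^ j + (a • (1 : R) - F) ^ j) * F ^ j := by
    rw [h1, smul_mul_assoc, one_mul]
  rw [h3, add_mul, h2]
  abel

end Lucas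

/-! ### Separatedness of a finite free module -/

section Sep

variable {A : Type*} [CommRing A] {M : Type*} [AddCommGroup M] [Module A M]
  [Module.Free A M]

theorem eq_zero_of_forall_mem_smul_top (I : ℕ → Ideal A) (hI : ∀ x : A, (∀ n, x ∈ I n) → x = 0)
    {v : M} (hv : ∀ n, v ∈ I n • (⊤ : Submodule A M)) : v = 0 := by
  let b := Module.Free.chooseBasis A M
  apply b.repr.injective
  rw [map_zero]
  ext i
  rw [Finsupp.zero_apply]
  exact hI _ fun n => repr_mem_of_mem_smul_top b (I n) (hv n) i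

end Sep

/-! ### Cayley–Hamilton by density -/

section Dense

variable {A : Type*} [CommRing A] {M : Type*} [AddCommGroup M] [Module A M]
  [Module.Free A M] {G : Type*} [Group G]

/-- A quadratic relation on a stable submodule passes to powers. -/
theorem quadratic_pow_on (f : Module.End A M) (W : Submodule A M) (hW : ∀ w ∈ W, f w ∈ W)
    (a δ : A) (hq : ∀ w ∈ W, f (f w) - a • f w + δ • w = 0) (j : ℕ) :
    ∀ w ∈ W, (f ^ j) ((f ^ j) w) - lucasV a δ j • (f ^ j) w + δ ^ j • w = 0 := by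
  intro w hw
  set F : Module.End A W := f.restrict hW with hF
  have hFF : F * F = a • F - δ • (1 : Module.End A W) := by
    refine LinearMap.ext fun x => Subtype.ext ?_
    have := hq x x.2
    simp only [hF, Module.End.mul_apply, LinearMap.sub_apply, LinearMap.smul_apply,
      Module.End.one_apply, LinearMap.coe_restrict_apply, Submodule.coe_sub, Submodule.coe_smul]
    rw [← sub_eq_zero]
    rw [← this]
    abel
  have hpow := pow_mul_pow_eq F a δ hFF j
  have hFj : ∀ x : W, ((F ^ j) x : M) = (f ^ j) x := by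
    intro x
    rw [hF, Module.End.pow_restrict j hW]
    rfl
  have := congrArg (fun Φ : Module.End A W => ((Φ ⟨w, hw⟩ : W) : M)) hpow
  simp only [Module.End.mul_apply, LinearMap.sub_apply, LinearMap.smul_apply,
    Module.End.one_apply, Submodule.coe_sub, Submodule.coe_smul] at this
  have h5 : (f ^ j) ((f ^ j) w) = lucasV a δ j • (f ^ j) w - δ ^ j • w := by
    have h6 := hFj ((F ^ j) ⟨w, hw⟩)
    have h7 := hFj ⟨w, hw⟩
    rw [h7] at h6
    rw [← h6, this, h7]
  rw [h5]
  abel

/-- **Cayley–Hamilton by density.** -/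
theorem ch_of_dense (ρ : G →* Module.End A M) (W : Submodule A M)
    (hW : ∀ g, ∀ w ∈ W, ρ g w ∈ W)
    (I : ℕ → Ideal A) (hI : ∀ x : A, (∀ n, x ∈ I n) → x = 0) (t d : G → A)
    (hdense : ∀ (n : ℕ) (g : G), ∃ (σ : G) (a δ : A) (j : ℕ),
      (∀ w ∈ W, ρ σ (ρ σ w) - a • ρ σ w + δ • w = 0) ∧
      EndCongr (I n) (ρ g) (ρ σ ^ j) ∧ t g - lucasV a δ j ∈ I n ∧ d g - δ ^ j ∈ I n)
    (g : G) {w : M} (hw : w ∈ W) :
    ρ g (ρ g w) - t g • ρ g w + d g • w = 0 := by
  refine eq_zero_of_forall_mem_smul_top I hI fun n => ?_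
  obtain ⟨σ, a, δ, j, hq, hcong, ht, hd⟩ := hdense n g
  set X : Module.End A M := ρ σ ^ j with hX
  have hrel := quadratic_pow_on (ρ σ) W (hW σ) a δ hq j w hw
  rw [← hX] at hrel
  have e : ρ g (ρ g w) - t g • ρ g w + d g • w =
      (ρ g (ρ g w - X w) + (ρ g (X w) - X (X w)))
        - ((t g - lucasV a δ j) • ρ g w + lucasV a δ j • (ρ g w - X w))
        + (d g - δ ^ j) • w := by
    have h0 : X (X w) = lucasV a δ j • X w - δ ^ j • w := by
      rw [← sub_eq_zero, ← hrel]
      abel
    rw [h0, map_sub, sub_smul, sub_smul, smul_sub]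
    abel
  rw [e]
  refine Submodule.add_mem _ (Submodule.sub_mem _ (Submodule.add_mem _ ?_ ?_)
    (Submodule.add_mem _ ?_ ?_)) ?_
  · exact map_mem_smul_top (I n) (ρ g) (hcong w)
  · exact hcong (X w)
  · exact Submodule.smul_mem_smul ht Submodule.mem_top
  · exact Submodule.smul_mem _ _ (hcong w)
  · exact Submodule.smul_mem_smul hd Submodule.mem_top

end Dense

end Fermat.Agent.ORD.Alg.CHAbs89
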