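/-
Program ORD (S33), brick A1 (helper89), file 2: **the eigen-submodules of `A ⊗ T_p J₀(L)` are
Cayley–Hamilton modules.**

`A` a domain with a `ℤ_[p]`-algebra structure, `L` a level, `Tbad` a finite set of primes, `c : ℕ → A` a
system of eigenvalues (only the values at the primes `ℓ ∉ Tbad` matter).

* `eigenSub p L A Tbad c` : the submodule of `A ⊗[ℤ_[p]] T_p J₀(L)` on which `T_ℓ ⊗ 1` acts by `c ℓ` for all
  primes `ℓ ∉ Tbad`;
* `rho_mem` (Galois-stable), `saturated`;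
* `cayleyHamilton` : if `t d : G_ℚ → A` are continuous modulo a separated family of ideals `I n` and
  `t (φ ^ j) = V_j(c ℓ, ℓ)`, `d (φ ^ j) = ℓ ^ j` for the Frobenius elements `φ` at `ℓ ∉ Tbad`, then every
  `g ∈ G_ℚ` satisfies `g² - t(g) g + d(g) = 0` on `eigenSub`;
* `cayleyHamilton_rep` : the case `t = tr ρ_A`, `d = det ρ_A` of a `GaloisRepAdic A` with Frobenius
  characteristic polynomials `X² - c ℓ X + ℓ`;
* `rhoLam`, `rhoLam_add_det_smul_inv` : the Galois action on `eigenSub` and Cayley–Hamilton in the shape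
  `hW` of `CHFunctional40`.

The finiteness (K1) of `J₀(L)[p]` is a hypothesis `hfin` here (to keep the import closure small); it is
discharged in `CHDenseFinal89`, which also proves that the eigen-submodule at level `N` is nonzero.
-/
import Mathlib
import Fermat.Agent.ORD.Alg.CHAbs89
import Fermat.Agent.ES.J.TateJZero13
import Fermat.Agent.ES.J.BaseChangeRep8
import Fermat.Agent.ES.GAL.ChebQbar23
import Fermat.Agent.ES.ALG31.TraceDense15

set_option autoImplicit false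
set_option linter.unusedSectionVars false
set_option synthInstance.maxHeartbeats 400000
-- unfolding `TJ p L = TateModule p (JZero L)` under `A ⊗[ℤ_[p]] ·` is expensive (the whole file needs
-- about 4.7M heartbeats, `cayleyHamilton` alone 2.3M)
set_option maxHeartbeats 6400000

open TensorProduct AlgebraicCurve ModularCurve Module Polynomial

noncomputable section

namespace Fermat.Agent.ORD.Alg.CHDense89

open Fermat.Agent.ES.ALG.RelDense9 Fermat.Agent.ES.ALG31.Lucas15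
  Fermat.Agent.ES.J.TateJZero13 Fermat.Agent.ES.J.BaseChangeRep8
  Fermat.Agent.ORD.Alg.CHAbs89

local notation "Qb" => AlgebraicClosure ℚ
local notation "GQ" => (AlgebraicClosure ℚ ≃ₐ[ℚ] AlgebraicClosure ℚ)

/-! ### The eigen-submodule -/

section Eigen

variable (p : ℕ) [Fact p.Prime] (L : ℕ) [NeZero L] (A : Type) [CommRing A] [Algebra ℤ_[p] A]

/-- The submodule of `A ⊗ T_p J₀(L)` on which `T_ℓ` acts by `c ℓ` for all primes `ℓ ∉ Tbad`. -/
def eigenSub (Tbad : Finset ℕ) (c : ℕ → A) : Submodule A (A ⊗[ℤ_[p]] TJ p L) where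
  carrier := {w | ∀ (ℓ : ℕ) (hℓ : ℓ.Prime), ℓ ∉ Tbad →
    (tT p L ⟨ℓ, hℓ⟩).baseChange A w = c ℓ • w}
  add_mem' := by
    intro x y hx hy ℓ hℓ hb
    rw [map_add, hx ℓ hℓ hb, hy ℓ hℓ hb, smul_add]
  zero_mem' := by
    intro ℓ hℓ hb
    rw [map_zero, smul_zero]
  smul_mem' := by
    intro a x hx ℓ hℓ hb
    rw [map_smul, hx ℓ hℓ hb, smul_comm]

variable {p L A}

theorem mem_eigenSub_iff {Tbad : Finset ℕ} {c : ℕ → A} {w : A ⊗[ℤ_[p]] TJ p L} :
    w ∈ eigenSub p L A Tbad c ↔ ∀ (ℓ : ℕ) (hℓ : ℓ.Prime), ℓ ∉ Tbad →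
      (tT p L ⟨ℓ, hℓ⟩).baseChange A w = c ℓ • w := Iff.rfl

/-- The eigen-submodule is stable under the Galois action. -/
theorem rho_mem {Tbad : Finset ℕ} {c : ℕ → A} (g : GQ) {w : A ⊗[ℤ_[p]] TJ p L}
    (hw : w ∈ eigenSub p L A Tbad c) :
    (rhoT p L g).baseChange A w ∈ eigenSub p L A Tbad c := by
  intro ℓ hℓ hb
  have hcomm := (commute_rhoT_tT (p := p) (N := L) g ⟨ℓ, hℓ⟩).eq
  have h1 : (tT p L ⟨ℓ, hℓ⟩).baseChange A * (rhoT p L g).baseChange A =
      (rhoT p L g).baseChange A * (tT p L ⟨ℓ, hℓ⟩).baseChange A := by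
    rw [← LinearMap.baseChange_mul, ← LinearMap.baseChange_mul, hcomm]
  have h2 := LinearMap.congr_fun h1 w
  rw [Module.End.mul_apply, Module.End.mul_apply, hw ℓ hℓ hb, map_smul] at h2
  exact h2

/-- The eigen-submodule is saturated. -/
theorem saturated [IsDomain A] [Module.Free ℤ_[p] (TJ p L)] {Tbad : Finset ℕ} {c : ℕ → A} {a : A}
    (ha : a ≠ 0) {w : A ⊗[ℤ_[p]] TJ p L} (h : a • w ∈ eigenSub p L A Tbad c) :
    w ∈ eigenSub p L A Tbad c := by
  intro ℓ hℓ hb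
  have h1 := h ℓ hℓ hb
  rw [map_smul, smul_comm (c ℓ) a w] at h1
  exact smul_right_injective _ ha h1

/-- Eichler–Shimura on the eigen-submodule. -/
theorem frobenius_on {Tbad : Finset ℕ} {c : ℕ → A} (hp : p ∈ Tbad)
    (hL : ∀ q : ℕ, q.Prime → q ∣ L → q ∈ Tbad)
    {ℓ : ℕ} (hℓ : ℓ.Prime) (hb : ℓ ∉ Tbad) {B : ValuationSubring Qb} (hB : B.LiesOverPrime ℓ)
    {φ : GQ} (hφ : B.IsFrobeniusAt φ ℓ) {w : A ⊗[ℤ_[p]] TJ p L}
    (hw : w ∈ eigenSub p L A Tbad c) :
    (rhoT p L φ).baseChange A ((rhoT p L φ).baseChange A w) - c ℓ • (rhoT p L φ).baseChange A w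
      + (ℓ : A) • w = 0 := by
  have hℓL : ¬ ℓ ∣ L := fun h => hb (hL ℓ hℓ h)
  have hℓp : ℓ ≠ p := fun h => hb (h ▸ hp)
  have hES := rhoT_frobenius (p := p) (N := L) hℓ hℓL hℓp hB hφ
  have h1 := congrArg (fun f : Module.End ℤ_[p] (TJ p L) => f.baseChange A) hES
  simp only [LinearMap.baseChange_add, LinearMap.baseChange_sub, LinearMap.baseChange_mul,
    LinearMap.baseChange_smul, LinearMap.baseChange_zero] at h1
  have h2 := LinearMap.congr_fun h1 w
  rw [LinearMap.add_apply, LinearMap.sub_apply, Module.End.mul_apply, Module.End.mul_apply,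
    LinearMap.smul_apply, LinearMap.baseChange_one, Module.End.one_apply, LinearMap.zero_apply,
    rho_mem φ hw ℓ hℓ hb] at h2
  have h3 : ((ℓ : ℤ_[p])) • w = (ℓ : A) • w := by
    rw [Nat.cast_smul_eq_nsmul, Nat.cast_smul_eq_nsmul]
  rw [h3] at h2
  exact h2

end Eigen

/-! ### Cayley–Hamilton by density -/

section Dense

variable {p : ℕ} [Fact p.Prime] {L : ℕ} [NeZero L] {A : Type} [CommRing A] [Algebra ℤ_[p] A]

/-- **Cayley–Hamilton on the eigen-submodule, for all `g`**, abstract pseudo-character form. -/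
theorem cayleyHamilton (hfin : {y : JZero L | p • y = 0}.Finite)
    {Tbad : Finset ℕ} {c : ℕ → A} (hp : p ∈ Tbad)
    (hL : ∀ q : ℕ, q.Prime → q ∣ L → q ∈ Tbad)
    (I : ℕ → Ideal A) (hI : ∀ x : A, (∀ n, x ∈ I n) → x = 0)
    (hIp : ∀ n, ∃ m : ℕ, (p : A) ^ m ∈ I n) (t d : GQ → A)
    (hcont : ∀ n, ∃ E : IntermediateField ℚ Qb, FiniteDimensional ℚ E ∧
      ∀ g σ : GQ, (∀ a ∈ E, σ a = a) → t (g * σ) - t g ∈ I n ∧ d (g * σ) - d g ∈ I n)
    (hfrob : ∀ ℓ : ℕ, ℓ.Prime → ℓ ∉ Tbad → ∀ B : ValuationSubring Qb, B.LiesOverPrime ℓ →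
      ∀ φ : GQ, B.IsFrobeniusAt φ ℓ → ∀ j : ℕ,
        t (φ ^ j) = lucasV (c ℓ) (ℓ : A) j ∧ d (φ ^ j) = (ℓ : A) ^ j)
    (g : GQ) {w : A ⊗[ℤ_[p]] TJ p L} (hw : w ∈ eigenSub p L A Tbad c) :
    (rhoT p L g).baseChange A ((rhoT p L g).baseChange A w)
      - t g • (rhoT p L g).baseChange A w + d g • w = 0 := by
  obtain ⟨hfinT, hfreeT⟩ := finite_free (p := p) (N := L) hfin
  refine ch_of_dense (bcRep (𝒪 := A) (rhoT p L)) (eigenSub p L A Tbad c)
    (fun g w hw => rho_mem g hw) I hI t d ?_ g hw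
  intro n g
  obtain ⟨m, hm⟩ := hIp n
  obtain ⟨E1, hE1fin, hE1⟩ := rhoT_continuous (p := p) (N := L) hfin m
  obtain ⟨E2, hE2fin, hE2⟩ := hcont n
  obtain ⟨ℓ, B, φ, j, hℓ, hℓb, hB, hφ, hfix⟩ :=
    Fermat.Agent.ES.GAL.ChebQbar23.exists_frobenius_inv_mul_pow_fixes (E1 ⊔ E2) g Tbad
  set σ' : GQ := g⁻¹ * φ ^ j with hσ'
  have hσ1 : ∀ a ∈ E1, σ' a = a := fun a ha => hfix a ((le_sup_left : E1 ≤ E1 ⊔ E2) ha)
  have hσ2 : ∀ a ∈ E2, σ' a = a := fun a ha => hfix a ((le_sup_right : E2 ≤ E1 ⊔ E2) ha)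
  have hgσ : g * σ' = φ ^ j := by rw [hσ', mul_inv_cancel_left]
  obtain ⟨ht, hd⟩ := hE2 g σ' hσ2
  obtain ⟨ht', hd'⟩ := hfrob ℓ hℓ hℓb B hB φ hφ j
  rw [hgσ, ht'] at ht
  rw [hgσ, hd'] at hd
  refine ⟨φ, c ℓ, (ℓ : A), j, fun w hw => frobenius_on hp hL hℓ hℓb hB hφ hw, ?_, ?_, ?_⟩
  · have h1 : EndCongr (I n) ((rhoT p L σ').baseChange A)
        (1 : Module.End A (A ⊗[ℤ_[p]] TJ p L)) :=
      endCongr_baseChange (I n) (rhoT p L σ') ((p : ℤ_[p]) ^ m)
        (by rw [map_pow, map_natCast]; exact hm) (hE1 σ' hσ1)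
    have h2 : bcRep (𝒪 := A) (rhoT p L) φ ^ j =
        bcRep (𝒪 := A) (rhoT p L) g * bcRep (𝒪 := A) (rhoT p L) σ' := by
      rw [← map_pow, ← map_mul, hgσ]
    rw [h2]
    have h3 := (h1.mul_left (bcRep (𝒪 := A) (rhoT p L) g)).symm
    rw [mul_one] at h3
    exact h3
  · have := (I n).neg_mem ht
    rwa [neg_sub] at this
  · have := (I n).neg_mem hd
    rwa [neg_sub] at this

end Dense

/-! ### The pseudo-character of a representation -/

section Rep

variable {A : Type} [CommRing A] {V : Type*} [AddCommGroup V] [Module A V]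
  [Module.Free A V] [Module.Finite A V]

/-- An endomorphism congruent to `1` modulo `I` has determinant congruent to `1`. -/
theorem det_sub_one_mem (I : Ideal A) (f : Module.End A V)
    (hf : ∀ v, f v - v ∈ I • (⊤ : Submodule A V)) : LinearMap.det f - 1 ∈ I := by
  classical
  set b := Module.Free.chooseBasis A V with hb
  rw [← LinearMap.det_toMatrix b]
  have h1 : (Ideal.Quotient.mk I).mapMatrix (LinearMap.toMatrix b b f) = 1 := by
    ext i j
    rw [RingHom.mapMatrix_apply, Matrix.map_apply, LinearMap.toMatrix_apply]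
    have h := Fermat.Agent.ES.ALG31.TraceDense15.repr_mem_of_mem_smul_top b I (hf (b j)) i
    rw [map_sub, Finsupp.sub_apply, Basis.repr_self, Finsupp.single_apply] at h
    rw [Matrix.one_apply]
    by_cases hij : i = j
    · rw [if_pos hij]
      rw [if_pos hij.symm] at h
      rw [← map_one (Ideal.Quotient.mk I)]
      exact Ideal.Quotient.eq.2 h
    · rw [if_neg hij]
      rw [if_neg (Ne.symm hij), sub_zero] at h
      exact Ideal.Quotient.eq_zero_iff_mem.2 h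
  have h2 := RingHom.map_det (Ideal.Quotient.mk I) (LinearMap.toMatrix b b f)
  rw [h1, Matrix.det_one] at h2
  rw [← Ideal.Quotient.eq_zero_iff_mem, map_sub, h2, map_one, sub_self]

end Rep

section RepCH

variable {p : ℕ} [Fact p.Prime] {L : ℕ} [NeZero L] {A : Type} [CommRing A] [Algebra ℤ_[p] A]
  [IsDomain A] [IsLocalRing A] [IsNoetherianRing A]

/-- **Cayley–Hamilton on the eigen-submodule, for all `g`**, for the pseudo-character of a
`GaloisRepAdic A` whose Frobenius characteristic polynomials are `X² - c ℓ X + ℓ` (`ℓ ∉ Tbad`). -/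
theorem cayleyHamilton_rep (hfin : {y : JZero L | p • y = 0}.Finite)
    {Tbad : Finset ℕ} {c : ℕ → A} (hp : p ∈ Tbad)
    (hL : ∀ q : ℕ, q.Prime → q ∣ L → q ∈ Tbad)
    (hpA : (p : A) ∈ IsLocalRing.maximalIdeal A) (ρA : GaloisRepAdic A)
    (hcp : ∀ ℓ : ℕ, ℓ.Prime → ℓ ∉ Tbad → ∀ B : ValuationSubring Qb, B.LiesOverPrime ℓ →
      ∀ φ : GQ, B.IsFrobeniusAt φ ℓ →
        (ρA.ρ φ).charpoly = X ^ 2 - C (c ℓ) * X + C ((ℓ : A)))
    (g : GQ) {w : A ⊗[ℤ_[p]] TJ p L} (hw : w ∈ eigenSub p L A Tbad c) :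
    (rhoT p L g).baseChange A ((rhoT p L g).baseChange A w)
      - LinearMap.trace A ρA.V (ρA.ρ g) • (rhoT p L g).baseChange A w
      + LinearMap.det (ρA.ρ g) • w = 0 := by
  refine cayleyHamilton hfin hp hL (fun n => IsLocalRing.maximalIdeal A ^ n) ?_ ?_
    (fun g => LinearMap.trace A ρA.V (ρA.ρ g)) (fun g => LinearMap.det (ρA.ρ g)) ?_ ?_ g hw
  · intro x hx
    have hK : ⨅ n : ℕ, IsLocalRing.maximalIdeal A ^ n = ⊥ :=
      Ideal.iInf_pow_eq_bot_of_isLocalRing _ (IsLocalRing.maximalIdeal.isMaximal A).ne_top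
    have : x ∈ ⨅ n : ℕ, IsLocalRing.maximalIdeal A ^ n := by
      rw [Ideal.mem_iInf]
      exact hx
    rw [hK] at this
    exact this
  · intro n
    exact ⟨n, Ideal.pow_mem_pow hpA n⟩
  · intro n
    obtain ⟨E, hEfin, hE⟩ := ρA.isAdicContinuous n
    refine ⟨E, hEfin, fun g σ hσ => ⟨?_, ?_⟩⟩
    · exact Fermat.Agent.ES.ALG31.TraceDense15.trace_mul_sub_mem ρA hE g σ hσ
    · have h1 := det_sub_one_mem (IsLocalRing.maximalIdeal A ^ n) (ρA.ρ σ) (hE σ hσ)
      have h2 : LinearMap.det (ρA.ρ (g * σ)) - LinearMap.det (ρA.ρ g) =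
          LinearMap.det (ρA.ρ g) * (LinearMap.det (ρA.ρ σ) - 1) := by
        rw [map_mul, map_mul]
        ring
      rw [h2]
      exact Ideal.mul_mem_left _ _ h1
  · intro ℓ hℓ hℓb B hB φ hφ j
    have hcpφ := hcp ℓ hℓ hℓb B hB φ hφ
    constructor
    · show LinearMap.trace A ρA.V (ρA.ρ (φ ^ j)) = lucasV (c ℓ) (ℓ : A) j
      rw [map_pow]
      exact trace_pow_of_charpoly ρA.finrank_eq (ρA.ρ φ) hcpφ j
    · show LinearMap.det (ρA.ρ (φ ^ j)) = (ℓ : A) ^ j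
      rw [map_pow, map_pow, (trace_det_of_charpoly ρA.finrank_eq (ρA.ρ φ) hcpφ).2]

variable (p L A) in
/-- The Galois action on the eigen-submodule. -/
def rhoLam (Tbad : Finset ℕ) (c : ℕ → A) : GQ →* Module.End A (eigenSub p L A Tbad c) where
  toFun g := ((rhoT p L g).baseChange A).restrict (fun _ hw => rho_mem g hw)
  map_one' := by
    refine LinearMap.ext fun w => Subtype.ext ?_
    rw [LinearMap.coe_restrict_apply, map_one, LinearMap.baseChange_one]
    rfl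
  map_mul' g h := by
    refine LinearMap.ext fun w => Subtype.ext ?_
    rw [LinearMap.coe_restrict_apply, map_mul, LinearMap.baseChange_mul]
    rfl

theorem coe_rhoLam_apply (Tbad : Finset ℕ) (c : ℕ → A) (g : GQ) (w : eigenSub p L A Tbad c) :
    ((rhoLam p L A Tbad c g w : eigenSub p L A Tbad c) : A ⊗[ℤ_[p]] TJ p L) =
      (rhoT p L g).baseChange A (w : A ⊗[ℤ_[p]] TJ p L) := rfl

/-- **Cayley–Hamilton in the shape `hW` of `CHFunctional40`.** -/
theorem rhoLam_add_det_smul_inv (hfin : {y : JZero L | p • y = 0}.Finite)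
    {Tbad : Finset ℕ} {c : ℕ → A} (hp : p ∈ Tbad)
    (hL : ∀ q : ℕ, q.Prime → q ∣ L → q ∈ Tbad)
    (hpA : (p : A) ∈ IsLocalRing.maximalIdeal A) (ρA : GaloisRepAdic A)
    (hcp : ∀ ℓ : ℕ, ℓ.Prime → ℓ ∉ Tbad → ∀ B : ValuationSubring Qb, B.LiesOverPrime ℓ →
      ∀ φ : GQ, B.IsFrobeniusAt φ ℓ →
        (ρA.ρ φ).charpoly = X ^ 2 - C (c ℓ) * X + C ((ℓ : A))) (g : GQ) :
    rhoLam p L A Tbad c g + LinearMap.det (ρA.ρ g) • rhoLam p L A Tbad c g⁻¹ =
      LinearMap.trace A ρA.V (ρA.ρ g) • (1 : Module.End A (eigenSub p L A Tbad c)) := by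
  refine LinearMap.ext fun w => Subtype.ext ?_
  set w' : eigenSub p L A Tbad c := rhoLam p L A Tbad c g⁻¹ w with hw'
  have h1 := cayleyHamilton_rep hfin hp hL hpA ρA hcp g w'.2
  have h2 : (rhoT p L g).baseChange A (w' : A ⊗[ℤ_[p]] TJ p L) = (w : A ⊗[ℤ_[p]] TJ p L) := by
    have : rhoLam p L A Tbad c g (rhoLam p L A Tbad c g⁻¹ w) = w := by
      rw [← Module.End.mul_apply, ← map_mul, mul_inv_cancel, map_one, Module.End.one_apply]
    exact congrArg Subtype.val this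
  rw [h2] at h1
  have hw'c : (w' : A ⊗[ℤ_[p]] TJ p L) =
      (rhoT p L g⁻¹).baseChange A (w : A ⊗[ℤ_[p]] TJ p L) := rfl
  rw [hw'c] at h1
  simp only [LinearMap.add_apply, LinearMap.smul_apply, Module.End.one_apply, Submodule.coe_add,
    Submodule.coe_smul, coe_rhoLam_apply]
  rw [← sub_eq_zero, ← h1]
  abel

end RepCH

end Fermat.Agent.ORD.Alg.CHDense89
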