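/-
Program ORD (S33), brick A1 (helper89), file 3: **the unconditional forms** of `CHDense89` ((K1) =
`S30Final8.k1` plugged in) and **the eigen-submodule at level `N` is nonzero** ((K2) =
`K2Final11.k2` + `KummerSystemJ8`, (FAITH), (EIG): the proof of `S30Glue8.exists_eigenvector_tate`, which
never uses that the coefficient ring is a discrete valuation ring).

* `finite_free_TJ`, `saturated`, `saturated_p` : `T_p J₀(L)` is finite free, `eigenSub` is saturated;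
* `cayleyHamilton_rep`, `rhoLam_add_det_smul_inv` : Cayley–Hamilton on `eigenSub`, for all `g`;
* `exists_eigenvector`, `eigenSub_ne_bot`.
-/
import Mathlib
import Fermat.Agent.ORD.Alg.CHDense89
import Fermat.Agent.ES.J.S30Final8
import Fermat.Agent.ES.J.KummerSystemJ8

set_option autoImplicit false
set_option linter.unusedSectionVars false
set_option linter.overlappingInstances false
set_option synthInstance.maxHeartbeats 400000

open TensorProduct AlgebraicCurve ModularCurve Module Polynomial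

noncomputable section

namespace Fermat.Agent.ORD.Alg.CHDenseFinal89

open Fermat.Agent.ES.J.TateJZero13 Fermat.Agent.ORD.Alg.CHDense89

local notation "Qb" => AlgebraicClosure ℚ
local notation "GQ" => (AlgebraicClosure ℚ ≃ₐ[ℚ] AlgebraicClosure ℚ)

section Uncond

variable {p : ℕ} [Fact p.Prime] {L : ℕ} [NeZero L] {A : Type} [CommRing A] [Algebra ℤ_[p] A]

/-- `T_p J₀(L)` is finite free over `ℤ_[p]`. -/
theorem finite_free_TJ (p : ℕ) [Fact p.Prime] (L : ℕ) [NeZero L] :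
    Module.Finite ℤ_[p] (TJ p L) ∧ Module.Free ℤ_[p] (TJ p L) :=
  finite_free (p := p) (N := L) (Fermat.Agent.ES.J.S30Final8.k1 p L)

/-- The eigen-submodule is saturated. -/
theorem saturated [IsDomain A] {Tbad : Finset ℕ} {c : ℕ → A} {a : A}
    (ha : a ≠ 0) {w : A ⊗[ℤ_[p]] TJ p L} (h : a • w ∈ eigenSub p L A Tbad c) :
    w ∈ eigenSub p L A Tbad c :=
  haveI := (finite_free_TJ p L).2
  CHDense89.saturated ha h

/-- The eigen-submodule is `p`-saturated. -/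
theorem saturated_p [IsDomain A] [CharZero A] {Tbad : Finset ℕ} {c : ℕ → A}
    {w : A ⊗[ℤ_[p]] TJ p L} (h : (p : A) • w ∈ eigenSub p L A Tbad c) :
    w ∈ eigenSub p L A Tbad c :=
  saturated (Nat.cast_ne_zero.2 (Fact.out : p.Prime).ne_zero) h

variable [IsDomain A] [IsLocalRing A] [IsNoetherianRing A]

/-- **Cayley–Hamilton on the eigen-submodule, for all `g`.** -/
theorem cayleyHamilton_rep {Tbad : Finset ℕ} {c : ℕ → A} (hp : p ∈ Tbad)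
    (hL : ∀ q : ℕ, q.Prime → q ∣ L → q ∈ Tbad)
    (hpA : (p : A) ∈ IsLocalRing.maximalIdeal A) (ρA : GaloisRepAdic A)
    (hcp : ∀ ℓ : ℕ, ℓ.Prime → ℓ ∉ Tbad → ∀ B : ValuationSubring Qb, B.LiesOverPrime ℓ →
      ∀ φ : GQ, B.IsFrobeniusAt φ ℓ →
        (ρA.ρ φ).charpoly = X ^ 2 - C (c ℓ) * X + C ((ℓ : A)))
    (g : GQ) {w : A ⊗[ℤ_[p]] TJ p L} (hw : w ∈ eigenSub p L A Tbad c) :
    (rhoT p L g).baseChange A ((rhoT p L g).baseChange A w)
      - LinearMap.trace A ρA.V (ρA.ρ g) • (rhoT p L g).baseChange A w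
      + LinearMap.det (ρA.ρ g) • w = 0 :=
  CHDense89.cayleyHamilton_rep (Fermat.Agent.ES.J.S30Final8.k1 p L) hp hL hpA ρA hcp g hw

/-- **Cayley–Hamilton in the shape `hW` of `CHFunctional40`.** -/
theorem rhoLam_add_det_smul_inv {Tbad : Finset ℕ} {c : ℕ → A} (hp : p ∈ Tbad)
    (hL : ∀ q : ℕ, q.Prime → q ∣ L → q ∈ Tbad)
    (hpA : (p : A) ∈ IsLocalRing.maximalIdeal A) (ρA : GaloisRepAdic A)
    (hcp : ∀ ℓ : ℕ, ℓ.Prime → ℓ ∉ Tbad → ∀ B : ValuationSubring Qb, B.LiesOverPrime ℓ →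
      ∀ φ : GQ, B.IsFrobeniusAt φ ℓ →
        (ρA.ρ φ).charpoly = X ^ 2 - C (c ℓ) * X + C ((ℓ : A))) (g : GQ) :
    rhoLam p L A Tbad c g + LinearMap.det (ρA.ρ g) • rhoLam p L A Tbad c g⁻¹ =
      LinearMap.trace A ρA.V (ρA.ρ g) • (1 : Module.End A (eigenSub p L A Tbad c)) :=
  CHDense89.rhoLam_add_det_smul_inv (Fermat.Agent.ES.J.S30Final8.k1 p L) hp hL hpA ρA hcp g

end Uncond

/-! ### The eigen-submodule at level `N` is nonzero -/

section Nonzero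

open Fermat.Agent.ES.J.S30Glue8 Fermat.Agent.ES.HEQ.FaithInst26 Fermat.Agent.ES.HEQ.FaithFinal26

variable {p : ℕ} [Fact p.Prime] {N : ℕ} [NeZero N] {A : Type} [CommRing A] [Algebra ℤ_[p] A]
  [IsDomain A] [CharZero A]

/-- a nonzero `χ`-eigenvector in `A ⊗ T_p J₀(N)` (`A` any domain of characteristic zero). -/
theorem exists_eigenvector {S : Finset ℕ} (hNS : ∀ q : ℕ, q.Prime → q ∣ N → q ∈ S)
    (χ : CuspForm.heckeAlgebra N 2 (↑S : Set ℕ) →+* A) :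
    ∃ w : A ⊗[ℤ_[p]] TJ p N, w ≠ 0 ∧
      ∀ (ℓ : ℕ) (hℓ : ℓ.Prime) (hℓN : ¬ ℓ ∣ N) (hℓS : ℓ ∉ (↑S : Set ℕ)),
        (tT p N ⟨ℓ, hℓ⟩).baseChange A w = χ (CuspForm.heckeAlgebra.T hℓ hℓN hℓS) • w := by
  have hcmp : TateComparison p N :=
    Fermat.Agent.ES.J.K2Final11.k2 (Fermat.Agent.ES.J.KummerSystemJ8.kummerSystemJ p N)
      (Fermat.Agent.ES.J.KummerSystemJ8.heckeCompatJ p N)
  obtain ⟨ι₀, hι₀, hheck⟩ := hcmp
  have hS : ∀ q : ℕ, q.Prime → q ∣ N → q ∈ (↑S : Set ℕ) := fun q hq hqN => by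
    exact_mod_cast hNS q hq hqN
  let g : TJ p N →ₗ[ℤ_[p]] A ⊗[ℤ_[p]] TJ p N := TensorProduct.mk ℤ_[p] A (TJ p N) 1
  have hg : IsBaseChange A g := TensorProduct.isBaseChange ℤ_[p] (TJ p N) A
  have hι : IsBaseChange A ((g.restrictScalars ℤ).comp ι₀) := IsBaseChange.comp hι₀ hg
  obtain ⟨w, hw0, hw⟩ :=
    Fermat.Agent.ES.ALG.EigenNonzero9.exists_eigenvector_of_isBaseChange
      ((g.restrictScalars ℤ).comp ι₀) hι
      ((heckeLam (N := N) (↑S : Set ℕ) hS : _ →ₐ[ℤ] _) : _ →+* _)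
      (heckeLam_injective (↑S : Set ℕ) hS) χ
  refine ⟨w, hw0, fun ℓ hℓ hℓN hℓS => ?_⟩
  refine hw (CuspForm.heckeAlgebra.T hℓ hℓN hℓS) ((tT p N ⟨ℓ, hℓ⟩).baseChange A) fun x => ?_
  show (tT p N ⟨ℓ, hℓ⟩).baseChange A ((1 : A) ⊗ₜ[ℤ_[p]] ι₀ x) =
    (1 : A) ⊗ₜ[ℤ_[p]] ι₀ (heckeLam (↑S : Set ℕ) hS (CuspForm.heckeAlgebra.T hℓ hℓN hℓS) x)
  rw [LinearMap.baseChange_tmul, hheck ℓ hℓ hℓN x, heckeLam_T' (↑S : Set ℕ) hS ℓ hℓ hℓN hℓS]

/-- **The eigen-submodule at level `N` is nonzero.** -/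
theorem eigenSub_ne_bot {S : Finset ℕ} (hNS : ∀ q : ℕ, q.Prime → q ∣ N → q ∈ S)
    (χ : CuspForm.heckeAlgebra N 2 (↑S : Set ℕ) →+* A) {Tbad : Finset ℕ} (hS : S ⊆ Tbad)
    {c : ℕ → A}
    (hc : ∀ (ℓ : ℕ) (hℓ : ℓ.Prime) (hℓN : ¬ ℓ ∣ N) (hℓS : ℓ ∉ (↑S : Set ℕ)),
      c ℓ = χ (CuspForm.heckeAlgebra.T hℓ hℓN hℓS)) :
    eigenSub p N A Tbad c ≠ ⊥ := by
  obtain ⟨w, hw0, hw⟩ := exists_eigenvector (p := p) hNS χ
  intro hbot
  apply hw0
  have hmem : w ∈ eigenSub p N A Tbad c := by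
    intro ℓ hℓ hb
    have hℓS : ℓ ∉ (↑S : Set ℕ) := fun h => hb (hS (by exact_mod_cast h))
    have hℓN : ¬ ℓ ∣ N := fun h => hb (hS (hNS ℓ hℓ h))
    rw [hw ℓ hℓ hℓN hℓS, hc ℓ hℓ hℓN hℓS]
  rw [hbot, Submodule.mem_bot] at hmem
  exact hmem

end Nonzero

end Fermat.Agent.ORD.Alg.CHDenseFinal89
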