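/-
ORD (S33), chapter ALG, brick A3 — helper40.

**The point criterion** (ORD-PLAN v1, §0 (c)).  Pure algebra, Mathlib only.

`A` a domain, `Λ` an `A`-module with an action `ρ` of a group `G` satisfying the Cayley–Hamilton
relation in the form `ρ g + δ g • ρ g⁻¹ = t g • 1` for ALL `g` (i.e. `ρ g ^ 2 - t g • ρ g + δ g = 0`),
`I ≤ D` subgroups with `I` normalised by `D`, and `lam : Λ →ₗ[A] A` a NONZERO functional invariant
under `I`.  Then, for every `σ₀ ∈ I`, with `α := δ σ₀` and `Dfun g := α * t g - t (g * σ₀)`: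

* `(I1)`  `t h = 1 + δ h` for all `h ∈ I`;
* `(I2)`  `(α - 1) * Dfun (h * g) = Dfun h * Dfun g` for all `h ∈ D`, `g ∈ G`.

These are exactly the trace identities which force a rank-two representation with trace `t`,
determinant `δ` and irreducible residual representation to be ordinary (brick A4).
-/
import Mathlib

set_option autoImplicit false
set_option linter.unusedSectionVars false

namespace Fermat.Agent.ORD.Alg.CHFunctional40

variable {G : Type*} [Group G] {A : Type*} [CommRing A] [IsDomain A]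
  {Λ : Type*} [AddCommGroup Λ] [Module A Λ]

/-- The function `D(g) = α t(g) - t(g σ₀)`, `α = δ σ₀`.  In an eigenbasis of `σ₀` (eigenvalues
`α`, `1`) it is `(α - 1)` times the lower right matrix coefficient. -/
def Dfun (t : G → A) (δ : G →* A) (σ₀ g : G) : A := δ σ₀ * t g - t (g * σ₀)

/-- a scalar killing a nonzero functional is zero. -/
theorem eq_zero_of_smul_functional {lam : Λ →ₗ[A] A} (hlam : lam ≠ 0) {a : A}
    (h : ∀ x, a * lam x = 0) : a = 0 := by
  by_contra ha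
  apply hlam
  ext x
  rcases mul_eq_zero.mp (h x) with h1 | h1
  · exact absurd h1 ha
  · simpa using h1

section

variable (ρ : G →* Module.End A Λ) (t : G → A) (δ : G →* A)
  (hW : ∀ g : G, ρ g + δ g • ρ g⁻¹ = t g • (1 : Module.End A Λ))
  (I : Subgroup G) (lam : Λ →ₗ[A] A) (hlam : lam ≠ 0)
  (hinv : ∀ σ ∈ I, ∀ x, lam (ρ σ x) = lam x)

include hW hlam hinv

/-- **(I1)**: on `I` the trace is `1 + δ`. -/
theorem trace_eq_one_add (h : G) (hh : h ∈ I) : t h = 1 + δ h := by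
  rw [← sub_eq_zero]
  refine eq_zero_of_smul_functional hlam fun x => ?_
  have h1 := congrArg (fun f => lam (f x)) (hW h)
  simp only [LinearMap.add_apply, LinearMap.smul_apply, Module.End.one_apply, map_add, map_smul,
    smul_eq_mul] at h1
  rw [hinv h hh, hinv h⁻¹ (I.inv_mem hh)] at h1
  rw [sub_mul, ← h1]
  ring

/-- `t 1 = 2`. -/
theorem trace_one : t 1 = 2 := by
  have := trace_eq_one_add ρ t δ hW I lam hlam hinv 1 I.one_mem
  rw [this, map_one]
  norm_num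

/-- the key operator identity, read through an `I`-invariant functional `μ`:
`D(g) μ = μ ∘ ρ g ∘ (α - ρ σ₀)`. -/
theorem Dfun_mul_functional (σ₀ : G) (hσ₀ : σ₀ ∈ I) (μ : Λ →ₗ[A] A)
    (hμ : ∀ σ ∈ I, ∀ x, μ (ρ σ x) = μ x) (g : G) (x : Λ) :
    Dfun t δ σ₀ g * μ x = μ (ρ g (δ σ₀ • x - ρ σ₀ x)) := by
  have h1 := congrArg (fun f => μ (f x)) (hW g)
  have h2 := congrArg (fun f => μ (f x)) (hW (g * σ₀))
  simp only [LinearMap.add_apply, LinearMap.smul_apply, Module.End.one_apply, map_add, map_smul,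
    smul_eq_mul] at h1 h2
  have e1 : ρ (g * σ₀)⁻¹ x = ρ σ₀⁻¹ (ρ g⁻¹ x) := by
    rw [mul_inv_rev, map_mul]; rfl
  have e2 : ρ (g * σ₀) x = ρ g (ρ σ₀ x) := by
    rw [map_mul]; rfl
  rw [e1, hμ σ₀⁻¹ (I.inv_mem hσ₀), e2, map_mul] at h2
  rw [Dfun, sub_mul, mul_assoc, ← h1, ← h2, map_sub, map_sub, map_smul, map_smul, smul_eq_mul]
  ring

/-- **(I2)**: multiplicativity of `D` against the decomposition group. -/
theorem Dfun_mul (D : Subgroup G)
    (hnorm : ∀ h ∈ D, ∀ σ ∈ I, h⁻¹ * σ * h ∈ I)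
    (σ₀ : G) (hσ₀ : σ₀ ∈ I) (h : G) (hh : h ∈ D) (g : G) :
    (δ σ₀ - 1) * Dfun t δ σ₀ (h * g) = Dfun t δ σ₀ h * Dfun t δ σ₀ g := by
  -- the functional `lam ∘ ρ h` is again `I`-invariant
  set μ : Λ →ₗ[A] A := lam.comp (ρ h) with hμdef
  have hμ : ∀ σ ∈ I, ∀ x, μ (ρ σ x) = μ x := by
    intro σ hσ x
    have e : ρ h (ρ σ x) = ρ (h * σ * h⁻¹) (ρ h x) := by
      have : ρ (h * σ * h⁻¹) (ρ h x) = ρ (h * σ * h⁻¹ * h) x := by
        rw [map_mul (ρ) (h * σ * h⁻¹) h]; rfl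
      rw [this, inv_mul_cancel_right, map_mul]; rfl
    show lam (ρ h (ρ σ x)) = lam (ρ h x)
    rw [e]
    refine hinv _ ?_ _
    have := hnorm h⁻¹ (D.inv_mem hh) σ hσ
    rwa [inv_inv] at this
  -- (***): D(h g) lam = D(g) (lam ∘ h)
  have h3 : ∀ x, Dfun t δ σ₀ (h * g) * lam x = Dfun t δ σ₀ g * μ x := by
    intro x
    rw [Dfun_mul_functional ρ t δ hW I lam hlam hinv σ₀ hσ₀ lam hinv (h * g) x,
      Dfun_mul_functional ρ t δ hW I lam hlam hinv σ₀ hσ₀ μ hμ g x, map_mul]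
    rfl
  -- g = 1: (α - 1) (lam ∘ h) = D(h) lam
  have hD1 : Dfun t δ σ₀ 1 = δ σ₀ - 1 := by
    rw [Dfun, one_mul, trace_one ρ t δ hW I lam hlam hinv,
      trace_eq_one_add ρ t δ hW I lam hlam hinv σ₀ hσ₀]
    ring
  have h3one : ∀ x, Dfun t δ σ₀ (h * 1) * lam x = Dfun t δ σ₀ 1 * μ x := by
    intro x
    rw [Dfun_mul_functional ρ t δ hW I lam hlam hinv σ₀ hσ₀ lam hinv (h * 1) x,
      Dfun_mul_functional ρ t δ hW I lam hlam hinv σ₀ hσ₀ μ hμ 1 x, map_mul]
    rfl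
  have h4 : ∀ x, Dfun t δ σ₀ h * lam x = (δ σ₀ - 1) * μ x := by
    intro x
    have := h3one x
    rwa [mul_one, hD1] at this
  rw [← sub_eq_zero]
  refine eq_zero_of_smul_functional hlam fun x => ?_
  have e1 := h3 x
  have e2 := h4 x
  have : ((δ σ₀ - 1) * Dfun t δ σ₀ (h * g) - Dfun t δ σ₀ h * Dfun t δ σ₀ g) * lam x =
      (δ σ₀ - 1) * (Dfun t δ σ₀ (h * g) * lam x) -
        Dfun t δ σ₀ g * (Dfun t δ σ₀ h * lam x) := by ring
  rw [this, e1, e2]
  ring

end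

end Fermat.Agent.ORD.Alg.CHFunctional40
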