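/-
Program ORD (S33), chapter ALG, brick A1 (helper95).

**The determinant of the Galois representation of a Hecke-Galois datum is the `p`-adic
cyclotomic character.**

* `det_sub_one_mem` : an endomorphism of a finite free module which is `≡ 1` modulo `I` has
  determinant `≡ 1` modulo `I`;
* `det_eq_cycloO` : a `GaloisRepAdic A` (`A` complete local, `p ∈ 𝔪_A`) whose Frobenius elements
  at the primes `ℓ` outside a finite set have determinant `ℓ` has `det ρ(σ) = ε(σ)` for every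
  `σ`, where `ε = CycloChar8.cycloO` is the `A`-valued cyclotomic character
  (Chebotarev in generator form `ChebQbar23` + continuity + Krull);
* `detIsCyclotomic_of_frob` : the same conclusion in the Prelude form `ρ.DetIsCyclotomic p`;
* `detIsCyclotomic` : for a `CuspForm.HeckeGaloisRepDatum N S 𝒪 θ T` and a prime `p ∈ 𝔪_𝒪`
  (no hypothesis on `p` versus `N`, `S`): `H.ρ.DetIsCyclotomic p`;
* `det_eq_cycloO_of_datum` : `det H.ρ(σ) = ε(σ)` in `T`.
-/
import Mathlib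
import Fermat.Prelude.Def_CuspForm_HeckeGaloisRepDatum
import Fermat.Prelude.Def_GaloisRep_LocalConditions
import Fermat.Agent.ES.GAL.ChebQbar23
import Fermat.Agent.ES.J.CycloChar8

set_option autoImplicit false

noncomputable section

namespace Fermat.Agent.ORD.Alg.DetCyclo95

open Polynomial
open Fermat.Agent.ES.J Fermat.Agent.ES.J.CycloChar8

local notation "Qb" => AlgebraicClosure ℚ
local notation "GQ" => (AlgebraicClosure ℚ ≃ₐ[ℚ] AlgebraicClosure ℚ)

/-! ### determinants modulo an ideal -/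

/-- An endomorphism of a finite free module congruent to `1` modulo `I` has determinant
congruent to `1` modulo `I`. -/
theorem det_sub_one_mem {A : Type*} [CommRing A] {V : Type*} [AddCommGroup V] [Module A V]
    [Module.Free A V] [Module.Finite A V] (I : Ideal A) (f : Module.End A V)
    (hf : ∀ v, f v - v ∈ I • (⊤ : Submodule A V)) : LinearMap.det f - 1 ∈ I := by
  classical
  let b := Module.Free.chooseBasis A V
  rw [← LinearMap.det_toMatrix b, ← Ideal.Quotient.eq, RingHom.map_det, map_one]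
  have hM : (Ideal.Quotient.mk I).mapMatrix (LinearMap.toMatrix b b f) = 1 := by
    ext i j
    rw [RingHom.mapMatrix_apply, Matrix.map_apply, LinearMap.toMatrix_apply, Matrix.one_apply]
    have h2 : b.repr (f (b j) - b j) i ∈ I := by
      refine Submodule.smul_induction_on (p := fun x => b.repr x i ∈ I) (hf (b j)) ?_ ?_
      · intro a ha w _
        rw [map_smul, Finsupp.smul_apply, smul_eq_mul]
        exact Ideal.mul_mem_right _ _ ha
      · intro x y hx hy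
        rw [map_add, Finsupp.add_apply]
        exact Ideal.add_mem _ hx hy
    rw [map_sub, Finsupp.sub_apply, b.repr_self, Finsupp.single_apply] at h2
    have h3 := Ideal.Quotient.eq.mpr h2
    rw [h3]
    by_cases hij : i = j
    · subst hij
      simp
    · rw [if_neg hij, if_neg (fun h => hij h.symm), map_zero]
  rw [hM, Matrix.det_one]

/-! ### the abstract core -/

section Abstract

variable (p : ℕ) [hp : Fact p.Prime] {A : Type} [CommRing A] [IsLocalRing A]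
  [IsAdicComplete (IsLocalRing.maximalIdeal A) A]
  (hpA : (p : A) ∈ IsLocalRing.maximalIdeal A)

omit hp in
/-- `⋂ 𝔪_A ^ n = 0`. -/
theorem eq_zero_of_forall_mem_pow (x : A) (hx : ∀ n, x ∈ IsLocalRing.maximalIdeal A ^ n) :
    x = 0 := by
  have hH : IsHausdorff (IsLocalRing.maximalIdeal A) A := inferInstance
  apply hH.haus x
  intro n
  rw [SModEq.zero, smul_eq_mul, Ideal.mul_top]
  exact hx n

/-- **`det ρ = ε`** for an adic Galois representation whose Frobenius elements outside a finite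
set of primes have determinant `ℓ`. -/
theorem det_eq_cycloO (ρ : GaloisRepAdic A) (Tbad : Finset ℕ)
    (hfrob : ∀ ℓ : ℕ, ℓ.Prime → ℓ ∉ Tbad → ∀ B : ValuationSubring Qb, B.LiesOverPrime ℓ →
      ∀ φ : GQ, B.IsFrobeniusAt φ ℓ → LinearMap.det (ρ.ρ φ) = (ℓ : A)) (σ : GQ) :
    LinearMap.det (ρ.ρ σ) = (cycloO p hpA σ : A) := by
  rw [← sub_eq_zero]
  apply eq_zero_of_forall_mem_pow
  intro k
  obtain ⟨L1, hL1, h1⟩ := ρ.isAdicContinuous k
  obtain ⟨L2, hL2, h2⟩ := cycloO_sub_one_mem p hpA k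
  have := hL1
  have := hL2
  obtain ⟨ℓ, B, φ, j, hℓ, hℓT, hB, hφ, hfix⟩ :=
    Fermat.Agent.ES.GAL.ChebQbar23.exists_frobenius_inv_mul_pow_fixes (L1 ⊔ L2) σ (insert p Tbad)
  have hℓp : ℓ ≠ p := fun h => hℓT (h ▸ Finset.mem_insert_self _ _)
  have hℓbad : ℓ ∉ Tbad := fun h => hℓT (Finset.mem_insert_of_mem h)
  obtain ⟨τ, hτ⟩ : ∃ τ : GQ, τ = σ⁻¹ * φ ^ j := ⟨_, rfl⟩
  have hστ : σ * τ = φ ^ j := by rw [hτ, mul_inv_cancel_left]
  -- the two congruences for `τ`
  have e1 : LinearMap.det (ρ.ρ τ) - 1 ∈ IsLocalRing.maximalIdeal A ^ k :=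
    det_sub_one_mem _ _ (h1 τ fun x hx => by
      rw [hτ]; exact hfix x ((le_sup_left : L1 ≤ L1 ⊔ L2) hx))
  have e2 : (cycloO p hpA τ : A) - 1 ∈ IsLocalRing.maximalIdeal A ^ k :=
    h2 τ fun x hx => by
      rw [hτ]; exact hfix x ((le_sup_right : L2 ≤ L1 ⊔ L2) hx)
  -- the two characters agree on `φ ^ j`
  have e3 : LinearMap.det (ρ.ρ (φ ^ j)) = (cycloO p hpA (φ ^ j) : A) := by
    rw [map_pow, map_pow, map_pow, Units.val_pow_eq_pow_val, hfrob ℓ hℓ hℓbad B hB φ hφ,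
      cycloO_of_isFrobeniusAt p hpA hℓ hℓp B hB hφ]
  rw [← hστ, map_mul, map_mul, map_mul, Units.val_mul] at e3
  -- `d (1 + a) = c (1 + b)` with `a, b ∈ 𝔪 ^ k`
  have key : LinearMap.det (ρ.ρ σ) - (cycloO p hpA σ : A) =
      (cycloO p hpA σ : A) * ((cycloO p hpA τ : A) - 1) -
        LinearMap.det (ρ.ρ σ) * (LinearMap.det (ρ.ρ τ) - 1) := by
    rw [mul_sub, mul_sub, ← e3]
    ring
  rw [key]
  exact Ideal.sub_mem _ (Ideal.mul_mem_left _ _ e2) (Ideal.mul_mem_left _ _ e1)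

include hpA in
/-- **`ρ.DetIsCyclotomic p`** for an adic Galois representation whose Frobenius elements outside
a finite set of primes have determinant `ℓ`. -/
theorem detIsCyclotomic_of_frob (ρ : GaloisRepAdic A) (Tbad : Finset ℕ)
    (hfrob : ∀ ℓ : ℕ, ℓ.Prime → ℓ ∉ Tbad → ∀ B : ValuationSubring Qb, B.LiesOverPrime ℓ →
      ∀ φ : GQ, B.IsFrobeniusAt φ ℓ → LinearMap.det (ρ.ρ φ) = (ℓ : A)) :
    ρ.DetIsCyclotomic p := by
  refine ⟨hpA, fun n σ a ha => ?_⟩
  rw [det_eq_cycloO p hpA ρ Tbad hfrob σ, coe_cycloO]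
  obtain ⟨ζ, hζ⟩ := exists_primitiveRoot p n
  have h1 := toZModPow_cyclo p hζ (ha ζ hζ.pow_eq_one)
  have h2 : (cyclo p σ : ℤ_[p]) - (a : ℤ_[p]) ∈ Ideal.span {(p : ℤ_[p]) ^ n} := by
    rw [← PadicInt.ker_toZModPow, RingHom.mem_ker, map_sub, h1, map_natCast, sub_self]
  obtain ⟨y, hy⟩ := Ideal.mem_span_singleton'.mp h2
  refine Ideal.mem_span_singleton'.mpr ⟨PadicAlg8.padicToLocal p hpA y, ?_⟩
  rw [← map_natCast (PadicAlg8.padicToLocal p hpA) a, ← map_sub, ← hy, map_mul, map_pow,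
    map_natCast, Nat.cast_pow]

end Abstract

/-! ### Hecke-Galois data -/

section Datum

variable {p : ℕ} {N : ℕ} [NeZero N] {S : Finset ℕ}
  {𝒪 : Type} [CommRing 𝒪] [IsDomain 𝒪] [IsDiscreteValuationRing 𝒪]
  [IsAdicComplete (IsLocalRing.maximalIdeal 𝒪) 𝒪]
  {θ : CuspForm.heckeAlgebra N 2 (↑S : Set ℕ) →+* IsLocalRing.ResidueField 𝒪}
  {T : Type} [CommRing T] [IsLocalRing T] [IsNoetherianRing T]
  [IsAdicComplete (IsLocalRing.maximalIdeal T) T] [Algebra 𝒪 T] [IsLocalHom (algebraMap 𝒪 T)]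
  [Module.Finite 𝒪 T] [Module.Free 𝒪 T]

omit [IsDomain 𝒪] [IsDiscreteValuationRing 𝒪] [IsAdicComplete (IsLocalRing.maximalIdeal 𝒪) 𝒪]
  [IsNoetherianRing T] [IsAdicComplete (IsLocalRing.maximalIdeal T) T] [Module.Finite 𝒪 T]
  [Module.Free 𝒪 T] [NeZero N] in
/-- `p ∈ 𝔪_T`. -/
theorem natCast_mem_maximalIdeal [IsLocalRing 𝒪]
    (hp𝒪 : (p : 𝒪) ∈ IsLocalRing.maximalIdeal 𝒪) : (p : T) ∈ IsLocalRing.maximalIdeal T := by
  rw [IsLocalRing.mem_maximalIdeal, mem_nonunits_iff] at hp𝒪 ⊢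
  intro h
  apply hp𝒪
  have : IsUnit (algebraMap 𝒪 T (p : 𝒪)) := by rwa [map_natCast]
  exact isUnit_of_map_unit (algebraMap 𝒪 T) _ this

/-- The determinant of a Frobenius element in a Hecke-Galois datum. -/
theorem det_frob (H : CuspForm.HeckeGaloisRepDatum N (↑S : Set ℕ) 𝒪 θ T)
    (ℓ : ℕ) (hℓ : ℓ.Prime) (hℓbad : ℓ ∉ S ∪ N.primeFactors)
    (B : ValuationSubring Qb) (hB : B.LiesOverPrime ℓ) (φ : GQ) (hφ : B.IsFrobeniusAt φ ℓ) :
    LinearMap.det (H.ρ.ρ φ) = (ℓ : T) := by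
  have hℓS : ℓ ∉ (↑S : Set ℕ) := fun h => hℓbad (Finset.mem_union_left _ (Finset.mem_coe.mp h))
  have hℓN : ¬ ℓ ∣ N := fun h =>
    hℓbad (Finset.mem_union_right _ (Nat.mem_primeFactors.mpr ⟨hℓ, h, NeZero.ne N⟩))
  have hc := H.charpoly_frob ℓ hℓ hℓN hℓS B hB φ hφ
  rw [LinearMap.det_eq_sign_charpoly_coeff, hc, H.ρ.finrank_eq]
  simp

/-- **A1.** The Galois representation of a Hecke-Galois datum has cyclotomic determinant. -/
theorem detIsCyclotomic (hp : p.Prime) (hp𝒪 : (p : 𝒪) ∈ IsLocalRing.maximalIdeal 𝒪)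
    (H : CuspForm.HeckeGaloisRepDatum N (↑S : Set ℕ) 𝒪 θ T) : H.ρ.DetIsCyclotomic p := by
  have : Fact p.Prime := ⟨hp⟩
  exact detIsCyclotomic_of_frob p (natCast_mem_maximalIdeal hp𝒪) H.ρ (S ∪ N.primeFactors)
    (det_frob H)

/-- **A1, character form.** `det ρ(σ) = ε(σ)` in `T`. -/
theorem det_eq_cycloO_of_datum [hp : Fact p.Prime]
    (hp𝒪 : (p : 𝒪) ∈ IsLocalRing.maximalIdeal 𝒪)
    (H : CuspForm.HeckeGaloisRepDatum N (↑S : Set ℕ) 𝒪 θ T) (σ : GQ) :
    LinearMap.det (H.ρ.ρ σ) = (cycloO p (natCast_mem_maximalIdeal (T := T) hp𝒪) σ : T) :=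
  det_eq_cycloO p (natCast_mem_maximalIdeal hp𝒪) H.ρ (S ∪ N.primeFactors) (det_frob H) σ

end Datum

end Fermat.Agent.ORD.Alg.DetCyclo95
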