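/-
ORD (S33), brick D1, last step — helper83.  **Hecke equivariance on Tate modules is automatic.**

`PushEigenLite93.TateHeckeEquivariant p N M Tbad` (the one hypothesis of helper93's D1 for
`GeoLite40.GeoDataLite`) holds as soon as `Tbad` contains `p` and the primes dividing `N` and `M`:
a Galois-equivariant `ℤ_[p]`-linear map `F : T_p J₀(N) → T_p J₀(M)` commutes with `T_ℓ` because
`T_ℓ = ρ(φ) + ℓ ρ(φ)⁻¹` at both levels for a Frobenius element `φ` at `ℓ` (Eichler–Shimura,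
`ES/ALG31/TateLevelW13.rhoT_add_smul_inv`; same proof as `ES/N35/QNewCore19.push_tT`, restated here
with `TateModule p (JZero N)`, `rho p (JZero N)`, `PushEigen93.tHecke` to keep the closure small).

* `push_tHecke`           : `F (T_ℓ y) = T_ℓ (F y)` for `ℓ ∤ N M p`;
* `tateHeckeEquivariant`  : `TateHeckeEquivariant p N M Tbad`;
* `geoDataLite_push_eq_zero'` : D1 for `GeoDataLite`, hypothesis-free.
-/
import Mathlib
import Fermat.Agent.ORD.Alg.PushEigenLite93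
import Fermat.Agent.ES.ALG31.TateLevelW13
import Fermat.Agent.S54.FrobeniusExists

set_option autoImplicit false
set_option linter.unusedSectionVars false

open TensorProduct

noncomputable section

namespace Fermat.Agent.ORD.Alg.TateHeckeEq83

open Fermat.Agent.ES.J.TateModule13 Fermat.Agent.ES.J.TateJZero13 Fermat.Agent.ORD.Alg.PushEigen93
  Fermat.Agent.ORD.Alg.PushEigenLite93 Fermat.Agent.ORD.Spec ModularCurve

local notation "Qb" => AlgebraicClosure ℚ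
local notation "GQ" => (AlgebraicClosure ℚ ≃ₐ[ℚ] AlgebraicClosure ℚ)

variable {p : ℕ} [hp : Fact p.Prime] {N M : ℕ} [NeZero N] [NeZero M]

/-- A Galois-equivariant map between Tate modules commutes with `T_ℓ`, `ℓ ∤ N M p`
(same statement as `QNewCore19.push_tT`). -/
theorem push_tT' (D : TJ p N →ₗ[ℤ_[p]] TJ p M)
    (hD : ∀ (σ : GQ) (x : TJ p N), D (rhoT p N σ x) = rhoT p M σ (D x))
    {ℓ : ℕ} (hℓ : ℓ.Prime) (hℓN : ¬ ℓ ∣ N) (hℓM : ¬ ℓ ∣ M) (hℓp : ℓ ≠ p) (x : TJ p N) :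
    D (tT p N ⟨ℓ, hℓ⟩ x) = tT p M ⟨ℓ, hℓ⟩ (D x) := by
  obtain ⟨B, φ, hB, hφ⟩ := Fermat.Agent.S54.exists_isFrobeniusAt ℓ hℓ
  have e1 := Fermat.Agent.ES.ALG31.TateLevelW13.rhoT_add_smul_inv (p := p) (N := N) hℓ hℓN hℓp
    hB hφ
  have e2 := Fermat.Agent.ES.ALG31.TateLevelW13.rhoT_add_smul_inv (p := p) (N := M) hℓ hℓM hℓp
    hB hφ
  have f1 : tT p N ⟨ℓ, hℓ⟩ x = rhoT p N φ x + (ℓ : ℤ_[p]) • rhoT p N φ⁻¹ x := by
    rw [← e1]; rfl
  have f2 : tT p M ⟨ℓ, hℓ⟩ (D x) = rhoT p M φ (D x) + (ℓ : ℤ_[p]) • rhoT p M φ⁻¹ (D x) := by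
    rw [← e2]; rfl
  rw [f1, f2, map_add, map_smul, hD, hD]

/-- the same with `TateModule p (JZero N)`, `rho p (JZero N)`, `PushEigen93.tHecke`. -/
theorem push_tHecke (F : TateModule p (JZero N) →ₗ[ℤ_[p]] TateModule p (JZero M))
    (hF : ∀ (σ : GQ) (x : TateModule p (JZero N)),
      F (rho p (JZero N) σ x) = rho p (JZero M) σ (F x))
    {ℓ : ℕ} (hℓ : ℓ.Prime) (hℓN : ¬ ℓ ∣ N) (hℓM : ¬ ℓ ∣ M) (hℓp : ℓ ≠ p)
    (y : TateModule p (JZero N)) :
    F (tHecke p N ⟨ℓ, hℓ⟩ y) = tHecke p M ⟨ℓ, hℓ⟩ (F y) :=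
  push_tT' F hF hℓ hℓN hℓM hℓp y

/-- **`TateHeckeEquivariant` holds** for `Tbad ⊇ {p} ∪ primes of N ∪ primes of M`. -/
theorem tateHeckeEquivariant (Tbad : Finset ℕ) (hpT : p ∈ Tbad)
    (hN : ∀ q : ℕ, q.Prime → q ∣ N → q ∈ Tbad) (hM : ∀ q : ℕ, q.Prime → q ∣ M → q ∈ Tbad) :
    TateHeckeEquivariant p N M Tbad := by
  intro F hF ℓ hℓ hℓT y
  exact push_tHecke F hF hℓ (fun h => hℓT (hN ℓ hℓ h)) (fun h => hℓT (hM ℓ hℓ h))
    (fun h => hℓT (h ▸ hpT)) y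

/-- **D1 for `GeoDataLite`, hypothesis-free**: if the level-`M` eigen-submodule vanishes, both
pushes kill the level-`N` eigen-submodule. -/
theorem geoDataLite_push_eq_zero' {A : Type*} [CommRing A] [Algebra ℤ_[p] A]
    {P : ValuationSubring Qb} (D : GeoLite40.GeoDataLite p N M P)
    (Tbad : Finset ℕ) (hpT : p ∈ Tbad)
    (hN : ∀ q : ℕ, q.Prime → q ∣ N → q ∈ Tbad) (hM : ∀ q : ℕ, q.Prime → q ∣ M → q ∈ Tbad)
    (c : ℕ → A) (hbot : eigenSet p M Tbad c = ⊥) :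
    (∀ w ∈ eigenSet p N Tbad c,
        (map D.pα : TateModule p (JZero N) →ₗ[ℤ_[p]] TateModule p (JZero M)).baseChange A w = 0) ∧
      ∀ w ∈ eigenSet p N Tbad c,
        (map D.pβ : TateModule p (JZero N) →ₗ[ℤ_[p]] TateModule p (JZero M)).baseChange A w = 0 :=
  geoDataLite_push_eq_zero D Tbad (tateHeckeEquivariant Tbad hpT hN hM) c hbot

end Fermat.Agent.ORD.Alg.TateHeckeEq83
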