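/-
ORD (S33), chapter ALG, brick A4 (helper92): **the trace criterion**.

`A` a local ring, `V` free of rank 2, `r : G →* End_A V`, `I ⊆ D ⊆ G`, `σ0 ∈ I` with
`α := det r(σ0)`, `α - 1` a unit, `t := tr r`, `δ := det r`,
`Dfun g := α * t g - t (g * σ0)` (`CHFunctional40.Dfun`).  If

* (I1) `t h = 1 + δ h` for `h ∈ I`,
* (I2) `(α - 1) * Dfun (h * g) = Dfun h * Dfun g` for `h ∈ D`, `g ∈ G`,
* the trace pairing of `r` is nondegenerate (residual absolute irreducibility),

then the `α`-eigenline `L` of `r σ0` is `D`-stable and `I` acts trivially on `V / L`.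

* `ordinary_of_eigenbasis` : the statement in a given eigenbasis of `r σ0` (any local ring);
* `exists_line_of_ident`   : the eigenbasis from Hensel's lemma (`HenselSplit68`);
* `isOrdinaryAt_of_ident`  : the Prelude form `ρ.IsOrdinaryAt p`.
-/
import Mathlib
import Fermat.Agent.ORD.FlatOrd.HenselSplit68
import Fermat.Agent.ORD.Alg.CHFunctional40
import Fermat.Agent.ES.ALG31.TraceRigid13
import Fermat.Agent.ES.GAL.InertiaCyclo91
import Fermat.Agent.S05.Inertia
import Fermat.Prelude.Def_GaloisRep_LocalConditions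

set_option autoImplicit false

noncomputable section

namespace Fermat.Agent.ORD.Alg.OrdOfIdent92

open Module

section Eigen

variable {A : Type*} [CommRing A] {V : Type*} [AddCommGroup V] [Module A V]
variable {G : Type*} [Group G]

theorem eq_repr_sum (b : Basis (Fin 2) A V) (x : V) :
    x = b.repr x 0 • b 0 + b.repr x 1 • b 1 := by
  conv_lhs => rw [← b.sum_repr x]
  rw [Fin.sum_univ_two]

/-- **A4 in an eigenbasis.** -/
theorem ordinary_of_eigenbasis (r : G →* Module.End A V) (b : Basis (Fin 2) A V)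
    (D I : Set G) (hID : I ⊆ D) (σ0 : G) (hIσ0 : ∀ h ∈ I, h * σ0 ∈ I)
    (α : A) (hα : IsUnit (α - 1)) (h0 : r σ0 (b 0) = α • b 0) (h1 : r σ0 (b 1) = b 1)
    (hI1 : ∀ h ∈ I, LinearMap.trace A V (r h) = 1 + LinearMap.det (r h))
    (hI2 : ∀ h ∈ D, ∀ g : G,
      (α - 1) * (α * LinearMap.trace A V (r (h * g)) - LinearMap.trace A V (r (h * g * σ0))) =
        (α * LinearMap.trace A V (r h) - LinearMap.trace A V (r (h * σ0))) *
          (α * LinearMap.trace A V (r g) - LinearMap.trace A V (r (g * σ0))))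
    (hnd : ∀ Y : Module.End A V, (∀ g : G, LinearMap.trace A V (r g * Y) = 0) → Y = 0) :
    (∀ h ∈ D, ∀ v ∈ Submodule.span A {b 0}, r h v ∈ Submodule.span A {b 0}) ∧
      (∀ h ∈ I, ∀ v : V, r h v - v ∈ Submodule.span A {b 0}) := by
  classical
  obtain ⟨u, hu⟩ := hα.exists_left_inv
  -- matrices
  set M : G → Matrix (Fin 2) (Fin 2) A := fun g => LinearMap.toMatrix b b (r g) with hM
  have hMmul : ∀ g g', M (g * g') = M g * M g' := fun g g' => by
    simp only [hM]
    rw [map_mul, Module.End.mul_eq_comp, LinearMap.toMatrix_comp b b b]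
  have hMij : ∀ g i j, M g i j = b.repr (r g (b j)) i := fun g i j =>
    LinearMap.toMatrix_apply b b (r g) i j
  have htr : ∀ g, LinearMap.trace A V (r g) = M g 0 0 + M g 1 1 := fun g => by
    rw [LinearMap.trace_eq_matrix_trace A b, Matrix.trace_fin_two]
  have hdet : ∀ g, LinearMap.det (r g) = M g 0 0 * M g 1 1 - M g 0 1 * M g 1 0 := fun g => by
    rw [← LinearMap.det_toMatrix b, Matrix.det_fin_two]
  have hbne : ∀ i j : Fin 2, b.repr (b j) i = if j = i then 1 else 0 := fun i j => by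
    rw [Basis.repr_self, Finsupp.single_apply]
  have hσ00 : M σ0 0 0 = α := by
    rw [hMij, h0, map_smul, Finsupp.smul_apply, hbne, if_pos rfl, smul_eq_mul, mul_one]
  have hσ10 : M σ0 1 0 = 0 := by
    rw [hMij, h0, map_smul, Finsupp.smul_apply, hbne, if_neg (by decide), smul_zero]
  have hσ01 : M σ0 0 1 = 0 := by
    rw [hMij, h1, hbne, if_neg (by decide)]
  have hσ11 : M σ0 1 1 = 1 := by
    rw [hMij, h1, hbne, if_pos rfl]
  have hmul : ∀ g g' i j, M (g * g') i j = M g i 0 * M g' 0 j + M g i 1 * M g' 1 j :=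
    fun g g' i j => by rw [hMmul, Matrix.mul_apply, Fin.sum_univ_two]
  -- `Dfun g = (α - 1) d(g)`
  have hD : ∀ g, α * LinearMap.trace A V (r g) - LinearMap.trace A V (r (g * σ0)) =
      (α - 1) * M g 1 1 := fun g => by
    rw [htr, htr, hmul, hmul, hσ00, hσ10, hσ01, hσ11]
    ring
  -- `c(h) b(g) = 0`
  have hcb : ∀ h ∈ D, ∀ g, M h 1 0 * M g 0 1 = 0 := by
    intro h hh g
    have e := hI2 h hh g
    rw [hD, hD, hD, hmul h g 1 1] at e
    have E0 : (α - 1) ^ 2 * (M h 1 0 * M g 0 1) = 0 := by linear_combination e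
    linear_combination (u ^ 2) * E0 - (M h 1 0 * M g 0 1) * (1 + u * (α - 1)) * hu
  -- `c(h) = 0` on `D`
  have hc : ∀ h ∈ D, M h 1 0 = 0 := by
    intro h hh
    set E : Module.End A V := (LinearMap.toMatrix b b).symm (Matrix.single 1 0 (1 : A)) with hE
    have htrE : ∀ g, LinearMap.trace A V (r g * E) = M g 0 1 := by
      intro g
      rw [LinearMap.trace_eq_matrix_trace A b, LinearMap.toMatrix_mul, hE,
        LinearEquiv.apply_symm_apply, Matrix.trace_fin_two, Matrix.mul_apply, Matrix.mul_apply,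
        Fin.sum_univ_two, Fin.sum_univ_two]
      simp [hM]
    have hY : M h 1 0 • E = 0 := by
      apply hnd
      intro g
      rw [mul_smul_comm, map_smul, htrE, smul_eq_mul]
      exact hcb h hh g
    have h2 := congrArg (fun Y => LinearMap.toMatrix b b Y 1 0) hY
    simp only [map_smul, hE, LinearEquiv.apply_symm_apply, Matrix.smul_apply, map_zero,
      Matrix.zero_apply, Matrix.single_apply_same, smul_eq_mul, mul_one] at h2
    exact h2
  -- `d(h) = 1` on `I`
  have hd : ∀ h ∈ I, M h 1 1 = 1 := by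
    intro h hh
    have c0 : M h 1 0 = 0 := hc h (hID hh)
    have E1 := hI1 h hh
    have E2 := hI1 (h * σ0) (hIσ0 h hh)
    rw [htr, hdet, c0] at E1
    rw [htr, hdet, hmul h σ0 0 0, hmul h σ0 1 1, hmul h σ0 0 1, hmul h σ0 1 0, hσ00, hσ10, hσ01,
      hσ11, c0] at E2
    have E3 : (α - 1) * (M h 1 1 - 1) = 0 := by linear_combination α * E1 - E2
    linear_combination u * E3 - (M h 1 1 - 1) * hu
  -- the action on the basis
  have hb0 : ∀ g, r g (b 0) = M g 0 0 • b 0 + M g 1 0 • b 1 := fun g => by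
    rw [hMij, hMij]; exact eq_repr_sum b _
  have hb1 : ∀ g, r g (b 1) = M g 0 1 • b 0 + M g 1 1 • b 1 := fun g => by
    rw [hMij, hMij]; exact eq_repr_sum b _
  refine ⟨fun h hh v hv => ?_, fun h hh v => ?_⟩
  · obtain ⟨x, rfl⟩ := Submodule.mem_span_singleton.mp hv
    rw [map_smul, hb0, hc h hh, zero_smul, add_zero, smul_smul]
    exact Submodule.smul_mem _ _ (Submodule.mem_span_singleton_self _)
  · have e : r h v - v = (b.repr v 0 * (M h 0 0 - 1) + b.repr v 1 * M h 0 1) • b 0 := by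
      conv_lhs => rw [eq_repr_sum b v]
      rw [map_add, map_smul, map_smul, hb0, hb1, hc h (hID hh), hd h hh]
      module
    rw [e]
    exact Submodule.smul_mem _ _ (Submodule.mem_span_singleton_self _)

end Eigen

section Hensel

open Polynomial IsLocalRing Fermat.Agent.ORD.FlatOrd.HenselSplit68
open Fermat.Agent.ORD.Alg.CHFunctional40

variable {A : Type*} [CommRing A] [IsLocalRing A] [HenselianRing A (maximalIdeal A)]
variable {V : Type*} [AddCommGroup V] [Module A V] [Module.Free A V] [Module.Finite A V]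
variable {G : Type*} [Group G]

/-- **A4 (abstract form).**  `t g := tr (r g)`, `δ := det ∘ r`, `Dfun` as in `CHFunctional40`. -/
theorem exists_line_of_ident (hrank : finrank A V = 2) (r : G →* Module.End A V)
    (D I : Set G) (hID : I ⊆ D) (σ0 : G) (hσ0 : σ0 ∈ I) (hIσ0 : ∀ h ∈ I, h * σ0 ∈ I)
    (hu : IsUnit (LinearMap.det (r σ0) - 1))
    (hI1 : ∀ h ∈ I, LinearMap.trace A V (r h) = 1 + LinearMap.det (r h))
    (hI2 : ∀ h ∈ D, ∀ g : G,
      ((LinearMap.det.comp r : G →* A) σ0 - 1) *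
          Dfun (fun g => LinearMap.trace A V (r g)) (LinearMap.det.comp r) σ0 (h * g) =
        Dfun (fun g => LinearMap.trace A V (r g)) (LinearMap.det.comp r) σ0 h *
          Dfun (fun g => LinearMap.trace A V (r g)) (LinearMap.det.comp r) σ0 g)
    (hnd : ∀ Y : Module.End A V, (∀ g : G, LinearMap.trace A V (r g * Y) = 0) → Y = 0) :
    ∃ L : Submodule A V, (∃ b : Basis (Fin 2) A V, L = Submodule.span A {b 0}) ∧
      (∀ h ∈ D, ∀ v ∈ L, r h v ∈ L) ∧ (∀ h ∈ I, ∀ v : V, r h v - v ∈ L) := by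
  set f : Module.End A V := r σ0 with hf
  set α : A := LinearMap.det f with hα
  have htr : LinearMap.trace A V f = 1 + α := hI1 σ0 hσ0
  have hchar : f.charpoly = X ^ 2 - C (1 + α) * X + C α := by
    rw [charpoly_eq hrank f, htr]
  have he1 : f.charpoly.eval 1 = 0 := by
    rw [hchar]; simp
  have hd1 : f.charpoly.derivative.eval 1 = -(α - 1) := by
    rw [hchar]; simp
  obtain ⟨α', β', hu', -, hα'1, hfac, -, b, hrange, hker⟩ := exists_splitting hrank f
    (by rw [he1]; exact Submodule.zero_mem _) (by rw [hd1]; exact hu.neg)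
  -- identify the roots
  have hβ' : β' = 1 := by
    have h1 := congrArg (Polynomial.eval 1) hfac
    rw [he1] at h1
    simp only [eval_mul, eval_sub, eval_X, eval_C] at h1
    obtain ⟨w, hw⟩ := hα'1.exists_left_inv
    have h2 : (α' - 1) * (β' - 1) = 0 := by linear_combination -h1
    linear_combination w * h2 - (β' - 1) * hw
  have hα' : α' = α := by
    have h1 := congrArg (Polynomial.eval 0) hfac
    rw [hchar, hβ'] at h1
    simp at h1
    exact h1.symm
  subst hβ'
  subst hα'
  -- eigenvectors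
  have hb0 : f (b 0) = α • b 0 := by
    have hm : b 0 ∈ LinearMap.range (eOp f hu') := by
      rw [hrange]; exact Submodule.mem_span_singleton_self _
    obtain ⟨v, hv⟩ := hm
    rw [← hv]
    exact apply_eOp f hu' hfac v
  have hb1 : f (b 1) = b 1 := by
    have hm : b 1 ∈ LinearMap.ker (eOp f hu') := by
      rw [hker]; exact Submodule.mem_span_singleton_self _
    have := apply_of_eOp_eq_zero f hu' (LinearMap.mem_ker.mp hm)
    rwa [one_smul] at this
  have hres := ordinary_of_eigenbasis r b D I hID σ0 hIσ0 α hu hb0 hb1 hI1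
    (fun h hh g => by
      have := hI2 h hh g
      simp only [Dfun, MonoidHom.comp_apply] at this
      exact this) hnd
  exact ⟨Submodule.span A {b 0}, ⟨b, rfl⟩, hres.1, hres.2⟩

end Hensel

section Galois

open IsLocalRing Fermat.Agent.ORD.FlatOrd.HenselSplit68 Fermat.Agent.ORD.Alg.CHFunctional40

local notation "Qb" => AlgebraicClosure ℚ
local notation "GQ" => (AlgebraicClosure ℚ ≃ₐ[ℚ] AlgebraicClosure ℚ)

variable {A : Type} [CommRing A] [IsLocalRing A] [HenselianRing A (maximalIdeal A)]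

/-- **A4 (Prelude form).**  The trace identities (I1), (I2) at every place over `p` (exactly the
conclusions of `CHFunctional40`), cyclotomic determinant and residual absolute irreducibility give
ordinarity at `p`, for `p` odd. -/
theorem isOrdinaryAt_of_ident (ρ : GaloisRepAdic A) {p : ℕ} (hp : p.Prime) (hp2 : p ≠ 2)
    (hdet : ρ.DetIsCyclotomic p) (habs : ρ.residual.IsAbsolutelyIrreducible)
    (hI1 : ∀ P : ValuationSubring Qb, P.LiesOverPrime p → ∀ h ∈ P.inertiaSubgroupIn ℚ,
      LinearMap.trace A ρ.V (ρ.ρ h) = 1 + LinearMap.det (ρ.ρ h))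
    (hI2 : ∀ P : ValuationSubring Qb, P.LiesOverPrime p → ∀ σ0 ∈ P.inertiaSubgroupIn ℚ,
      ∀ h ∈ P.decompositionSubgroup ℚ, ∀ g : GQ,
        ((LinearMap.det.comp ρ.ρ : GQ →* A) σ0 - 1) *
            Dfun (fun g => LinearMap.trace A ρ.V (ρ.ρ g)) (LinearMap.det.comp ρ.ρ) σ0 (h * g) =
          Dfun (fun g => LinearMap.trace A ρ.V (ρ.ρ g)) (LinearMap.det.comp ρ.ρ) σ0 h *
            Dfun (fun g => LinearMap.trace A ρ.V (ρ.ρ g)) (LinearMap.det.comp ρ.ρ) σ0 g) :
    ρ.IsOrdinaryAt p := by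
  intro P hP
  obtain ⟨σ0, hσ0, hσ0μ⟩ :=
    Fermat.Agent.ES.GAL.InertiaCyclo91.exists_mem_inertia_sq hp hp2 P hP 1
  have hd := hdet.2 1 σ0 2 hσ0μ
  have hd' : LinearMap.det (ρ.ρ σ0) - 2 ∈ maximalIdeal A := by
    have h2 : Ideal.span {((p ^ 1 : ℕ) : A)} ≤ maximalIdeal A := by
      rw [Ideal.span_le, Set.singleton_subset_iff, pow_one]
      exact hdet.1
    have h3 := h2 hd
    rwa [Nat.cast_ofNat] at h3
  have hu : IsUnit (LinearMap.det (ρ.ρ σ0) - 1) := by
    have e : LinearMap.det (ρ.ρ σ0) - 1 = 1 + (LinearMap.det (ρ.ρ σ0) - 2) := by ring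
    rw [e]
    exact isUnit_add_of_mem isUnit_one hd'
  exact exists_line_of_ident ρ.finrank_eq ρ.ρ (P.decompositionSubgroup ℚ : Set GQ)
    (P.inertiaSubgroupIn ℚ : Set GQ) (fun h hh => Fermat.Agent.S05.Inertia.mem_decompositionSubgroup hh)
    σ0 hσ0 (fun h hh => mul_mem hh hσ0) hu (hI1 P hP) (hI2 P hP σ0 hσ0)
    (fun Y hY => Fermat.Agent.ES.ALG31.TraceRigid13.eq_zero_of_forall_trace ρ habs Y hY)

end Galois

end Fermat.Agent.ORD.Alg.OrdOfIdent92
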