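/-
ORD (S33), chapter ALG, brick A4 (helper92): the literal interface `Spec40.OrdOfIdent`.
-/
import Mathlib
import Fermat.Agent.ORD.Alg.OrdOfIdent92
import Fermat.Agent.ORD.Spec.Spec40

set_option autoImplicit false

noncomputable section

namespace Fermat.Agent.ORD.Alg.OrdOfIdentSpec92

open Fermat.Agent.ORD.Spec.Spec40 Fermat.Agent.ORD.Alg.OrdOfIdent92

/-- **Brick A4**, in the literal form of `Spec40`. -/
theorem ordOfIdent : OrdOfIdent := by
  intro T _ _ _ _ ρ hirr P σ₀ hσ₀ hunit hid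
  exact exists_line_of_ident ρ.finrank_eq ρ.ρ
    (P.decompositionSubgroup ℚ : Set (AlgebraicClosure ℚ ≃ₐ[ℚ] AlgebraicClosure ℚ))
    (P.inertiaSubgroupIn ℚ : Set (AlgebraicClosure ℚ ≃ₐ[ℚ] AlgebraicClosure ℚ))
    (fun h hh => Fermat.Agent.S05.Inertia.mem_decompositionSubgroup hh)
    σ₀ hσ₀ (fun h hh => mul_mem hh hσ₀) hunit hid.1 hid.2
    (fun Y hY => Fermat.Agent.ES.ALG31.TraceRigid13.eq_zero_of_forall_trace ρ hirr Y hY)

end Fermat.Agent.ORD.Alg.OrdOfIdentSpec92
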