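/-
ORD (S33), brick A2 — helper83.  **The points of `T`.**

`H : CuspForm.HeckeGaloisRepDatum N ↑S 𝒪 θ T` (the S33 variable block, `CharZero 𝒪`).

* (i)   `isReduced_T` : `T` is reduced (`ES/PET/ReducedFinal17` + `S22` + `RedT83.isReduced_of_adjoin`).
* (ii)  for a minimal prime `P` of `T`, `T ⧸ P` is a local domain, finite free over `𝒪`, of
        characteristic zero, `p ∈ 𝔪`; `pt H P := H.ρ.baseChangeAlong (Ideal.Quotient.mk P)` has
        trace / determinant / characteristic polynomials the images of those of `H.ρ`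
        (`trace_pt`, `det_pt`, `charpoly_pt`, `charpoly_frob_pt`, residue forms).
* (iii) `ident_of_forall_pt` : an identity in `T` holds as soon as it holds modulo every minimal
        prime.
-/
import Mathlib
import Fermat.Prelude.Def_CuspForm_HeckeGaloisRepDatum
import Fermat.Prelude.Def_GaloisRep_LocalConditions
import Fermat.Agent.ES.PET.ReducedFinal17
import Fermat.Agent.S22
import Fermat.Agent.ORD.Alg.RedT83

set_option autoImplicit false
set_option linter.unusedSectionVars false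
set_option linter.style.haveILetI false

noncomputable section

namespace Fermat.Agent.ORD.Alg.PointsOfT83

open Polynomial TensorProduct IsLocalRing

local notation "GQ" => (AlgebraicClosure ℚ ≃ₐ[ℚ] AlgebraicClosure ℚ)

/-! ### 1. Generic base change formulas -/

section Generic

variable {A B : Type} [CommRing A] [IsLocalRing A] [CommRing B] [IsLocalRing B]

/-- The base-changed Galois action, spelled out. -/
theorem baseChangeAlong_rho (φ : A →+* B) (hφ : IsLocalHom φ) (ρ : GaloisRepAdic A) (g : GQ) :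
    letI : Algebra A B := φ.toAlgebra
    (ρ.baseChangeAlong φ hφ).ρ g = (ρ.ρ g).baseChange B := rfl

theorem trace_baseChangeAlong (φ : A →+* B) (hφ : IsLocalHom φ) (ρ : GaloisRepAdic A) (g : GQ) :
    LinearMap.trace B (ρ.baseChangeAlong φ hφ).V ((ρ.baseChangeAlong φ hφ).ρ g) =
      φ (LinearMap.trace A ρ.V (ρ.ρ g)) := by
  letI : Algebra A B := φ.toAlgebra
  show LinearMap.trace B (B ⊗[A] ρ.V) ((ρ.ρ g).baseChange B) = φ (LinearMap.trace A ρ.V (ρ.ρ g))
  rw [LinearMap.trace_baseChange]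
  rfl

theorem det_baseChangeAlong (φ : A →+* B) (hφ : IsLocalHom φ) (ρ : GaloisRepAdic A) (g : GQ) :
    LinearMap.det ((ρ.baseChangeAlong φ hφ).ρ g) = φ (LinearMap.det (ρ.ρ g)) := by
  letI : Algebra A B := φ.toAlgebra
  show LinearMap.det ((ρ.ρ g).baseChange B) = φ (LinearMap.det (ρ.ρ g))
  rw [LinearMap.det_baseChange]
  rfl

theorem charpoly_baseChangeAlong (φ : A →+* B) (hφ : IsLocalHom φ) (ρ : GaloisRepAdic A) (g : GQ) :
    LinearMap.charpoly ((ρ.baseChangeAlong φ hφ).ρ g) = (LinearMap.charpoly (ρ.ρ g)).map φ := by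
  letI : Algebra A B := φ.toAlgebra
  show LinearMap.charpoly ((ρ.ρ g).baseChange B) = (LinearMap.charpoly (ρ.ρ g)).map φ
  rw [LinearMap.charpoly_baseChange]
  rfl

/-- residue form of `trace_baseChangeAlong`. -/
theorem residue_trace_baseChangeAlong (φ : A →+* B) (hφ : IsLocalHom φ) (ρ : GaloisRepAdic A)
    (g : GQ) :
    residue B (LinearMap.trace B (ρ.baseChangeAlong φ hφ).V ((ρ.baseChangeAlong φ hφ).ρ g)) =
      (haveI := hφ; ResidueField.map φ) (residue A (LinearMap.trace A ρ.V (ρ.ρ g))) := by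
  rw [trace_baseChangeAlong]
  rfl

/-- residue form of `det_baseChangeAlong`. -/
theorem residue_det_baseChangeAlong (φ : A →+* B) (hφ : IsLocalHom φ) (ρ : GaloisRepAdic A)
    (g : GQ) :
    residue B (LinearMap.det ((ρ.baseChangeAlong φ hφ).ρ g)) =
      (haveI := hφ; ResidueField.map φ) (residue A (LinearMap.det (ρ.ρ g))) := by
  rw [det_baseChangeAlong]
  rfl

end Generic

/-! ### 2. Quotients of a local ring by a prime -/

section Quot

variable {T : Type} [CommRing T] [IsLocalRing T]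

/-- The quotient of a local ring by a prime ideal is local. -/
instance isLocalRing_quot (P : Ideal T) [P.IsPrime] : IsLocalRing (T ⧸ P) :=
  IsLocalRing.of_surjective' (Ideal.Quotient.mk P) Ideal.Quotient.mk_surjective

/-- The quotient map of a local ring by a prime ideal is a local homomorphism. -/
theorem isLocalHom_mk (P : Ideal T) [P.IsPrime] : IsLocalHom (Ideal.Quotient.mk P) :=
  IsLocalHom.of_surjective _ Ideal.Quotient.mk_surjective

/-- The residue fields of `T` and `T ⧸ P` are identified by the quotient map. -/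
theorem residueFieldMap_mk_bijective (P : Ideal T) [P.IsPrime] :
    Function.Bijective (haveI := isLocalHom_mk P; ResidueField.map (Ideal.Quotient.mk P)) := by
  haveI := isLocalHom_mk P
  refine ⟨(ResidueField.map (Ideal.Quotient.mk P)).injective, fun x => ?_⟩
  obtain ⟨y, rfl⟩ := residue_surjective x
  obtain ⟨t, rfl⟩ := Ideal.Quotient.mk_surjective y
  exact ⟨residue T t, rfl⟩

theorem natCast_mem_maximalIdeal_quot (P : Ideal T) [P.IsPrime] {p : ℕ}
    (h : (p : T) ∈ maximalIdeal T) : (p : T ⧸ P) ∈ maximalIdeal (T ⧸ P) := by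
  haveI := isLocalHom_mk P
  have h1 : Ideal.Quotient.mk P (p : T) ∈ maximalIdeal (T ⧸ P) := map_nonunit _ _ h
  rwa [map_natCast] at h1

end Quot

/-! ### 3. The Hecke datum -/

variable {p : ℕ} {N : ℕ} [NeZero N] {S : Finset ℕ}
  {𝒪 : Type} [CommRing 𝒪] [IsDomain 𝒪] [IsDiscreteValuationRing 𝒪]
  [IsAdicComplete (IsLocalRing.maximalIdeal 𝒪) 𝒪]
  {θ : CuspForm.heckeAlgebra N 2 (↑S : Set ℕ) →+* IsLocalRing.ResidueField 𝒪}
  {T : Type} [CommRing T] [IsLocalRing T] [IsNoetherianRing T]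
  [IsAdicComplete (IsLocalRing.maximalIdeal T) T] [Algebra 𝒪 T] [IsLocalHom (algebraMap 𝒪 T)]
  [Module.Finite 𝒪 T] [Module.Free 𝒪 T]

/-- **(i)** `T` is reduced. -/
theorem isReduced_T [CharZero 𝒪] (hNS : ∀ q : ℕ, q.Prime → q ∣ N → q ∈ S)
    (H : CuspForm.HeckeGaloisRepDatum N (↑S : Set ℕ) 𝒪 θ T) : IsReduced T := by
  haveI : IsReduced (CuspForm.heckeAlgebra N 2 (↑S : Set ℕ)) :=
    Fermat.Agent.ES.PET.ReducedFinal17.isReduced_heckeAlgebra N _ hNS
  haveI : Module.Finite ℤ (CuspForm.heckeAlgebra N 2 (↑S : Set ℕ)) := Fermat.Agent.S22.result N 2 _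
  exact RedT83.isReduced_of_adjoin H.π H.adjoin_range_π

/-- `p ∈ 𝔪_T`. -/
theorem natCast_mem_maximalIdeal_T (hp𝒪 : (p : 𝒪) ∈ maximalIdeal 𝒪) : (p : T) ∈ maximalIdeal T := by
  have h1 : algebraMap 𝒪 T (p : 𝒪) ∈ maximalIdeal T := map_nonunit _ _ hp𝒪
  rwa [map_natCast] at h1

section Point

variable (P : Ideal T)

/-- `𝒪 → T ⧸ P` is injective for a minimal prime `P`. -/
theorem algebraMap_quot_injective (hP : P ∈ minimalPrimes T) :
    Function.Injective (algebraMap 𝒪 (T ⧸ P)) :=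
  RedT83.algebraMap_quotient_injective hP

/-- `T ⧸ P` is `𝒪`-torsion-free for a minimal prime `P`. -/
theorem isTorsionFree_quot (hP : P ∈ minimalPrimes T) : Module.IsTorsionFree 𝒪 (T ⧸ P) := by
  haveI : P.IsPrime := RedT83.isPrime_of_mem_minimalPrimes hP
  exact Module.isTorsionFree_iff_algebraMap_injective.mpr (algebraMap_quot_injective P hP)

/-- `T ⧸ P` is a finite free `𝒪`-module for a minimal prime `P`. -/
theorem free_quot (hP : P ∈ minimalPrimes T) : Module.Free 𝒪 (T ⧸ P) := by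
  haveI := isTorsionFree_quot (𝒪 := 𝒪) P hP
  infer_instance

/-- `T ⧸ P` has characteristic zero for a minimal prime `P`. -/
theorem charZero_quot [CharZero 𝒪] (hP : P ∈ minimalPrimes T) : CharZero (T ⧸ P) :=
  charZero_of_injective_algebraMap (algebraMap_quot_injective (𝒪 := 𝒪) P hP)

/-- `𝒪 → T ⧸ P` is a local homomorphism. -/
theorem isLocalHom_algebraMap_quot [P.IsPrime] : IsLocalHom (algebraMap 𝒪 (T ⧸ P)) := by
  haveI := isLocalHom_mk P
  rw [IsScalarTower.algebraMap_eq 𝒪 T (T ⧸ P), Ideal.Quotient.algebraMap_eq]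
  exact RingHom.isLocalHom_comp _ _

variable [P.IsPrime]

/-- **The point `T → T ⧸ P` of the Hecke datum**: the representation over `T ⧸ P`. -/
def pt (H : CuspForm.HeckeGaloisRepDatum N (↑S : Set ℕ) 𝒪 θ T) : GaloisRepAdic (T ⧸ P) :=
  H.ρ.baseChangeAlong (Ideal.Quotient.mk P) (isLocalHom_mk P)

/-- The eigencharacter `R → T ⧸ P` of the point. -/
def chi (H : CuspForm.HeckeGaloisRepDatum N (↑S : Set ℕ) 𝒪 θ T) :
    CuspForm.heckeAlgebra N 2 (↑S : Set ℕ) →+* T ⧸ P :=
  (Ideal.Quotient.mk P).comp H.π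

theorem chi_apply (H : CuspForm.HeckeGaloisRepDatum N (↑S : Set ℕ) 𝒪 θ T)
    (t : CuspForm.heckeAlgebra N 2 (↑S : Set ℕ)) : chi P H t = Ideal.Quotient.mk P (H.π t) := rfl

theorem trace_pt (H : CuspForm.HeckeGaloisRepDatum N (↑S : Set ℕ) 𝒪 θ T) (g : GQ) :
    LinearMap.trace (T ⧸ P) (pt P H).V ((pt P H).ρ g) =
      Ideal.Quotient.mk P (LinearMap.trace T H.ρ.V (H.ρ.ρ g)) :=
  trace_baseChangeAlong _ _ _ g

theorem det_pt (H : CuspForm.HeckeGaloisRepDatum N (↑S : Set ℕ) 𝒪 θ T) (g : GQ) :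
    LinearMap.det ((pt P H).ρ g) = Ideal.Quotient.mk P (LinearMap.det (H.ρ.ρ g)) :=
  det_baseChangeAlong _ _ _ g

theorem charpoly_pt (H : CuspForm.HeckeGaloisRepDatum N (↑S : Set ℕ) 𝒪 θ T) (g : GQ) :
    LinearMap.charpoly ((pt P H).ρ g) =
      (LinearMap.charpoly (H.ρ.ρ g)).map (Ideal.Quotient.mk P) :=
  charpoly_baseChangeAlong _ _ _ g

/-- The Eichler–Shimura relation at the point `T → T ⧸ P`. -/
theorem charpoly_frob_pt (H : CuspForm.HeckeGaloisRepDatum N (↑S : Set ℕ) 𝒪 θ T)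
    (ℓ : ℕ) (hℓ : ℓ.Prime) (hℓN : ¬ ℓ ∣ N) (hℓS : ℓ ∉ (↑S : Set ℕ))
    (A : ValuationSubring (AlgebraicClosure ℚ)) (hA : A.LiesOverPrime ℓ)
    (σ : GQ) (hσ : A.IsFrobeniusAt σ ℓ) :
    LinearMap.charpoly ((pt P H).ρ σ) =
      X ^ 2 - C (chi P H (CuspForm.heckeAlgebra.T hℓ hℓN hℓS)) * X + C ((ℓ : T ⧸ P)) := by
  rw [charpoly_pt, H.charpoly_frob ℓ hℓ hℓN hℓS A hA σ hσ]
  simp [chi_apply]

/-- The determinant of Frobenius at the point. -/
theorem residue_trace_pt (H : CuspForm.HeckeGaloisRepDatum N (↑S : Set ℕ) 𝒪 θ T) (g : GQ) :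
    residue (T ⧸ P) (LinearMap.trace (T ⧸ P) (pt P H).V ((pt P H).ρ g)) =
      (haveI := isLocalHom_mk P; ResidueField.map (Ideal.Quotient.mk P))
        (residue T (LinearMap.trace T H.ρ.V (H.ρ.ρ g))) :=
  residue_trace_baseChangeAlong _ _ _ g

theorem residue_det_pt (H : CuspForm.HeckeGaloisRepDatum N (↑S : Set ℕ) 𝒪 θ T) (g : GQ) :
    residue (T ⧸ P) (LinearMap.det ((pt P H).ρ g)) =
      (haveI := isLocalHom_mk P; ResidueField.map (Ideal.Quotient.mk P))
        (residue T (LinearMap.det (H.ρ.ρ g))) :=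
  residue_det_baseChangeAlong _ _ _ g

end Point

/-- **(iii)** An identity in `T` holds as soon as it holds modulo every minimal prime of `T`. -/
theorem ident_of_forall_pt [CharZero 𝒪] (hNS : ∀ q : ℕ, q.Prime → q ∣ N → q ∈ S)
    (H : CuspForm.HeckeGaloisRepDatum N (↑S : Set ℕ) 𝒪 θ T) {x y : T}
    (h : ∀ P ∈ minimalPrimes T, Ideal.Quotient.mk P x = Ideal.Quotient.mk P y) : x = y := by
  haveI := isReduced_T hNS H
  exact RedT83.eq_of_forall_mk_eq h

end Fermat.Agent.ORD.Alg.PointsOfT83
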