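/-
ORD (S33), brick A2-bis — helper83.  **Finiteness over `ℤ_[p]`.**

* `completeNakayama` : complete Nakayama lemma (`R` `I`-adically precomplete, `M` `I`-adically
  Hausdorff, a finite family generating `M` modulo `I M` generates `M`).
* `finite_padic_of_finite_quotient` : a noetherian local ring `A` with `p ∈ 𝔪_A` and `A ⧸ p A`
  finite is a finite `ℤ_[p]`-module, for ANY `ℤ_[p]`-algebra structure on `A`.
* For the S33 data: `𝒪`, `T` and `T ⧸ P` (`P` a minimal prime) are finite free `ℤ_[p]`-modules, for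
  any `ℤ_[p]`-algebra structure.
-/
import Mathlib
import Fermat.Agent.ES.J.PadicAlg8
import Fermat.Agent.ORD.Alg.PointsOfT83

set_option autoImplicit false
set_option linter.unusedSectionVars false
set_option linter.style.haveILetI false

noncomputable section

namespace Fermat.Agent.ORD.Alg.PadicFinite83

open IsLocalRing

/-! ### 1. Complete Nakayama -/

section Nakayama

variable {R : Type*} [CommRing R] (I : Ideal R) {M : Type*} [AddCommGroup M] [Module R M]
  {ι : Type*} [Fintype ι] (n : ι → M)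

/-- one step of the approximation: an element of `I ^ k M` is, modulo `I ^ (k+1) M`, a combination
of the `n i` with coefficients in `I ^ k`. -/
theorem exists_approx (h : ∀ x : M, ∃ a : ι → R, x - ∑ i, a i • n i ∈ I • (⊤ : Submodule R M))
    (k : ℕ) (x : M) (hx : x ∈ (I ^ k • ⊤ : Submodule R M)) :
    ∃ a : ι → R, (∀ i, a i ∈ I ^ k) ∧
      x - ∑ i, a i • n i ∈ (I ^ (k + 1) • ⊤ : Submodule R M) := by
  refine Submodule.smul_induction_on (p := fun x => ∃ a : ι → R, (∀ i, a i ∈ I ^ k) ∧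
      x - ∑ i, a i • n i ∈ (I ^ (k + 1) • ⊤ : Submodule R M)) hx ?_ ?_
  · intro b hb z _
    obtain ⟨a, ha⟩ := h z
    refine ⟨fun i => b * a i, fun i => Ideal.mul_mem_right _ _ hb, ?_⟩
    have h1 : b • z - ∑ i, (b * a i) • n i = b • (z - ∑ i, a i • n i) := by
      rw [smul_sub, Finset.smul_sum]
      simp only [mul_smul]
    rw [h1, pow_succ, Submodule.mul_smul]
    exact Submodule.smul_mem_smul hb ha
  · intro x y hx hy
    obtain ⟨a, ha1, ha2⟩ := hx
    obtain ⟨a', ha1', ha2'⟩ := hy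
    refine ⟨fun i => a i + a' i, fun i => Ideal.add_mem _ (ha1 i) (ha1' i), ?_⟩
    have h1 : x + y - ∑ i, (a i + a' i) • n i =
        (x - ∑ i, a i • n i) + (y - ∑ i, a' i • n i) := by
      simp only [add_smul, Finset.sum_add_distrib]
      abel
    rw [h1]
    exact Submodule.add_mem _ ha2 ha2'

/-- **Complete Nakayama.** -/
theorem completeNakayama [IsPrecomplete I R] [IsHausdorff I M]
    (h : ∀ x : M, ∃ a : ι → R, x - ∑ i, a i • n i ∈ I • (⊤ : Submodule R M)) :
    Submodule.span R (Set.range n) = ⊤ := by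
  classical
  rw [eq_top_iff]
  intro x _
  have key := exists_approx I n h
  choose! F hF1 hF2 using key
  -- the sequence of remainders
  let xs : ℕ → M := fun k => Nat.rec x (fun k y => y - ∑ i, F k y i • n i) k
  have hxs0 : xs 0 = x := rfl
  have hxsS : ∀ k, xs (k + 1) = xs k - ∑ i, F k (xs k) i • n i := fun k => rfl
  have hxs : ∀ k, xs k ∈ (I ^ k • ⊤ : Submodule R M) := by
    intro k
    induction k with
    | zero => rw [pow_zero, Ideal.one_eq_top, Submodule.top_smul]; exact Submodule.mem_top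
    | succ k ih => rw [hxsS]; exact hF2 k (xs k) ih
  -- partial sums of the coefficients
  let s : ℕ → ι → R := fun m i => ∑ k ∈ Finset.range m, F k (xs k) i
  have hC1 : ∀ m, x - ∑ i, s m i • n i = xs m := by
    intro m
    induction m with
    | zero => simp [s, hxs0]
    | succ m ih =>
      have h1 : ∀ i, s (m + 1) i = s m i + F m (xs m) i := fun i => Finset.sum_range_succ _ _
      have h2 : x - ∑ i, s (m + 1) i • n i =
          (x - ∑ i, s m i • n i) - ∑ i, F m (xs m) i • n i := by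
        simp only [h1, add_smul, Finset.sum_add_distrib]
        abel
      rw [h2, ih, hxsS]
  have hC2 : ∀ i, ∀ {m m' : ℕ}, m ≤ m' →
      s m i ≡ s m' i [SMOD (I ^ m • ⊤ : Submodule R R)] := by
    intro i m m' hmm'
    rw [SModEq.sub_mem, smul_eq_mul, Ideal.mul_top]
    have h1 : s m i - s m' i = - ∑ k ∈ Finset.Ico m m', F k (xs k) i := by
      rw [Finset.sum_Ico_eq_sub _ hmm']
      ring
    rw [h1]
    refine Ideal.neg_mem_iff _ |>.mpr (Ideal.sum_mem _ fun k hk => ?_)
    exact Ideal.pow_le_pow_right (Finset.mem_Ico.mp hk).1 (hF1 k (xs k) (hxs k) i)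
  choose L hL using fun i => IsPrecomplete.prec (I := I) (M := R) inferInstance (hC2 i)
  have hx : x = ∑ i, L i • n i := by
    rw [← sub_eq_zero]
    refine IsHausdorff.haus (I := I) inferInstance _ fun m => ?_
    rw [SModEq.sub_mem, sub_zero]
    have h1 : x - ∑ i, L i • n i = xs m + ∑ i, (s m i - L i) • n i := by
      rw [← hC1 m]
      simp only [sub_smul, Finset.sum_sub_distrib]
      abel
    rw [h1]
    refine Submodule.add_mem _ (hxs m) (Submodule.sum_mem _ fun i _ => ?_)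
    have h2 := hL i m
    rw [SModEq.sub_mem, smul_eq_mul, Ideal.mul_top] at h2
    exact Submodule.smul_mem_smul h2 Submodule.mem_top
  rw [hx]
  exact Submodule.sum_mem _ fun i _ => Submodule.smul_mem _ _ (Submodule.subset_span ⟨i, rfl⟩)

end Nakayama

/-! ### 2. Finiteness over `ℤ_[p]` -/

section Padic

variable {p : ℕ} [Fact p.Prime]

/-- A noetherian local ring `A` with `p ∈ 𝔪_A` and `A ⧸ p A` finite is a finite `ℤ_[p]`-module, for
any `ℤ_[p]`-algebra structure on `A`. -/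
theorem finite_padic_of_finite_quotient {A : Type*} [CommRing A] [IsLocalRing A]
    [IsNoetherianRing A] [Algebra ℤ_[p] A] (hpA : (p : A) ∈ maximalIdeal A)
    [Finite (A ⧸ Ideal.span {(p : A)})] : Module.Finite ℤ_[p] A := by
  classical
  haveI : IsPrecomplete (Ideal.span {(p : ℤ_[p])}) ℤ_[p] := by
    rw [← PadicInt.maximalIdeal_eq_span_p]
    exact IsAdicComplete.toIsPrecomplete
  haveI : IsHausdorff (Ideal.span {(p : ℤ_[p])}) A := by
    refine IsHausdorff.of_map (S := A) (J := maximalIdeal A) ?_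
    rw [Ideal.map_span, Set.image_singleton, map_natCast, Ideal.span_le,
      Set.singleton_subset_iff]
    exact hpA
  haveI : Fintype (A ⧸ Ideal.span {(p : A)}) := Fintype.ofFinite _
  let n : (A ⧸ Ideal.span {(p : A)}) → A := Function.surjInv Ideal.Quotient.mk_surjective
  have hn : ∀ q, Ideal.Quotient.mk (Ideal.span {(p : A)}) (n q) = q :=
    Function.surjInv_eq Ideal.Quotient.mk_surjective
  have hspan := completeNakayama (Ideal.span {(p : ℤ_[p])}) n (fun x => by
    let a : (A ⧸ Ideal.span {(p : A)}) → ℤ_[p] :=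
      fun i => if i = Ideal.Quotient.mk (Ideal.span {(p : A)}) x then 1 else 0
    refine ⟨a, ?_⟩
    have h1 : ∑ i, a i • n i = n (Ideal.Quotient.mk (Ideal.span {(p : A)}) x) := by
      simp only [a, ite_smul, one_smul, zero_smul, Finset.sum_ite_eq', Finset.mem_univ, if_true]
    rw [h1]
    have h2 : x - n (Ideal.Quotient.mk (Ideal.span {(p : A)}) x) ∈ Ideal.span {(p : A)} := by
      rw [← Ideal.Quotient.eq, hn]
    obtain ⟨y, hy⟩ := Ideal.mem_span_singleton'.mp h2
    have h3 : x - n (Ideal.Quotient.mk (Ideal.span {(p : A)}) x) = (p : ℤ_[p]) • y := by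
      rw [← hy, Algebra.smul_def, map_natCast, mul_comm]
    rw [h3]
    exact Submodule.smul_mem_smul (Ideal.subset_span rfl) Submodule.mem_top)
  exact Module.finite_def.mpr (hspan ▸ Submodule.fg_span (Set.finite_range n))

/-- A `ℤ_[p]`-algebra in which `p` is a non-zero-divisor is `ℤ_[p]`-torsion-free. -/
theorem isTorsionFree_padic {A : Type*} [CommRing A] [Algebra ℤ_[p] A]
    (hp : (p : A) ∈ nonZeroDivisors A) : Module.IsTorsionFree ℤ_[p] A := by
  refine Module.IsTorsionFree.of_smul_eq_zero fun x m hxm => ?_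
  by_cases hx0 : x = 0
  · exact Or.inl hx0
  refine Or.inr ?_
  -- `x = u * p ^ n`
  have hspec := PadicInt.unitCoeff_spec hx0
  rw [hspec, Algebra.smul_def, map_mul, map_pow, map_natCast, mul_assoc] at hxm
  have hu : IsUnit (algebraMap ℤ_[p] A (PadicInt.unitCoeff hx0 : ℤ_[p])) :=
    (PadicInt.unitCoeff hx0).isUnit.map (algebraMap ℤ_[p] A)
  have h1 : (p : A) ^ x.valuation * m = 0 := hu.mul_right_eq_zero.mp hxm
  have h2 : (p : A) ^ x.valuation ∈ nonZeroDivisors A := pow_mem hp _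
  exact (mul_left_mem_nonZeroDivisors_eq_zero_iff h2).mp h1

/-- A finite `ℤ_[p]`-algebra in which `p` is a non-zero-divisor is free over `ℤ_[p]`. -/
theorem free_padic_of_mem_nonZeroDivisors {A : Type*} [CommRing A] [Algebra ℤ_[p] A]
    [Module.Finite ℤ_[p] A] (hp : (p : A) ∈ nonZeroDivisors A) : Module.Free ℤ_[p] A := by
  haveI := isTorsionFree_padic hp
  infer_instance

/-- A finite `ℤ_[p]`-algebra which is a domain of characteristic zero is free over `ℤ_[p]`. -/
theorem free_padic_of_isDomain {A : Type*} [CommRing A] [IsDomain A] [CharZero A]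
    [Algebra ℤ_[p] A] [Module.Finite ℤ_[p] A] : Module.Free ℤ_[p] A :=
  free_padic_of_mem_nonZeroDivisors
    (mem_nonZeroDivisors_of_ne_zero (Nat.cast_ne_zero.mpr (Fact.out : p.Prime).ne_zero))

/-- Ring homomorphisms `ℤ_[p] →+* A` into a noetherian local ring with `p ∈ 𝔪_A` are unique: all
`ℤ_[p]`-algebra structures on `A` agree. -/
theorem ringHom_padic_ext {A : Type*} [CommRing A] [IsLocalRing A] [IsNoetherianRing A]
    (hpA : (p : A) ∈ maximalIdeal A) (f g : ℤ_[p] →+* A) : f = g := by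
  ext x
  rw [← sub_eq_zero]
  have hK : (⨅ n : ℕ, maximalIdeal A ^ n) = ⊥ :=
    Ideal.iInf_pow_eq_bot_of_isLocalRing _ Ideal.IsPrime.ne_top'
  have hmem : f x - g x ∈ (⨅ n : ℕ, maximalIdeal A ^ n) := by
    rw [Ideal.mem_iInf]
    intro n
    have h0 : ((p : A ⧸ maximalIdeal A ^ n)) ^ n = 0 := by
      have h1 : ((p : A ⧸ maximalIdeal A ^ n)) ^ n =
          Ideal.Quotient.mk (maximalIdeal A ^ n) ((p : A) ^ n) := by
        rw [map_pow, map_natCast]
      rw [h1, Ideal.Quotient.eq_zero_iff_mem]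
      exact Ideal.pow_mem_pow hpA n
    have h2 := Fermat.Agent.ES.J.PadicAlg8.ringHom_ext_of_pow_eq_zero p h0
      ((Ideal.Quotient.mk (maximalIdeal A ^ n)).comp f)
      ((Ideal.Quotient.mk (maximalIdeal A ^ n)).comp g)
    have h3 := RingHom.congr_fun h2 x
    rw [RingHom.comp_apply, RingHom.comp_apply] at h3
    rw [← Ideal.Quotient.eq_zero_iff_mem, map_sub, h3, sub_self]
  rw [hK] at hmem
  exact hmem

end Padic

/-! ### 3. The S33 data -/

section Datum

variable {p : ℕ} [Fact p.Prime]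
  (𝒪 : Type) [CommRing 𝒪] [IsDomain 𝒪] [IsDiscreteValuationRing 𝒪]
  [Finite (ResidueField 𝒪)] [CharZero 𝒪]

/-- `𝒪 ⧸ p 𝒪` is finite. -/
theorem finite_quotient_span_natCast_O : Finite (𝒪 ⧸ Ideal.span {(p : 𝒪)}) := by
  rw [IsLocalRing.finite_quotient_iff]
  obtain ⟨ϖ, hϖ⟩ := IsDiscreteValuationRing.exists_irreducible 𝒪
  have hp0 : Ideal.span {(p : 𝒪)} ≠ ⊥ := by
    rw [Ne, Ideal.span_singleton_eq_bot]
    exact Nat.cast_ne_zero.mpr (Fact.out : p.Prime).ne_zero
  obtain ⟨n, hn⟩ := IsDiscreteValuationRing.ideal_eq_span_pow_irreducible hp0 hϖ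
  exact ⟨n, by rw [hn, hϖ.maximalIdeal_eq, Ideal.span_singleton_pow]⟩

/-- `A ⧸ p A` is finite for every finite `𝒪`-algebra `A`. -/
theorem finite_quotient_span_natCast (A : Type*) [CommRing A] [Algebra 𝒪 A] [Module.Finite 𝒪 A] :
    Finite (A ⧸ Ideal.span {(p : A)}) := by
  haveI := finite_quotient_span_natCast_O (p := p) 𝒪
  have h1 : Module.Finite (𝒪 ⧸ Ideal.span {(p : 𝒪)})
      (A ⧸ (Ideal.span {(p : 𝒪)}).map (algebraMap 𝒪 A)) :=
    Module.Finite.of_restrictScalars_finite 𝒪 _ _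
  have h2 : Finite (A ⧸ (Ideal.span {(p : 𝒪)}).map (algebraMap 𝒪 A)) :=
    Module.finite_of_finite (𝒪 ⧸ Ideal.span {(p : 𝒪)})
  rwa [Ideal.map_span, Set.image_singleton, map_natCast] at h2

/-- A noetherian local ring, finite over `𝒪`, with `p ∈ 𝔪`, is a finite `ℤ_[p]`-module for any
`ℤ_[p]`-algebra structure. -/
theorem finite_padic_of_finite_O (A : Type*) [CommRing A] [IsLocalRing A] [IsNoetherianRing A]
    [Algebra 𝒪 A] [Module.Finite 𝒪 A] [Algebra ℤ_[p] A] (hpA : (p : A) ∈ maximalIdeal A) :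
    Module.Finite ℤ_[p] A := by
  haveI := finite_quotient_span_natCast (p := p) 𝒪 A
  exact finite_padic_of_finite_quotient hpA

variable {𝒪}

/-- `𝒪` is a finite `ℤ_[p]`-module. -/
theorem finite_padic_O [Algebra ℤ_[p] 𝒪] (hp𝒪 : (p : 𝒪) ∈ maximalIdeal 𝒪) :
    Module.Finite ℤ_[p] 𝒪 :=
  finite_padic_of_finite_O 𝒪 𝒪 hp𝒪

/-- `𝒪` is a free `ℤ_[p]`-module. -/
theorem free_padic_O [Algebra ℤ_[p] 𝒪] (hp𝒪 : (p : 𝒪) ∈ maximalIdeal 𝒪) : Module.Free ℤ_[p] 𝒪 := by
  haveI := finite_padic_O hp𝒪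
  exact free_padic_of_isDomain

variable {T : Type} [CommRing T] [IsLocalRing T] [IsNoetherianRing T]
  [Algebra 𝒪 T] [IsLocalHom (algebraMap 𝒪 T)] [Module.Finite 𝒪 T] [Module.Free 𝒪 T]

/-- `T` is a finite `ℤ_[p]`-module. -/
theorem finite_padic_T [Algebra ℤ_[p] T] (hp𝒪 : (p : 𝒪) ∈ maximalIdeal 𝒪) :
    Module.Finite ℤ_[p] T :=
  finite_padic_of_finite_O 𝒪 T (by
    have h1 : algebraMap 𝒪 T (p : 𝒪) ∈ maximalIdeal T := map_nonunit _ _ hp𝒪
    rwa [map_natCast] at h1)

/-- `T` is a free `ℤ_[p]`-module. -/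
theorem free_padic_T [Algebra ℤ_[p] T] (hp𝒪 : (p : 𝒪) ∈ maximalIdeal 𝒪) : Module.Free ℤ_[p] T := by
  haveI := finite_padic_T (T := T) hp𝒪
  refine free_padic_of_mem_nonZeroDivisors ?_
  rw [mem_nonZeroDivisors_iff_right]
  intro x hx
  have hp0 : (p : 𝒪) ≠ 0 := Nat.cast_ne_zero.mpr (Fact.out : p.Prime).ne_zero
  have h1 : (p : 𝒪) • x = 0 := by rw [Algebra.smul_def, map_natCast, mul_comm]; exact hx
  exact (smul_eq_zero_iff_right hp0).mp h1

/-- `T ⧸ P` is a finite `ℤ_[p]`-module, for a prime `P` of `T`. -/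
theorem finite_padic_quot (P : Ideal T) [P.IsPrime] [Algebra ℤ_[p] (T ⧸ P)]
    (hp𝒪 : (p : 𝒪) ∈ maximalIdeal 𝒪) : Module.Finite ℤ_[p] (T ⧸ P) :=
  finite_padic_of_finite_O 𝒪 (T ⧸ P) (PointsOfT83.natCast_mem_maximalIdeal_quot P (by
    have h1 : algebraMap 𝒪 T (p : 𝒪) ∈ maximalIdeal T := map_nonunit _ _ hp𝒪
    rwa [map_natCast] at h1))

/-- `T ⧸ P` is a free `ℤ_[p]`-module, for a minimal prime `P` of `T`. -/
theorem free_padic_quot (P : Ideal T) (hP : P ∈ minimalPrimes T) [Algebra ℤ_[p] (T ⧸ P)]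
    (hp𝒪 : (p : 𝒪) ∈ maximalIdeal 𝒪) : Module.Free ℤ_[p] (T ⧸ P) := by
  haveI : P.IsPrime := RedT83.isPrime_of_mem_minimalPrimes hP
  haveI := finite_padic_quot (T := T) P hp𝒪
  haveI : CharZero (T ⧸ P) :=
    charZero_of_injective_algebraMap (RedT83.algebraMap_quotient_injective (𝒪 := 𝒪) hP)
  exact free_padic_of_isDomain

end Datum

end Fermat.Agent.ORD.Alg.PadicFinite83
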