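/-
ORD (S33), chapter ALG, brick A5 (helper95): **residual Cayley–Hamilton modules**
(`Spec40.ResidualCH`, ORD-PLAN v1 / ruling #1272).  Pure algebra over a field, Mathlib only.

`(t, δ)` a pseudo-character on a group `G` with values in a field `k`, `U ≠ 0` a `k[G]`-module on
which `ρ g + δ g • ρ g⁻¹ = t g • 1` for all `g`, `I ≤ G` a subgroup, `σ₀ ∈ I` with `α := δ σ₀ ≠ 1`,
and the residual trace identities `(I1)` on `I`, `(I2)` for `h ∈ I`, together with the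
non-multiplicativity `hirr` of `D(g) = α t(g) - t(g σ₀)` (the trace form of irreducibility).
With `E := ρ σ₀ - 1`, `E' := α - ρ σ₀`:

* `E_mul_E'`, `E'_mul_E`, `E_add_E'` : `E E' = E' E = 0`, `E + E' = α - 1`;
* `Dfun_smul_one` : `D(g) • 1 = ρ g E' + δ g • E ρ g⁻¹`;
* `E'_mul_mul_E'` : `E' ρ g E' = D(g) • E'`;
* `E'_mul_E_mul_E'` : `E' ρ h E ρ g E' = 0` for `h ∈ I`;
* `mem_Wspan` : the span `W` of the `ρ g (E' u)` is everything (uses `hirr`);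
* `E'_mul_rho_mul_E` : `E' ρ h E = 0` for `h ∈ I`;
* `E'_mul_rho` : `E' ρ h = E'` for `h ∈ I`;
* `residualCH : Spec40.ResidualCH`.
-/
import Mathlib
import Fermat.Agent.ORD.Spec.Spec40

set_option autoImplicit false

namespace Fermat.Agent.ORD.Alg.ResidualCH95

open Fermat.Agent.ORD.Alg.CHFunctional40

universe u v w

variable {k : Type u} [Field k] {U : Type v} [AddCommGroup U] [Module k U]
  {G : Type w} [Group G] (ρ : G →* Module.End k U) (t : G → k) (δ : G →* k)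

theorem rho_mul_inv (g : G) : ρ g * ρ g⁻¹ = 1 := by
  rw [← map_mul, mul_inv_cancel, map_one]

theorem rho_inv_mul (g : G) : ρ g⁻¹ * ρ g = 1 := by
  rw [← map_mul, inv_mul_cancel, map_one]

theorem delta_ne_zero (g : G) : δ g ≠ 0 := by
  intro h
  have h1 : δ g * δ g⁻¹ = 1 := by rw [← map_mul, mul_inv_cancel, map_one]
  rw [h, zero_mul] at h1
  exact zero_ne_one h1

/-- `E = ρ σ₀ - 1`. -/
def opE (σ₀ : G) : Module.End k U := ρ σ₀ - 1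

/-- `E' = δ σ₀ - ρ σ₀`. -/
def opE' (σ₀ : G) : Module.End k U := δ σ₀ • (1 : Module.End k U) - ρ σ₀

section Identities

variable (hW : ∀ g : G, ρ g + δ g • ρ g⁻¹ = t g • (1 : Module.End k U))
  (σ₀ : G) (h1σ : t σ₀ = 1 + δ σ₀)

include hW h1σ

/-- the quadratic relation of `ρ σ₀`. -/
theorem sq_eq : ρ σ₀ * ρ σ₀ = (1 + δ σ₀) • ρ σ₀ - δ σ₀ • (1 : Module.End k U) := by
  have h := congrArg (· * ρ σ₀) (hW σ₀)
  simp only [add_mul, smul_mul_assoc, rho_inv_mul, one_mul] at h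
  rw [h1σ] at h
  exact eq_sub_of_add_eq h

/-- `α ρ σ₀⁻¹ = (1 + α) - ρ σ₀`. -/
theorem smul_inv_eq : δ σ₀ • ρ σ₀⁻¹ = (1 + δ σ₀) • (1 : Module.End k U) - ρ σ₀ := by
  have h := hW σ₀
  rw [h1σ] at h
  exact eq_sub_of_add_eq' h

theorem E_mul_E' : opE ρ σ₀ * opE' ρ δ σ₀ = 0 := by
  unfold opE opE'
  rw [sub_mul, mul_sub, mul_sub, mul_smul_comm, mul_one, one_mul, one_mul,
    sq_eq ρ t δ hW σ₀ h1σ]
  module

theorem E'_mul_E : opE' ρ δ σ₀ * opE ρ σ₀ = 0 := by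
  unfold opE opE'
  rw [sub_mul, mul_sub, mul_sub, smul_mul_assoc, one_mul, mul_one, mul_one,
    sq_eq ρ t δ hW σ₀ h1σ]
  module

omit hW h1σ in
theorem E_add_E' : opE ρ σ₀ + opE' ρ δ σ₀ = (δ σ₀ - 1) • (1 : Module.End k U) := by
  unfold opE opE'
  module

/-- **F1**: `D(g) • 1 = ρ g E' + δ g • E ρ g⁻¹`. -/
theorem Dfun_smul_one (g : G) :
    Dfun t δ σ₀ g • (1 : Module.End k U) =
      ρ g * opE' ρ δ σ₀ + δ g • (opE ρ σ₀ * ρ g⁻¹) := by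
  have e1 : t g • (1 : Module.End k U) = ρ g + δ g • ρ g⁻¹ := (hW g).symm
  have e2 : t (g * σ₀) • (1 : Module.End k U) =
      ρ g * ρ σ₀ + δ g • ((δ σ₀ • ρ σ₀⁻¹) * ρ g⁻¹) := by
    rw [← hW (g * σ₀), map_mul, map_mul, mul_inv_rev, map_mul, smul_mul_assoc, smul_smul]
  rw [smul_inv_eq ρ t δ hW σ₀ h1σ] at e2
  unfold Dfun opE opE'
  rw [sub_smul, mul_smul, e1, e2, mul_sub, sub_mul, sub_mul, mul_smul_comm, mul_one,
    smul_mul_assoc, one_mul]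
  module

/-- **F2**: `E' ρ g E' = D(g) • E'`. -/
theorem E'_mul_mul_E' (g : G) :
    opE' ρ δ σ₀ * ρ g * opE' ρ δ σ₀ = Dfun t δ σ₀ g • opE' ρ δ σ₀ := by
  have h := congrArg (opE' ρ δ σ₀ * ·) (Dfun_smul_one ρ t δ hW σ₀ h1σ g)
  simp only [mul_smul_comm, mul_one, mul_add] at h
  rw [← mul_assoc (opE' ρ δ σ₀) (opE ρ σ₀), E'_mul_E ρ t δ hW σ₀ h1σ, zero_mul, smul_zero,
    add_zero, ← mul_assoc] at h
  exact h.symm

end Identities

section Main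

variable (hW : ∀ g : G, ρ g + δ g • ρ g⁻¹ = t g • (1 : Module.End k U))
  (I : Subgroup G) (σ₀ : G) (hσ₀ : σ₀ ∈ I) (hα : δ σ₀ ≠ 1)
  (h1 : ∀ h ∈ I, t h = 1 + δ h)
  (h2 : ∀ h ∈ I, ∀ g : G, (δ σ₀ - 1) * Dfun t δ σ₀ (h * g) = Dfun t δ σ₀ h * Dfun t δ σ₀ g)

include hW hσ₀ h1 h2 in
/-- **F4**: `E' ρ h E ρ g E' = 0` for `h ∈ I`. -/
theorem E'_mul_E_mul_E' (h : G) (hh : h ∈ I) (g : G) :
    opE' ρ δ σ₀ * ρ h * opE ρ σ₀ * ρ g * opE' ρ δ σ₀ = 0 := by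
  have h1σ := h1 σ₀ hσ₀
  have hE : opE ρ σ₀ = (δ σ₀ - 1) • (1 : Module.End k U) - opE' ρ δ σ₀ :=
    eq_sub_of_add_eq (E_add_E' ρ δ σ₀)
  have e1 : opE' ρ δ σ₀ * ρ h * ρ g * opE' ρ δ σ₀ = Dfun t δ σ₀ (h * g) • opE' ρ δ σ₀ := by
    rw [← E'_mul_mul_E' ρ t δ hW σ₀ h1σ (h * g), map_mul, mul_assoc (opE' ρ δ σ₀) (ρ h) (ρ g)]
  have e2 : opE' ρ δ σ₀ * ρ h * opE' ρ δ σ₀ * ρ g * opE' ρ δ σ₀ =
      (Dfun t δ σ₀ h * Dfun t δ σ₀ g) • opE' ρ δ σ₀ := by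
    rw [E'_mul_mul_E' ρ t δ hW σ₀ h1σ h, smul_mul_assoc, smul_mul_assoc,
      E'_mul_mul_E' ρ t δ hW σ₀ h1σ g, smul_smul]
  rw [hE, mul_sub, sub_mul, sub_mul, mul_smul_comm, mul_one, smul_mul_assoc, smul_mul_assoc,
    e1, e2, smul_smul, h2 h hh g, sub_self]

/-- the span of the vectors `ρ g (E' u)`. -/
def Wspan : Submodule k U :=
  Submodule.span k {y | ∃ (g : G) (u : U), y = ρ g (opE' ρ δ σ₀ u)}

theorem rho_mem_Wspan (g : G) {y : U} (hy : y ∈ Wspan ρ δ σ₀) : ρ g y ∈ Wspan ρ δ σ₀ := by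
  unfold Wspan at hy ⊢
  induction hy using Submodule.span_induction with
  | mem y hy =>
    obtain ⟨g', u, rfl⟩ := hy
    refine Submodule.subset_span ⟨g * g', u, ?_⟩
    rw [map_mul]
    rfl
  | zero => rw [map_zero]; exact Submodule.zero_mem _
  | add x y _ _ hx hy => rw [map_add]; exact Submodule.add_mem _ hx hy
  | smul c x _ hx => rw [map_smul]; exact Submodule.smul_mem _ c hx

theorem E'_mem_Wspan (u : U) : opE' ρ δ σ₀ u ∈ Wspan ρ δ σ₀ :=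
  Submodule.subset_span ⟨1, u, by rw [map_one]; rfl⟩

include hW hσ₀ hα h1 in
/-- modulo `W`, `ρ g⁻¹ x` is a multiple of `x`. -/
theorem inv_sub_smul_mem (g : G) (x : U) :
    ρ g⁻¹ x - (Dfun t δ σ₀ g / ((δ σ₀ - 1) * δ g)) • x ∈ Wspan ρ δ σ₀ := by
  have h1σ := h1 σ₀ hσ₀
  have hα1 : δ σ₀ - 1 ≠ 0 := sub_ne_zero.mpr hα
  have hδ : δ g ≠ 0 := delta_ne_zero δ g
  have hc : (δ σ₀ - 1) * δ g ≠ 0 := mul_ne_zero hα1 hδ
  have hF1 := congrArg (fun f : Module.End k U => f x) (Dfun_smul_one ρ t δ hW σ₀ h1σ g)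
  simp only [LinearMap.smul_apply, Module.End.one_apply, LinearMap.add_apply,
    Module.End.mul_apply] at hF1
  have hE : ∀ y : U, opE ρ σ₀ y = (δ σ₀ - 1) • y - opE' ρ δ σ₀ y := by
    intro y
    have := congrArg (fun f : Module.End k U => f y) (E_add_E' ρ δ σ₀)
    simp only [LinearMap.add_apply, LinearMap.smul_apply, Module.End.one_apply] at this
    exact eq_sub_of_add_eq this
  rw [hE] at hF1
  -- `((α-1) δ g) • ρ g⁻¹ x - D(g) • x = δ g • E' (ρ g⁻¹ x) - ρ g (E' x) ∈ W`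
  have key : ((δ σ₀ - 1) * δ g) • (ρ g⁻¹ x - (Dfun t δ σ₀ g / ((δ σ₀ - 1) * δ g)) • x) =
      δ g • opE' ρ δ σ₀ (ρ g⁻¹ x) - ρ g (opE' ρ δ σ₀ x) := by
    rw [smul_sub, smul_smul, mul_div_cancel₀ _ hc, hF1]
    module
  have hmem : δ g • opE' ρ δ σ₀ (ρ g⁻¹ x) - ρ g (opE' ρ δ σ₀ x) ∈ Wspan ρ δ σ₀ :=
    Submodule.sub_mem _ (Submodule.smul_mem _ _ (E'_mem_Wspan ρ δ σ₀ _))
      (rho_mem_Wspan ρ δ σ₀ g (E'_mem_Wspan ρ δ σ₀ x))
  rw [← key] at hmem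
  have := Submodule.smul_mem (Wspan ρ δ σ₀) ((δ σ₀ - 1) * δ g)⁻¹ hmem
  rwa [smul_smul, inv_mul_cancel₀ hc, one_smul] at this

include hW hσ₀ hα h1 in
/-- **F5**: `W = ⊤`, from the non-multiplicativity of `D`. -/
theorem mem_Wspan
    (hirr : ¬ ∀ g g' : G, (δ σ₀ - 1) * Dfun t δ σ₀ (g * g') = Dfun t δ σ₀ g * Dfun t δ σ₀ g')
    (x : U) : x ∈ Wspan ρ δ σ₀ := by
  by_contra hx
  apply hirr
  intro g g'
  have hα1 : δ σ₀ - 1 ≠ 0 := sub_ne_zero.mpr hα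
  have hδg : δ g ≠ 0 := delta_ne_zero δ g
  have hδg' : δ g' ≠ 0 := delta_ne_zero δ g'
  set s : G → k := fun g => Dfun t δ σ₀ g / ((δ σ₀ - 1) * δ g) with hs
  have hmem : ∀ g : G, ρ g⁻¹ x - s g • x ∈ Wspan ρ δ σ₀ :=
    fun g => inv_sub_smul_mem ρ t δ hW I σ₀ hσ₀ hα h1 g x
  -- `ρ (g g')⁻¹ x ≡ s g * s g' • x`
  have h3 : ρ (g * g')⁻¹ x - (s g * s g') • x ∈ Wspan ρ δ σ₀ := by
    have e : ρ (g * g')⁻¹ x - (s g * s g') • x =
        ρ g'⁻¹ (ρ g⁻¹ x - s g • x) + s g • (ρ g'⁻¹ x - s g' • x) := by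
      rw [mul_inv_rev, map_mul, Module.End.mul_apply, map_sub, map_smul, smul_sub, smul_smul]
      abel
    rw [e]
    exact Submodule.add_mem _ (rho_mem_Wspan ρ δ σ₀ _ (hmem g))
      (Submodule.smul_mem _ _ (hmem g'))
  have h4 : (s g * s g' - s (g * g')) • x ∈ Wspan ρ δ σ₀ := by
    have e : (s g * s g' - s (g * g')) • x =
        (ρ (g * g')⁻¹ x - s (g * g') • x) - (ρ (g * g')⁻¹ x - (s g * s g') • x) := by
      rw [sub_smul]
      abel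
    rw [e]
    exact Submodule.sub_mem _ (hmem (g * g')) h3
  have h5 : s g * s g' - s (g * g') = 0 := by
    by_contra hne
    apply hx
    have := Submodule.smul_mem (Wspan ρ δ σ₀) (s g * s g' - s (g * g'))⁻¹ h4
    rwa [smul_smul, inv_mul_cancel₀ hne, one_smul] at this
  have h6 : s (g * g') = s g * s g' := (sub_eq_zero.mp h5).symm
  simp only [hs, map_mul] at h6
  field_simp at h6
  linear_combination h6

include hW hσ₀ hα h1 h2 in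
/-- **F6**: `E' ρ h E = 0` for `h ∈ I`. -/
theorem E'_mul_rho_mul_E
    (hirr : ¬ ∀ g g' : G, (δ σ₀ - 1) * Dfun t δ σ₀ (g * g') = Dfun t δ σ₀ g * Dfun t δ σ₀ g')
    (h : G) (hh : h ∈ I) : opE' ρ δ σ₀ * ρ h * opE ρ σ₀ = 0 := by
  ext x
  have hx := mem_Wspan ρ t δ hW I σ₀ hσ₀ hα h1 hirr x
  rw [LinearMap.zero_apply]
  unfold Wspan at hx
  induction hx using Submodule.span_induction with
  | mem y hy =>
    obtain ⟨g, u, rfl⟩ := hy
    have := congrArg (fun f : Module.End k U => f u)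
      (E'_mul_E_mul_E' ρ t δ hW I σ₀ hσ₀ h1 h2 h hh g)
    simpa only [Module.End.mul_apply, LinearMap.zero_apply] using this
  | zero => rw [map_zero]
  | add x y _ _ hx hy => rw [map_add, hx, hy, add_zero]
  | smul c x _ hx => rw [map_smul, hx, smul_zero]

include hW hσ₀ hα h1 h2 in
/-- **F7**: `E' ρ h = E'` for `h ∈ I`. -/
theorem E'_mul_rho
    (hirr : ¬ ∀ g g' : G, (δ σ₀ - 1) * Dfun t δ σ₀ (g * g') = Dfun t δ σ₀ g * Dfun t δ σ₀ g')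
    (h : G) (hh : h ∈ I) : opE' ρ δ σ₀ * ρ h = opE' ρ δ σ₀ := by
  have h1σ := h1 σ₀ hσ₀
  have hα1 : δ σ₀ - 1 ≠ 0 := sub_ne_zero.mpr hα
  -- `D(h) = α - 1`
  have hD : Dfun t δ σ₀ h = δ σ₀ - 1 := by
    unfold Dfun
    rw [h1 h hh, h1 (h * σ₀) (I.mul_mem hh hσ₀), map_mul]
    ring
  have e : (δ σ₀ - 1) • (opE' ρ δ σ₀ * ρ h) = (δ σ₀ - 1) • opE' ρ δ σ₀ := by
    calc (δ σ₀ - 1) • (opE' ρ δ σ₀ * ρ h)
        = opE' ρ δ σ₀ * ρ h * ((δ σ₀ - 1) • (1 : Module.End k U)) := by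
          rw [mul_smul_comm, mul_one]
      _ = opE' ρ δ σ₀ * ρ h * opE ρ σ₀ + opE' ρ δ σ₀ * ρ h * opE' ρ δ σ₀ := by
          rw [← E_add_E' ρ δ σ₀, mul_add]
      _ = (δ σ₀ - 1) • opE' ρ δ σ₀ := by
          rw [E'_mul_rho_mul_E ρ t δ hW I σ₀ hσ₀ hα h1 h2 hirr h hh, zero_add,
            E'_mul_mul_E' ρ t δ hW σ₀ h1σ h, hD]
  exact smul_right_injective _ hα1 e

end Main

/-- **Brick A5**: `Spec40.ResidualCH`. -/
theorem residualCH : Fermat.Agent.ORD.Spec.Spec40.ResidualCH.{u, v, w} := by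
  intro k _ U _ _ _ G _ ρ t δ hW I σ₀ hσ₀ hα h1 h2 hirr
  refine ⟨?_, fun h hh x => ?_⟩
  · -- `E' ≠ 0`, otherwise `W = 0`
    by_contra hne
    simp only [not_exists, not_not] at hne
    have hE'0 : ∀ u : U, opE' ρ δ σ₀ u = 0 := by
      intro u
      have := hne u
      unfold opE'
      rw [LinearMap.sub_apply, LinearMap.smul_apply, Module.End.one_apply]
      exact this
    obtain ⟨x, hx⟩ := exists_ne (0 : U)
    apply hx
    have hmem := mem_Wspan ρ t δ hW I σ₀ hσ₀ hα h1 hirr x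
    have hW0 : Wspan ρ δ σ₀ = ⊥ := by
      unfold Wspan
      rw [Submodule.span_eq_bot]
      rintro y ⟨g, u, rfl⟩
      rw [hE'0 u, map_zero]
    rw [hW0] at hmem
    exact (Submodule.mem_bot k).mp hmem
  · have := congrArg (fun f : Module.End k U => f x)
      (E'_mul_rho ρ t δ hW I σ₀ hσ₀ hα h1 h2 hirr h hh)
    simp only [Module.End.mul_apply] at this
    unfold opE' at this
    simpa only [LinearMap.sub_apply, LinearMap.smul_apply, Module.End.one_apply] using this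

end Fermat.Agent.ORD.Alg.ResidualCH95
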