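/-
ORD (S33), chapter ALG, brick A7 (helper79): **residual consequences of a Cayley–Hamilton module
over a local ring** (assignment #1408 of helper40).  Pure algebra: Mathlib + `Spec40` +
`ResidualCH95` only.

`A` a local ring with residue field `k`, `Λ ≠ 0` a finite `A`-module with a `G`-action `ρ` that is
Cayley–Hamilton for a pseudo-character `(t, δ)` (`hW`); `(tb, db)` the reduction of `(t, δ)` to `k`.
Put `U := k ⊗[A] Λ` (nonzero by Nakayama, `nontrivial_resMod`) with the action
`rhoU ρ g = (ρ g).baseChange k`; it is Cayley–Hamilton for `(tb, db)` (`hW_U`).  Feeding `U` to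
`ResidualCH95.residualCH` gives, under the residual identities `(I1)`, `(I2)` and the residual
non-multiplicativity `hirr`:

* (a) `σ₀` does not act on `Λ / 𝔪 Λ` as the scalar `db σ₀` (`residual_consequences.1`);
* (b) there is a nonzero `I`-invariant `A`-linear map `Λ → k` (`residual_consequences.2`).
-/
import Mathlib
import Fermat.Agent.ORD.Spec.Spec40
import Fermat.Agent.ORD.Alg.ResidualCH95

set_option autoImplicit false

namespace Fermat.Agent.ORD.Alg.ResidualModule79

open Fermat.Agent.ORD.Alg.CHFunctional40 TensorProduct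

section Residual

variable {A : Type*} [CommRing A] [IsLocalRing A] {Λ : Type*} [AddCommGroup Λ] [Module A Λ]

/-- **Nakayama**: the residual module `k ⊗[A] Λ` of a nonzero finite module over a local ring is
nonzero. -/
theorem nontrivial_resMod [Module.Finite A Λ] [Nontrivial Λ] :
    Nontrivial (IsLocalRing.ResidueField A ⊗[A] Λ) := by
  rw [← not_subsingleton_iff_nontrivial, IsLocalRing.subsingleton_tensorProduct]
  exact not_subsingleton Λ

/-- An `A`-scalar acts on `End_k (k ⊗[A] Λ)` through its residue class. -/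
theorem smul_end_eq_residue_smul (a : A)
    (F : Module.End (IsLocalRing.ResidueField A) (IsLocalRing.ResidueField A ⊗[A] Λ)) :
    a • F = IsLocalRing.residue A a • F := by
  rw [← IsLocalRing.ResidueField.algebraMap_eq, algebraMap_smul]

/-- `a ⊗ z = 0` in `k ⊗[A] Λ` for `z ∈ 𝔪 Λ`. -/
theorem tmul_eq_zero_of_mem_smul_top (a : IsLocalRing.ResidueField A) {z : Λ}
    (hz : z ∈ (IsLocalRing.maximalIdeal A) • (⊤ : Submodule A Λ)) :
    a ⊗ₜ[A] z = 0 := by
  refine Submodule.smul_induction_on hz (fun r hr n _ => ?_) (fun x y hx hy => ?_)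
  · have h : r • (a ⊗ₜ[A] n) = IsLocalRing.residue A r • (a ⊗ₜ[A] n) := by
      rw [← IsLocalRing.ResidueField.algebraMap_eq, algebraMap_smul]
    rw [TensorProduct.tmul_smul, h, (IsLocalRing.residue_eq_zero_iff r).mpr hr, zero_smul]
  · rw [TensorProduct.tmul_add, hx, hy, add_zero]

variable {G : Type*} [Group G]

/-- The residual representation `g ↦ (ρ g).baseChange k` on `U = k ⊗[A] Λ`. -/
noncomputable def rhoU (ρ : G →* Module.End A Λ) :
    G →* Module.End (IsLocalRing.ResidueField A) (IsLocalRing.ResidueField A ⊗[A] Λ) :=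
  ((Module.End.baseChangeHom A (IsLocalRing.ResidueField A) Λ :
      Module.End A Λ →ₐ[A] Module.End (IsLocalRing.ResidueField A)
        (IsLocalRing.ResidueField A ⊗[A] Λ)) :
    Module.End A Λ →* Module.End (IsLocalRing.ResidueField A)
      (IsLocalRing.ResidueField A ⊗[A] Λ)).comp ρ

theorem rhoU_apply (ρ : G →* Module.End A Λ) (g : G) :
    rhoU ρ g = (ρ g).baseChange (IsLocalRing.ResidueField A) := rfl

@[simp]
theorem rhoU_tmul (ρ : G →* Module.End A Λ) (g : G) (a : IsLocalRing.ResidueField A) (x : Λ) :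
    rhoU ρ g (a ⊗ₜ[A] x) = a ⊗ₜ[A] ρ g x := rfl

/-- The residual module is Cayley–Hamilton for the reduced pseudo-character. -/
theorem hW_U (ρ : G →* Module.End A Λ) (t : G → A) (δ : G →* A)
    (hW : ∀ g : G, ρ g + δ g • ρ g⁻¹ = t g • (1 : Module.End A Λ))
    (tb : G → IsLocalRing.ResidueField A) (db : G →* IsLocalRing.ResidueField A)
    (htb : ∀ g, IsLocalRing.residue A (t g) = tb g)
    (hdb : ∀ g, IsLocalRing.residue A (δ g) = db g) (g : G) :
    rhoU ρ g + db g • rhoU ρ g⁻¹ =
      tb g • (1 : Module.End (IsLocalRing.ResidueField A) (IsLocalRing.ResidueField A ⊗[A] Λ)) := by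
  have h := congrArg (LinearMap.baseChange (IsLocalRing.ResidueField A)) (hW g)
  rw [LinearMap.baseChange_add, LinearMap.baseChange_smul, LinearMap.baseChange_smul,
    LinearMap.baseChange_one, smul_end_eq_residue_smul, smul_end_eq_residue_smul, htb, hdb] at h
  exact h

/-- If `ρ g` is congruent to the scalar `c₀` modulo `𝔪 Λ` then `rhoU ρ g` is the scalar
`residue c₀`. -/
theorem rhoU_apply_eq_smul_of_forall_mem (ρ : G →* Module.End A Λ) (g : G) (c₀ : A)
    (hall : ∀ x : Λ, ρ g x - c₀ • x ∈ (IsLocalRing.maximalIdeal A) • (⊤ : Submodule A Λ))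
    (u : IsLocalRing.ResidueField A ⊗[A] Λ) :
    rhoU ρ g u = IsLocalRing.residue A c₀ • u := by
  induction u using TensorProduct.induction_on with
  | zero => rw [map_zero, smul_zero]
  | tmul a x =>
    have h0 := tmul_eq_zero_of_mem_smul_top a (hall x)
    rw [TensorProduct.tmul_sub, sub_eq_zero] at h0
    rw [rhoU_tmul, h0, TensorProduct.tmul_smul, ← IsLocalRing.ResidueField.algebraMap_eq,
      algebraMap_smul]
  | add u v hu hv => rw [map_add, hu, hv, smul_add]

/-- **Brick A7.**  Residual consequences of a Cayley–Hamilton module `Λ` over the local ring `A`: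
(a) `σ₀` is not congruent to the scalar `db σ₀` on `Λ / 𝔪 Λ`; (b) there is a nonzero `I`-invariant
`A`-linear map `Λ → k`. -/
theorem residual_consequences [Module.Finite A Λ] [Nontrivial Λ]
    (ρ : G →* Module.End A Λ) (t : G → A) (δ : G →* A)
    (hW : ∀ g : G, ρ g + δ g • ρ g⁻¹ = t g • (1 : Module.End A Λ))
    (tb : G → IsLocalRing.ResidueField A) (db : G →* IsLocalRing.ResidueField A)
    (htb : ∀ g, IsLocalRing.residue A (t g) = tb g)
    (hdb : ∀ g, IsLocalRing.residue A (δ g) = db g)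
    (I : Subgroup G) (σ₀ : G) (hσ₀ : σ₀ ∈ I) (hα : db σ₀ ≠ 1)
    (h1 : ∀ h ∈ I, tb h = 1 + db h)
    (h2 : ∀ h ∈ I, ∀ g : G,
      (db σ₀ - 1) * Dfun tb db σ₀ (h * g) = Dfun tb db σ₀ h * Dfun tb db σ₀ g)
    (hirr : ¬ ∀ g g' : G,
      (db σ₀ - 1) * Dfun tb db σ₀ (g * g') = Dfun tb db σ₀ g * Dfun tb db σ₀ g') :
    (∀ c₀ : A, IsLocalRing.residue A c₀ = db σ₀ →
      ¬ ∀ x : Λ, ρ σ₀ x - c₀ • x ∈ (IsLocalRing.maximalIdeal A) • (⊤ : Submodule A Λ)) ∧
    (∃ μ : Λ →ₗ[A] IsLocalRing.ResidueField A, μ ≠ 0 ∧ ∀ h ∈ I, ∀ x, μ (ρ h x) = μ x) := by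
  classical
  have : Nontrivial (IsLocalRing.ResidueField A ⊗[A] Λ) := nontrivial_resMod
  obtain ⟨⟨x, hx⟩, hinv⟩ :=
    Fermat.Agent.ORD.Alg.ResidualCH95.residualCH (rhoU ρ) tb db
      (hW_U ρ t δ hW tb db htb hdb) I σ₀ hσ₀ hα h1 h2 hirr
  refine ⟨?_, ?_⟩
  · intro c₀ hc₀ hall
    apply hx
    rw [rhoU_apply_eq_smul_of_forall_mem ρ σ₀ c₀ hall x, hc₀, sub_self]
  · obtain ⟨f, hf⟩ := Module.Projective.exists_dual_ne_zero (IsLocalRing.ResidueField A) hx
    -- the `k`-linear functional `f ∘ E'` on `U`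
    let E' : Module.End (IsLocalRing.ResidueField A) (IsLocalRing.ResidueField A ⊗[A] Λ) :=
      db σ₀ • (1 : Module.End (IsLocalRing.ResidueField A) (IsLocalRing.ResidueField A ⊗[A] Λ))
        - rhoU ρ σ₀
    have hE' : ∀ u, E' u = db σ₀ • u - rhoU ρ σ₀ u := fun u => by
      simp only [E', LinearMap.sub_apply, LinearMap.smul_apply, Module.End.one_apply]
    let φ : IsLocalRing.ResidueField A ⊗[A] Λ →ₗ[IsLocalRing.ResidueField A]
        IsLocalRing.ResidueField A := f ∘ₗ E'
    let μ : Λ →ₗ[A] IsLocalRing.ResidueField A :=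
      (φ.restrictScalars A) ∘ₗ (TensorProduct.mk A (IsLocalRing.ResidueField A) Λ 1)
    have hμ : ∀ y : Λ, μ y = f (E' ((1 : IsLocalRing.ResidueField A) ⊗ₜ[A] y)) := fun y => rfl
    refine ⟨μ, ?_, ?_⟩
    · intro h0
      apply hf
      have hφ : ∀ u : IsLocalRing.ResidueField A ⊗[A] Λ, φ u = 0 := by
        intro u
        induction u using TensorProduct.induction_on with
        | zero => rw [map_zero]
        | tmul a y =>
          have : a ⊗ₜ[A] y = a • ((1 : IsLocalRing.ResidueField A) ⊗ₜ[A] y) := by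
            rw [TensorProduct.smul_tmul', smul_eq_mul, mul_one]
          rw [this, map_smul]
          have hy : μ y = 0 := by rw [h0, LinearMap.zero_apply]
          rw [hμ] at hy
          change a • f (E' ((1 : IsLocalRing.ResidueField A) ⊗ₜ[A] y)) = 0
          rw [hy, smul_zero]
        | add u v hu hv => rw [map_add, hu, hv, add_zero]
      have := hφ x
      rw [← hE' x]
      exact this
    · intro h hh y
      rw [hμ, hμ, hE', hE']
      have := hinv h hh ((1 : IsLocalRing.ResidueField A) ⊗ₜ[A] y)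
      rw [rhoU_tmul] at this
      rw [this]

end Residual

end Fermat.Agent.ORD.Alg.ResidualModule79
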