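/-
ORD (S33), chapter ALG, brick A6 (helper95): **the residual trace identities**
(assignment #1408 of the ORD lead).

`T` a local ring with residue field `k`, `ρ : GaloisRepAdic T` with absolutely irreducible residual
representation `ρ̄` which is ordinary at a valuation subring `P` (literal body of the Prelude's
`IsOrdinaryAt`), `σ₀` in the inertia group of `P` with `δ̄ σ₀ ≠ 1`.  With `t̄ = tbar ρ` (residue of the
trace), `δ̄ = dbar ρ` (residue of the determinant) and `D = Dfun t̄ δ̄ σ₀`:

* (I1) `t̄ h = 1 + δ̄ h` on the inertia group;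
* (I2) `(δ̄ σ₀ - 1) D(h g) = D(h) D(g)` for `h` in the decomposition group;
* `D` is NOT multiplicative on the whole group (the trace form of irreducibility).

Main steps:
* `not_mult_of_irreducible` : pure algebra over a field: a CH-module which is irreducible and on
  which `ρ σ₀ ≠ 1`, `ρ σ₀ ≠ δ σ₀` has a non-multiplicative `D`;
* `trace_residual`, `det_residual`, `hW_residual` : trace, determinant and the Cayley–Hamilton
  relation `ρ̄ g + δ̄ g • ρ̄ g⁻¹ = t̄ g • 1` of the residual representation;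
* `residualIdent` : the statement.
-/
import Mathlib
import Fermat.Prelude.Def_GaloisRep_LocalConditions
import Fermat.Agent.ORD.Spec.Spec40
import Fermat.Agent.ORD.Alg.ResidualCH95

set_option autoImplicit false

noncomputable section

namespace Fermat.Agent.ORD.Alg.ResidualIdent95

open Fermat.Agent.ORD.Alg.CHFunctional40 Fermat.Agent.ORD.Alg.ResidualCH95
open scoped TensorProduct

local notation "Qb" => AlgebraicClosure ℚ
local notation "GQ" => (AlgebraicClosure ℚ ≃ₐ[ℚ] AlgebraicClosure ℚ)

/-! ### 1. Pure algebra: irreducible CH-modules have a non-multiplicative `D` -/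

section Abstract

universe u v w

variable {k : Type u} [Field k] {U : Type v} [AddCommGroup U] [Module k U]
  {G : Type w} [Group G] (ρ : G →* Module.End k U) (t : G → k) (δ : G →* k)

/-- the span of the vectors `ρ g (X u)`: the `G`-submodule generated by the image of `X`. -/
def spanOf (X : Module.End k U) : Submodule k U :=
  Submodule.span k {y | ∃ (g : G) (u : U), y = ρ g (X u)}

theorem rho_mem_spanOf (X : Module.End k U) (g : G) {y : U} (hy : y ∈ spanOf ρ X) :
    ρ g y ∈ spanOf ρ X := by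
  unfold spanOf at hy ⊢
  induction hy using Submodule.span_induction with
  | mem y hy =>
    obtain ⟨g', u, rfl⟩ := hy
    refine Submodule.subset_span ⟨g * g', u, ?_⟩
    rw [map_mul]
    rfl
  | zero => rw [map_zero]; exact Submodule.zero_mem _
  | add x y _ _ hx hy => rw [map_add]; exact Submodule.add_mem _ hx hy
  | smul c x _ hx => rw [map_smul]; exact Submodule.smul_mem _ c hx

theorem apply_mem_spanOf (X : Module.End k U) (u : U) : X u ∈ spanOf ρ X :=
  Submodule.subset_span ⟨1, u, by rw [map_one]; rfl⟩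

/-- if the `G`-submodule generated by the image of `X` is zero then `X = 0`. -/
theorem eq_zero_of_spanOf_eq_bot {X : Module.End k U} (h : spanOf ρ X = ⊥) : X = 0 := by
  ext u
  have := apply_mem_spanOf ρ X u
  rw [h] at this
  rw [LinearMap.zero_apply]
  exact (Submodule.mem_bot k).mp this

/-- an operator `Y` with `Y ρ(g) X = 0` for all `g` kills the `G`-submodule generated by the
image of `X`. -/
theorem apply_eq_zero_of_mem_spanOf {X Y : Module.End k U} (h : ∀ g : G, Y * ρ g * X = 0)
    {x : U} (hx : x ∈ spanOf ρ X) : Y x = 0 := by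
  unfold spanOf at hx
  induction hx using Submodule.span_induction with
  | mem y hy =>
    obtain ⟨g, u, rfl⟩ := hy
    have := congrArg (fun f : Module.End k U => f u) (h g)
    simpa only [Module.End.mul_apply, LinearMap.zero_apply] using this
  | zero => rw [map_zero]
  | add x y _ _ hx hy => rw [map_add, hx, hy, add_zero]
  | smul c x _ hx => rw [map_smul, hx, smul_zero]

/-- **The trace form of irreducibility.**  `U` an irreducible CH-module for `(t, δ)`, `σ₀` with
`t σ₀ = 1 + δ σ₀`, `ρ σ₀ ≠ 1` and `ρ σ₀ ≠ δ σ₀`.  Then `D(g) = δ σ₀ t(g) - t(g σ₀)` is not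
multiplicative. -/
theorem not_mult_of_irreducible
    (hW : ∀ g : G, ρ g + δ g • ρ g⁻¹ = t g • (1 : Module.End k U))
    (σ₀ : G) (h1σ : t σ₀ = 1 + δ σ₀)
    (hirrU : ∀ W : Submodule k U, (∀ g : G, ∀ x ∈ W, ρ g x ∈ W) → W = ⊥ ∨ W = ⊤)
    (hE : opE ρ σ₀ ≠ 0) (hE' : opE' ρ δ σ₀ ≠ 0) :
    ¬ ∀ g g' : G, (δ σ₀ - 1) * Dfun t δ σ₀ (g * g') = Dfun t δ σ₀ g * Dfun t δ σ₀ g' := by
  intro hmult
  -- `E' ρ h E ρ g E' = 0` for all `h`, `g`
  have hF4 : ∀ h g : G, opE' ρ δ σ₀ * ρ h * opE ρ σ₀ * ρ g * opE' ρ δ σ₀ = 0 := by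
    intro h g
    have hEe : opE ρ σ₀ = (δ σ₀ - 1) • (1 : Module.End k U) - opE' ρ δ σ₀ :=
      eq_sub_of_add_eq (E_add_E' ρ δ σ₀)
    have e1 : opE' ρ δ σ₀ * ρ h * ρ g * opE' ρ δ σ₀ = Dfun t δ σ₀ (h * g) • opE' ρ δ σ₀ := by
      rw [← E'_mul_mul_E' ρ t δ hW σ₀ h1σ (h * g), map_mul, mul_assoc (opE' ρ δ σ₀) (ρ h) (ρ g)]
    have e2 : opE' ρ δ σ₀ * ρ h * opE' ρ δ σ₀ * ρ g * opE' ρ δ σ₀ =
        (Dfun t δ σ₀ h * Dfun t δ σ₀ g) • opE' ρ δ σ₀ := by
      rw [E'_mul_mul_E' ρ t δ hW σ₀ h1σ h, smul_mul_assoc, smul_mul_assoc,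
        E'_mul_mul_E' ρ t δ hW σ₀ h1σ g, smul_smul]
    rw [hEe, mul_sub, sub_mul, sub_mul, mul_smul_comm, mul_one, smul_mul_assoc, smul_mul_assoc,
      e1, e2, smul_smul, hmult h g, sub_self]
  rcases hirrU (spanOf ρ (opE' ρ δ σ₀)) (fun g x hx => rho_mem_spanOf ρ _ g hx) with h0 | h0
  · exact hE' (eq_zero_of_spanOf_eq_bot ρ h0)
  · -- `E' ρ h E = 0` for all `h`
    have hF6 : ∀ h : G, opE' ρ δ σ₀ * ρ h * opE ρ σ₀ = 0 := by
      intro h
      ext x
      rw [LinearMap.zero_apply]
      exact apply_eq_zero_of_mem_spanOf ρ (X := opE' ρ δ σ₀)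
        (Y := opE' ρ δ σ₀ * ρ h * opE ρ σ₀) (fun g => hF4 h g) (h0 ▸ Submodule.mem_top)
    rcases hirrU (spanOf ρ (opE ρ σ₀)) (fun g x hx => rho_mem_spanOf ρ _ g hx) with h1 | h1
    · exact hE (eq_zero_of_spanOf_eq_bot ρ h1)
    · apply hE'
      ext x
      rw [LinearMap.zero_apply]
      exact apply_eq_zero_of_mem_spanOf ρ (X := opE ρ σ₀) (Y := opE' ρ δ σ₀) hF6
        (h1 ▸ Submodule.mem_top)

end Abstract

/-! ### 2. Rank two: Cayley–Hamilton -/

section RankTwo

open Polynomial

variable {k : Type*} [Field k] {V : Type*} [AddCommGroup V] [Module k V] [Module.Finite k V]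

/-- the characteristic polynomial in rank two. -/
theorem charpoly_rank_two (hrank : Module.finrank k V = 2) (f : V →ₗ[k] V) :
    f.charpoly = X ^ 2 - C (LinearMap.trace k V f) * X + C (LinearMap.det f) := by
  let b : Module.Basis (Fin 2) k V := Module.finBasisOfFinrankEq k V hrank
  rw [← LinearMap.charpoly_toMatrix f b, Matrix.charpoly_fin_two,
    ← LinearMap.trace_eq_matrix_trace k b f, LinearMap.det_toMatrix b f]

/-- Cayley–Hamilton in rank two. -/
theorem sq_eq_rank_two (hrank : Module.finrank k V = 2) (f : Module.End k V) :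
    f * f + LinearMap.det f • (1 : Module.End k V) = LinearMap.trace k V f • f := by
  have h := LinearMap.aeval_self_charpoly f
  rw [charpoly_rank_two hrank f] at h
  simp only [map_add, map_sub, map_mul, map_pow, aeval_X, aeval_C,
    Algebra.algebraMap_eq_smul_one, smul_mul_assoc, one_mul] at h
  rw [pow_two] at h
  rw [← sub_eq_zero, ← h]
  abel

/-- the Cayley–Hamilton relation of a rank two representation, in the form used by
`CHFunctional40`. -/
theorem hW_rank_two {G : Type*} [Group G] (hrank : Module.finrank k V = 2)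
    (r : G →* Module.End k V) (g : G) :
    r g + LinearMap.det (r g) • r g⁻¹ = LinearMap.trace k V (r g) • (1 : Module.End k V) := by
  have h := congrArg (· * r g⁻¹) (sq_eq_rank_two hrank (r g))
  simp only [add_mul, smul_mul_assoc, one_mul, mul_assoc, rho_mul_inv, mul_one] at h
  exact h

end RankTwo

/-! ### 3. The inertia group is normalised by the decomposition group -/

theorem conj_mem_inertia (P : ValuationSubring Qb) {h σ : GQ}
    (hh : h ∈ P.decompositionSubgroup ℚ) (hσ : σ ∈ P.inertiaSubgroupIn ℚ) :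
    h⁻¹ * σ * h ∈ P.inertiaSubgroupIn ℚ := by
  obtain ⟨g, hg, rfl⟩ := Subgroup.mem_map.mp hσ
  have hn : (P.inertiaSubgroup ℚ).Normal := by
    unfold ValuationSubring.inertiaSubgroup
    exact MonoidHom.normal_ker _
  have h1 := hn.conj_mem g hg (⟨h, hh⟩ : P.decompositionSubgroup ℚ)⁻¹
  rw [inv_inv] at h1
  exact Subgroup.mem_map.mpr ⟨_, h1, rfl⟩

/-! ### 4. The residual representation -/

section Concrete

variable {T : Type} [CommRing T] [IsLocalRing T]

/-- the residual trace. -/
def tbar (ρ : GaloisRepAdic T) : GQ → IsLocalRing.ResidueField T :=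
  fun g => IsLocalRing.residue T (LinearMap.trace T ρ.V (ρ.ρ g))

/-- the residual determinant. -/
def dbar (ρ : GaloisRepAdic T) : GQ →* IsLocalRing.ResidueField T :=
  ((IsLocalRing.residue T : T →* IsLocalRing.ResidueField T)).comp
    ((LinearMap.det : Module.End T ρ.V →* T).comp ρ.ρ)

theorem dbar_apply (ρ : GaloisRepAdic T) (g : GQ) :
    dbar ρ g = IsLocalRing.residue T (LinearMap.det (ρ.ρ g)) := rfl

theorem residual_rho_apply (ρ : GaloisRepAdic T) (g : GQ) :
    ρ.residual.ρ g = (ρ.ρ g).baseChange (IsLocalRing.ResidueField T) := rfl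

/-- the trace of the residual representation is the residue of the trace. -/
theorem trace_residual (ρ : GaloisRepAdic T) (g : GQ) :
    LinearMap.trace (IsLocalRing.ResidueField T) ρ.residual.V (ρ.residual.ρ g) = tbar ρ g := by
  rw [residual_rho_apply]
  exact LinearMap.trace_baseChange (ρ.ρ g) (IsLocalRing.ResidueField T)

/-- the determinant of the residual representation is the residue of the determinant. -/
theorem det_residual (ρ : GaloisRepAdic T) (g : GQ) :
    LinearMap.det (ρ.residual.ρ g) = dbar ρ g := by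
  rw [residual_rho_apply]
  exact LinearMap.det_baseChange (ρ.ρ g)

/-- the Cayley–Hamilton relation of the residual representation. -/
theorem hW_residual (ρ : GaloisRepAdic T) (g : GQ) :
    ρ.residual.ρ g + dbar ρ g • ρ.residual.ρ g⁻¹ =
      tbar ρ g • (1 : Module.End (IsLocalRing.ResidueField T) ρ.residual.V) := by
  rw [← trace_residual, ← det_residual]
  exact hW_rank_two ρ.residual.finrank_eq ρ.residual.ρ g

/-- the coordinate functional `b.coord 1` is invariant under every operator which is congruent to the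
identity modulo the line spanned by `b 0`. -/
theorem coord_one_invariant {k : Type*} [Field k] {V : Type*} [AddCommGroup V] [Module k V]
    (b : Module.Basis (Fin 2) k V) (f : Module.End k V)
    (hf : ∀ v : V, f v - v ∈ Submodule.span k {b 0}) (x : V) :
    b.coord 1 (f x) = b.coord 1 x := by
  obtain ⟨c, hc⟩ := Submodule.mem_span_singleton.mp (hf x)
  have h1 : b.coord 1 (f x - x) = 0 := by
    rw [← hc, map_smul, Module.Basis.coord_apply, Module.Basis.repr_self,
      Finsupp.single_eq_of_ne (by decide), smul_zero]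
  rw [map_sub, sub_eq_zero] at h1
  exact h1

/-- **Brick A6**: the residual trace identities (I1), (I2) of an ordinary, absolutely irreducible
residual representation, and the non-multiplicativity of `D`. -/
theorem residualIdent {T : Type} [CommRing T] [IsLocalRing T] (ρ : GaloisRepAdic T)
    (hirr : ρ.residual.IsAbsolutelyIrreducible) (P : ValuationSubring Qb)
    (hord : ∃ L : Submodule (IsLocalRing.ResidueField T) ρ.residual.V,
      (∃ b : Module.Basis (Fin 2) (IsLocalRing.ResidueField T) ρ.residual.V,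
        L = (IsLocalRing.ResidueField T) ∙ b 0) ∧
      (∀ σ ∈ P.decompositionSubgroup ℚ, ∀ v ∈ L, ρ.residual.ρ σ v ∈ L) ∧
      (∀ σ ∈ P.inertiaSubgroupIn ℚ, ∀ v : ρ.residual.V, ρ.residual.ρ σ v - v ∈ L))
    (σ₀ : GQ) (hσ₀ : σ₀ ∈ P.inertiaSubgroupIn ℚ) (hα : dbar ρ σ₀ ≠ 1) :
    (∀ h ∈ P.inertiaSubgroupIn ℚ, tbar ρ h = 1 + dbar ρ h) ∧
    (∀ h ∈ P.decompositionSubgroup ℚ, ∀ g : GQ,
      (dbar ρ σ₀ - 1) * Dfun (tbar ρ) (dbar ρ) σ₀ (h * g) =
        Dfun (tbar ρ) (dbar ρ) σ₀ h * Dfun (tbar ρ) (dbar ρ) σ₀ g) ∧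
    ¬ ∀ g g' : GQ, (dbar ρ σ₀ - 1) * Dfun (tbar ρ) (dbar ρ) σ₀ (g * g') =
        Dfun (tbar ρ) (dbar ρ) σ₀ g * Dfun (tbar ρ) (dbar ρ) σ₀ g' := by
  obtain ⟨L, ⟨b, hL⟩, -, hI⟩ := hord
  -- the inertia-invariant functional
  have hlam : b.coord 1 ≠ 0 := by
    intro h0
    have := congrArg (fun f : ρ.residual.V →ₗ[IsLocalRing.ResidueField T]
      IsLocalRing.ResidueField T => f (b 1)) h0
    simp only [Module.Basis.coord_apply, Module.Basis.repr_self, Finsupp.single_eq_same,
      LinearMap.zero_apply] at this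
    exact one_ne_zero this
  have hinv : ∀ σ ∈ P.inertiaSubgroupIn ℚ, ∀ x, b.coord 1 (ρ.residual.ρ σ x) = b.coord 1 x := by
    intro σ hσ x
    refine coord_one_invariant b (ρ.residual.ρ σ) (fun v => ?_) x
    rw [← hL]
    exact hI σ hσ v
  have hI1 : ∀ h ∈ P.inertiaSubgroupIn ℚ, tbar ρ h = 1 + dbar ρ h := fun h hh =>
    trace_eq_one_add ρ.residual.ρ (tbar ρ) (dbar ρ) (hW_residual ρ) (P.inertiaSubgroupIn ℚ)
      (b.coord 1) hlam hinv h hh
  refine ⟨hI1, fun h hh g => ?_, ?_⟩
  · exact Dfun_mul ρ.residual.ρ (tbar ρ) (dbar ρ) (hW_residual ρ) (P.inertiaSubgroupIn ℚ)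
      (b.coord 1) hlam hinv (P.decompositionSubgroup ℚ)
      (fun h hh σ hσ => conj_mem_inertia P hh hσ) σ₀ hσ₀ h hh g
  · -- base change to the algebraic closure
    intro hmult
    set k := IsLocalRing.ResidueField T with hk
    set K := AlgebraicClosure k with hK
    set ρK : GQ →* Module.End K (K ⊗[k] ρ.residual.V) := (ρ.residual.baseChange K).ρ with hρK
    have hρK_apply : ∀ g, ρK g = (ρ.residual.ρ g).baseChange K := fun g => rfl
    set tK : GQ → K := fun g => algebraMap k K (tbar ρ g) with htK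
    set δK : GQ →* K := ((algebraMap k K : k →* K)).comp (dbar ρ) with hδK
    have hδK_apply : ∀ g, δK g = algebraMap k K (dbar ρ g) := fun g => rfl
    have hinj : Function.Injective (algebraMap k K) := (algebraMap k K).injective
    have hWK : ∀ g : GQ, ρK g + δK g • ρK g⁻¹ = tK g • (1 : Module.End K (K ⊗[k] ρ.residual.V)) := by
      intro g
      have h := congrArg (LinearMap.baseChange K) (hW_residual ρ g)
      rw [LinearMap.baseChange_add, LinearMap.baseChange_smul, LinearMap.baseChange_smul,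
        LinearMap.baseChange_one] at h
      rw [hρK_apply, hρK_apply, hδK_apply, htK, algebraMap_smul, algebraMap_smul]
      exact h
    have hfr : Module.finrank K (K ⊗[k] ρ.residual.V) = 2 := (ρ.residual.baseChange K).finrank_eq
    have hdetK : ∀ g, LinearMap.det (ρK g) = δK g := by
      intro g
      rw [hρK_apply, LinearMap.det_baseChange, det_residual, hδK_apply]
    have hαK : δK σ₀ ≠ 1 := by
      rw [hδK_apply]
      intro h
      exact hα (hinj (by rw [h, map_one]))
    have hDK : ∀ g, Dfun tK δK σ₀ g = algebraMap k K (Dfun (tbar ρ) (dbar ρ) σ₀ g) := by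
      intro g
      unfold Dfun
      rw [map_sub, map_mul]
      rfl
    refine not_mult_of_irreducible ρK tK δK hWK σ₀ ?_ hirr ?_ ?_ ?_
    · show algebraMap k K (tbar ρ σ₀) = 1 + algebraMap k K (dbar ρ σ₀)
      rw [hI1 σ₀ hσ₀, map_add, map_one]
    · -- `ρK σ₀ ≠ 1`
      intro h
      have h1 : ρK σ₀ = 1 := sub_eq_zero.mp h
      apply hαK
      rw [← hdetK, h1, map_one]
    · -- `ρK σ₀ ≠ δK σ₀`
      intro h
      have h1 : ρK σ₀ = δK σ₀ • (1 : Module.End K (K ⊗[k] ρ.residual.V)) :=
        (sub_eq_zero.mp h).symm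
      have h2 := hdetK σ₀
      rw [h1, LinearMap.det_smul, hfr, map_one, mul_one] at h2
      have h3 : δK σ₀ * (δK σ₀ - 1) = 0 := by linear_combination h2
      rcases mul_eq_zero.mp h3 with h4 | h4
      · exact delta_ne_zero δK σ₀ h4
      · exact hαK (sub_eq_zero.mp h4)
    · intro g g'
      rw [hDK, hDK, hDK, hδK_apply, ← map_one (algebraMap k K), ← map_sub, ← map_mul, ← map_mul,
        hmult g g']

end Concrete

end Fermat.Agent.ORD.Alg.ResidualIdent95
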