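/-
ORD (S33), contract A1 + D1 assembled — helper83.  **`Status72.EigenPackageExists`.**

At a minimal prime `𝔭` of `T`, `A = T ⧸ 𝔭` (any `ℤ_[p]`-algebra structure), with
`Tbad = {p} ∪ S ∪ {q ∣ N}` and `c ℓ = χ(T_ℓ)` (`χ = PointsOfT83.chi 𝔭 H`), the eigen-lattices

  `Λ^L = PushEigen93.eigenSet p L Tbad c ≤ A ⊗ T_p J₀(L)`,   `L ∈ {N, M}`,  `N = M p`,

form a `Status72.EigenPackage`:

* finiteness of the Tate modules  : `ES/ALG31/TateLevelWFinal13.finite_free_TJ`;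
* Galois stability                : `PushEigen93.rho_mem_eigenSet` + `HeckeGalois12.heckeOperatorBar_smul`;
* saturation                      : `A ⊗ T_p J₀(L)` is free over the domain `A`;
* Cayley–Hamilton for `(tr, det)` of the point : `CHCore90.cayleyHamilton` (helper90) with
  `ρ := PointsOfT83.pt 𝔭 H` (`charpoly_frob_pt`), continuity from `TateJZero13.rhoT_continuous`,
  Eichler–Shimura on the eigen-lattice from `TateJZero13.rhoT_frobenius`;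
* `Λ^N ≠ 0`                       : `EigenNonzero9.exists_eigenvector_of_isBaseChange` with the
  comparison `K2Final11.k2` for `KummerSystemJ8.kummerSystemJ` (as in `S30Glue8`, for a domain of
  characteristic zero instead of a DVR);
* push                            : `PushEigenLite93.map_mem_of_galois` + `TateHeckeEq83.tateHeckeEquivariant`.

Consequently (`Z/Contracts83`) S33 follows from `GeoLite40.GeoStmtLite` and `Spec40.FlatTorsion` alone: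
`s33_of_geo_flat`.
-/
import Mathlib
import Fermat.Agent.ORD.Spec.Status72
import Fermat.Agent.ORD.Z.Contracts83
import Fermat.Agent.ORD.Alg.TateHeckeEq83
import Fermat.Agent.ORD.Alg.CHCore90
import Fermat.Agent.ES.ALG31.TateLevelWFinal13
import Fermat.Agent.ES.J.S30Glue8
import Fermat.Agent.ES.J.KummerSystemJ8

set_option autoImplicit false
set_option linter.unusedSectionVars false
set_option linter.style.haveILetI false
set_option synthInstance.maxHeartbeats 400000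

open TensorProduct ModularCurve Polynomial

noncomputable section

namespace Fermat.Agent.ORD.Alg.EigenPkg83

open Fermat.Agent.ES.J.TateModule13 Fermat.Agent.ES.J.TateJZero13
  Fermat.Agent.ORD.Alg.PushEigen93 Fermat.Agent.ORD.Alg.PushEigenLite93
  Fermat.Agent.ORD.Alg.PointsOfT83 Fermat.Agent.ORD.Z.Skeleton83 Fermat.Agent.ORD.Spec.Status72
  IsLocalRing

local notation "Qb" => AlgebraicClosure ℚ
local notation "GQ" => (AlgebraicClosure ℚ ≃ₐ[ℚ] AlgebraicClosure ℚ)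

/-! ### 0. Generic base-change lemmas -/

section Generic

variable {R : Type*} [CommRing R] {M : Type*} [AddCommGroup M] [Module R M]
  (A : Type*) [CommRing A] [Algebra R A]

/-- a quadratic relation `F² - T F + l = 0` passes to the base change, evaluated at a vector. -/
theorem bc_quad (F T : Module.End R M) (l : ℕ)
    (h : F * F - T * F + (l : R) • (1 : Module.End R M) = 0) (v : A ⊗[R] M) :
    F.baseChange A (F.baseChange A v) - T.baseChange A (F.baseChange A v) + (l : A) • v = 0 := by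
  have h' := congrArg (fun G : Module.End R M => G.baseChange A) h
  simp only [LinearMap.baseChange_add, LinearMap.baseChange_sub, LinearMap.baseChange_mul,
    LinearMap.baseChange_smul, LinearMap.baseChange_one, LinearMap.baseChange_zero] at h'
  have h1 := congrArg (fun G : Module.End A (A ⊗[R] M) => G v) h'
  simp only [LinearMap.add_apply, LinearMap.sub_apply, Module.End.mul_apply,
    LinearMap.smul_apply, Module.End.one_apply, LinearMap.zero_apply] at h1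
  have e : ((l : R) • v : A ⊗[R] M) = (l : A) • v := by
    rw [← algebraMap_smul A (l : R) v, map_natCast]
  rw [e] at h1
  exact h1

/-- congruences `f ≡ 1 mod r` pass to the base change. -/
theorem bc_sub_mem (I : Ideal A) (f : Module.End R M) (r : R) (hr : algebraMap R A r ∈ I)
    (hf : ∀ x, ∃ y, f x - x = r • y) (w : A ⊗[R] M) :
    f.baseChange A w - w ∈ I • (⊤ : Submodule A (A ⊗[R] M)) := by
  induction w using TensorProduct.induction_on with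
  | zero =>
    rw [map_zero, sub_zero]
    exact Submodule.zero_mem _
  | tmul a x =>
    obtain ⟨y, hy⟩ := hf x
    have e : f.baseChange A (a ⊗ₜ[R] x) - a ⊗ₜ[R] x = algebraMap R A r • (a ⊗ₜ[R] y) := by
      rw [LinearMap.baseChange_tmul, ← TensorProduct.tmul_sub, hy, TensorProduct.tmul_smul,
        algebraMap_smul]
    rw [e]
    exact Submodule.smul_mem_smul hr Submodule.mem_top
  | add x y hx hy =>
    have e : f.baseChange A (x + y) - (x + y) =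
        (f.baseChange A x - x) + (f.baseChange A y - y) := by
      rw [map_add]; abel
    rw [e]
    exact Submodule.add_mem _ hx hy

end Generic

/-! ### 1. The eigen-lattice at one level -/

section Level

variable {p : ℕ} [hp : Fact p.Prime] {L : ℕ} [NeZero L] {A : Type} [CommRing A] [Algebra ℤ_[p] A]

variable (p L) in
theorem finite_TJ : Module.Finite ℤ_[p] (TateModule p (JZero L)) :=
  (Fermat.Agent.ES.ALG31.TateLevelWFinal13.finite_free_TJ p L).1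

variable (p L) in
theorem free_TJ : Module.Free ℤ_[p] (TateModule p (JZero L)) :=
  (Fermat.Agent.ES.ALG31.TateLevelWFinal13.finite_free_TJ p L).2

/-- the eigen-lattice is Galois stable. -/
theorem stab_eigenSet (Tbad : Finset ℕ) (c : ℕ → A) (g : GQ)
    {w : A ⊗[ℤ_[p]] TateModule p (JZero L)} (hw : w ∈ eigenSet p L Tbad c) :
    (rho p (JZero L) g).baseChange A w ∈ eigenSet p L Tbad c :=
  rho_mem_eigenSet
    (fun ℓ σ x => Fermat.Agent.ES.HECKE.HeckeGalois12.heckeOperatorBar_smul L ℓ σ x) Tbad c g hw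

/-- `A ⊗ T_p J₀(L)` is torsion-free over a domain `A`. -/
theorem smul_eq_zero_tensor [IsDomain A] {a : A} (ha : a ≠ 0)
    {w : A ⊗[ℤ_[p]] TateModule p (JZero L)} (h : a • w = 0) : w = 0 := by
  haveI := free_TJ p L
  haveI : Module.Free A (A ⊗[ℤ_[p]] TateModule p (JZero L)) := inferInstance
  exact (smul_eq_zero.mp h).resolve_left ha

/-- the eigen-lattice is saturated. -/
theorem saturated_eigenSet [IsDomain A] (Tbad : Finset ℕ) (c : ℕ → A) {a : A} (ha : a ≠ 0)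
    {w : A ⊗[ℤ_[p]] TateModule p (JZero L)} (h : a • w ∈ eigenSet p L Tbad c) :
    w ∈ eigenSet p L Tbad c := by
  intro ℓ hℓ hℓT
  have h1 := h ℓ hℓ hℓT
  rw [map_smul, smul_comm (c ℓ) a w] at h1
  have h2 : a • ((tHecke p L ⟨ℓ, hℓ⟩).baseChange A w - c ℓ • w) = 0 := by
    rw [smul_sub, h1, sub_self]
  exact sub_eq_zero.mp (smul_eq_zero_tensor ha h2)

/-- continuity of the base-changed Galois action on `A ⊗ T_p J₀(L)`. -/
theorem cont_bc [IsLocalRing A] (hpA : (p : A) ∈ maximalIdeal A) (n : ℕ) :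
    ∃ E : IntermediateField ℚ Qb, FiniteDimensional ℚ E ∧
      ∀ σ : GQ, (∀ x ∈ E, σ x = x) →
        ∀ w : A ⊗[ℤ_[p]] TateModule p (JZero L),
          (bcRep (A := A) (rho p (JZero L))) σ w - w ∈
            (maximalIdeal A ^ n) • (⊤ : Submodule A (A ⊗[ℤ_[p]] TateModule p (JZero L))) := by
  obtain ⟨E, hE, h1⟩ := rhoT_continuous (p := p) (N := L)
    (Fermat.Agent.ES.ALG31.TateLevelWFinal13.finite_p_torsion p L) n
  refine ⟨E, hE, fun σ hσ w => ?_⟩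
  exact bc_sub_mem A (maximalIdeal A ^ n) (rho p (JZero L) σ) ((p : ℤ_[p]) ^ n)
    (by rw [map_pow, map_natCast]; exact Ideal.pow_mem_pow hpA n) (h1 σ hσ) w

/-- Eichler–Shimura on the eigen-lattice. -/
theorem es_eigenSet (Tbad : Finset ℕ) (c : ℕ → A) {ℓ : ℕ} (hℓ : ℓ.Prime) (hℓT : ℓ ∉ Tbad)
    (hℓL : ¬ ℓ ∣ L) (hℓp : ℓ ≠ p) {B : ValuationSubring Qb} (hB : B.LiesOverPrime ℓ) {φ : GQ}
    (hφ : B.IsFrobeniusAt φ ℓ) {v : A ⊗[ℤ_[p]] TateModule p (JZero L)}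
    (hv : v ∈ eigenSet p L Tbad c) :
    (bcRep (A := A) (rho p (JZero L))) φ ((bcRep (A := A) (rho p (JZero L))) φ v) -
      c ℓ • (bcRep (A := A) (rho p (JZero L))) φ v + (ℓ : A) • v = 0 := by
  have hES := rhoT_frobenius (p := p) (N := L) hℓ hℓL hℓp hB hφ
  have h1 := bc_quad A (rhoT p L φ) (tT p L ⟨ℓ, hℓ⟩) ℓ hES v
  have heig : (tT p L ⟨ℓ, hℓ⟩).baseChange A ((rhoT p L φ).baseChange A v) =
      c ℓ • (rhoT p L φ).baseChange A v := stab_eigenSet Tbad c φ hv ℓ hℓ hℓT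
  rw [heig] at h1
  exact h1

/-- **Cayley–Hamilton on the eigen-lattice** for the trace and determinant of a `GaloisRepAdic A`
with the Frobenius characteristic polynomials `X² - c ℓ X + ℓ`, `ℓ ∉ Tbad`. -/
theorem ch_eigenSet [IsLocalRing A] [IsNoetherianRing A] (hpA : (p : A) ∈ maximalIdeal A)
    (Tbad : Finset ℕ) (hpT : p ∈ Tbad) (hLT : ∀ q : ℕ, q.Prime → q ∣ L → q ∈ Tbad) (c : ℕ → A)
    (ρ : GaloisRepAdic A)
    (hρ : ∀ ℓ : ℕ, ℓ.Prime → ℓ ∉ Tbad → ∀ P : ValuationSubring Qb, P.LiesOverPrime ℓ →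
      ∀ φ : GQ, P.IsFrobeniusAt φ ℓ →
        (ρ.ρ φ).charpoly = X ^ 2 - C (c ℓ) * X + C ((ℓ : A)))
    (g : GQ) (w : A ⊗[ℤ_[p]] TateModule p (JZero L)) (hw : w ∈ eigenSet p L Tbad c) :
    (rho p (JZero L) g).baseChange A ((rho p (JZero L) g).baseChange A w) -
      LinearMap.trace A ρ.V (ρ.ρ g) • (rho p (JZero L) g).baseChange A w +
      LinearMap.det (ρ.ρ g) • w = 0 := by
  haveI := finite_TJ p L
  haveI : Module.Finite A (A ⊗[ℤ_[p]] TateModule p (JZero L)) :=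
    Module.Finite.base_change ℤ_[p] A (TateModule p (JZero L))
  exact Fermat.Agent.ORD.Alg.CHCore90.cayleyHamilton (bcRep (A := A) (rho p (JZero L)))
    (cont_bc hpA) ρ Tbad c hρ (eigenSet p L Tbad c)
    (fun g v hv => stab_eigenSet Tbad c g hv)
    (fun ℓ hℓ hℓT P hP φ hφ v hv =>
      es_eigenSet Tbad c hℓ hℓT (fun h => hℓT (hLT ℓ hℓ h)) (fun h => hℓT (h ▸ hpT)) hP hφ hv)
    g w hw

end Level

/-! ### 2. Non-vanishing at level `N` -/

section NeBot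

open Fermat.Agent.ES.J.S30Glue8 Fermat.Agent.ES.HEQ.FaithInst26 Fermat.Agent.ES.HEQ.FaithFinal26

variable {p : ℕ} [hp : Fact p.Prime] {N : ℕ} [NeZero N] {A : Type} [CommRing A] [Algebra ℤ_[p] A]

variable (p N) in
/-- (K2), unconditional: the comparison `Λ → T_p J₀(N)`. -/
theorem tateComparison : TateComparison p N :=
  Fermat.Agent.ES.J.K2Final11.k2 (Fermat.Agent.ES.J.KummerSystemJ8.kummerSystemJ p N)
    (Fermat.Agent.ES.J.KummerSystemJ8.heckeCompatJ p N)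

/-- a nonzero `χ`-eigenvector in `A ⊗ T_p J₀(N)`, for every domain `A` of characteristic zero
(`S30Glue8.exists_eigenvector_tate` without the discrete valuation ring hypothesis). -/
theorem exists_eigenvector [IsDomain A] [CharZero A] {S : Finset ℕ}
    (hNS : ∀ q : ℕ, q.Prime → q ∣ N → q ∈ S)
    (χ : CuspForm.heckeAlgebra N 2 (↑S : Set ℕ) →+* A) :
    ∃ w : A ⊗[ℤ_[p]] TJ p N, w ≠ 0 ∧
      ∀ (ℓ : ℕ) (hℓ : ℓ.Prime) (hℓN : ¬ ℓ ∣ N) (hℓS : ℓ ∉ (↑S : Set ℕ)),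
        (tT p N ⟨ℓ, hℓ⟩).baseChange A w = χ (CuspForm.heckeAlgebra.T hℓ hℓN hℓS) • w := by
  obtain ⟨ι₀, hι₀, hheck⟩ := tateComparison p N
  have hS : ∀ q : ℕ, q.Prime → q ∣ N → q ∈ (↑S : Set ℕ) := fun q hq hqN => by
    exact_mod_cast hNS q hq hqN
  let g : TJ p N →ₗ[ℤ_[p]] A ⊗[ℤ_[p]] TJ p N := TensorProduct.mk ℤ_[p] A (TJ p N) 1
  have hg : IsBaseChange A g := TensorProduct.isBaseChange ℤ_[p] (TJ p N) A
  have hι : IsBaseChange A ((g.restrictScalars ℤ).comp ι₀) := IsBaseChange.comp hι₀ hg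
  obtain ⟨w, hw0, hw⟩ :=
    Fermat.Agent.ES.ALG.EigenNonzero9.exists_eigenvector_of_isBaseChange
      ((g.restrictScalars ℤ).comp ι₀) hι
      ((heckeLam (N := N) (↑S : Set ℕ) hS : _ →ₐ[ℤ] _) : _ →+* _)
      (heckeLam_injective (↑S : Set ℕ) hS) χ
  refine ⟨w, hw0, fun ℓ hℓ hℓN hℓS => ?_⟩
  refine hw (CuspForm.heckeAlgebra.T hℓ hℓN hℓS) ((tT p N ⟨ℓ, hℓ⟩).baseChange A) fun x => ?_
  show (tT p N ⟨ℓ, hℓ⟩).baseChange A ((1 : A) ⊗ₜ[ℤ_[p]] ι₀ x) =
    (1 : A) ⊗ₜ[ℤ_[p]] ι₀ (heckeLam (↑S : Set ℕ) hS (CuspForm.heckeAlgebra.T hℓ hℓN hℓS) x)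
  rw [LinearMap.baseChange_tmul, hheck ℓ hℓ hℓN x, heckeLam_T' (↑S : Set ℕ) hS ℓ hℓ hℓN hℓS]

/-- the eigen-lattice of a character of the Hecke algebra of level `N` is nonzero. -/
theorem eigenSet_ne_bot [IsDomain A] [CharZero A] {S : Finset ℕ}
    (hNS : ∀ q : ℕ, q.Prime → q ∣ N → q ∈ S)
    (χ : CuspForm.heckeAlgebra N 2 (↑S : Set ℕ) →+* A) (Tbad : Finset ℕ)
    (hTS : ∀ ℓ : ℕ, ℓ.Prime → ℓ ∉ Tbad → ¬ ℓ ∣ N ∧ ℓ ∉ (↑S : Set ℕ)) (c : ℕ → A)
    (hc : ∀ (ℓ : ℕ) (hℓ : ℓ.Prime) (hℓN : ¬ ℓ ∣ N) (hℓS : ℓ ∉ (↑S : Set ℕ)),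
      c ℓ = χ (CuspForm.heckeAlgebra.T hℓ hℓN hℓS)) :
    eigenSet p N Tbad c ≠ ⊥ := by
  obtain ⟨w, hw0, hw⟩ := exists_eigenvector (p := p) hNS χ
  intro hbot
  apply hw0
  have hmem : w ∈ eigenSet p N Tbad c := by
    intro ℓ hℓ hℓT
    obtain ⟨hℓN, hℓS⟩ := hTS ℓ hℓ hℓT
    rw [hc ℓ hℓ hℓN hℓS]
    exact hw ℓ hℓ hℓN hℓS
  rw [hbot, Submodule.mem_bot] at hmem
  exact hmem

end NeBot

/-! ### 3. The package at a point of `T` -/

section Point

variable {p : ℕ} {N : ℕ} [NeZero N] {S : Finset ℕ}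
  {𝒪 : Type} [CommRing 𝒪] [IsDomain 𝒪] [IsDiscreteValuationRing 𝒪]
  [IsAdicComplete (IsLocalRing.maximalIdeal 𝒪) 𝒪]
  {θ : CuspForm.heckeAlgebra N 2 (↑S : Set ℕ) →+* IsLocalRing.ResidueField 𝒪}
  {T : Type} [CommRing T] [IsLocalRing T] [IsNoetherianRing T]
  [IsAdicComplete (IsLocalRing.maximalIdeal T) T] [Algebra 𝒪 T] [IsLocalHom (algebraMap 𝒪 T)]
  [Module.Finite 𝒪 T] [Module.Free 𝒪 T]

/-- the bad primes: `p`, `S` and the primes dividing `N`. -/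
def Tbad (p N : ℕ) (S : Finset ℕ) : Finset ℕ := insert p (S ∪ N.primeFactors)

theorem mem_Tbad_self (p N : ℕ) (S : Finset ℕ) : p ∈ Tbad p N S := Finset.mem_insert_self _ _

theorem mem_Tbad_of_dvd {q : ℕ} (hq : q.Prime) (hqN : q ∣ N) : q ∈ Tbad p N S :=
  Finset.mem_insert_of_mem (Finset.mem_union_right _
    (Nat.mem_primeFactors.mpr ⟨hq, hqN, NeZero.ne N⟩))

theorem not_dvd_of_not_mem_Tbad {ℓ : ℕ} (hℓ : ℓ.Prime) (h : ℓ ∉ Tbad p N S) : ¬ ℓ ∣ N :=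
  fun hd => h (mem_Tbad_of_dvd hℓ hd)

theorem not_mem_of_not_mem_Tbad {ℓ : ℕ} (h : ℓ ∉ Tbad p N S) : ℓ ∉ (↑S : Set ℕ) :=
  fun hS => h (Finset.mem_insert_of_mem (Finset.mem_union_left _ (Finset.mem_coe.mp hS)))

open scoped Classical in
/-- the eigenvalues of the point `T → T ⧸ 𝔭`, as a function on `ℕ` (junk value `0` at bad `ℓ`). -/
def cPt (𝔭 : Ideal T) [𝔭.IsPrime] (H : CuspForm.HeckeGaloisRepDatum N (↑S : Set ℕ) 𝒪 θ T) :
    ℕ → T ⧸ 𝔭 := fun ℓ =>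
  if h : ℓ.Prime ∧ ¬ ℓ ∣ N ∧ ℓ ∉ (↑S : Set ℕ) then
    chi 𝔭 H (CuspForm.heckeAlgebra.T h.1 h.2.1 h.2.2) else 0

theorem cPt_eq (𝔭 : Ideal T) [𝔭.IsPrime] (H : CuspForm.HeckeGaloisRepDatum N (↑S : Set ℕ) 𝒪 θ T)
    (ℓ : ℕ) (hℓ : ℓ.Prime) (hℓN : ¬ ℓ ∣ N) (hℓS : ℓ ∉ (↑S : Set ℕ)) :
    cPt 𝔭 H ℓ = chi 𝔭 H (CuspForm.heckeAlgebra.T hℓ hℓN hℓS) := by
  unfold cPt
  rw [dif_pos ⟨hℓ, hℓN, hℓS⟩]

/-- the Frobenius characteristic polynomials of the point, in terms of `cPt`. -/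
theorem charpoly_frob_cPt (𝔭 : Ideal T) [𝔭.IsPrime]
    (H : CuspForm.HeckeGaloisRepDatum N (↑S : Set ℕ) 𝒪 θ T) (ℓ : ℕ) (hℓ : ℓ.Prime)
    (hℓT : ℓ ∉ Tbad p N S) (P : ValuationSubring Qb) (hP : P.LiesOverPrime ℓ) (φ : GQ)
    (hφ : P.IsFrobeniusAt φ ℓ) :
    ((pt 𝔭 H).ρ φ).charpoly = X ^ 2 - C (cPt 𝔭 H ℓ) * X + C ((ℓ : T ⧸ 𝔭)) := by
  rw [cPt_eq 𝔭 H ℓ hℓ (not_dvd_of_not_mem_Tbad hℓ hℓT) (not_mem_of_not_mem_Tbad hℓT)]
  exact charpoly_frob_pt 𝔭 H ℓ hℓ _ _ P hP φ hφ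

/-- **Contract A1 + D1 is closed.** -/
theorem eigenPackageExists : EigenPackageExists := by
  intro p N _ S 𝒪 _ _ _ _ θ T _ _ _ _ _ _ _ _ _ _ _ hp𝒪 hNS H 𝔭 _ h𝔭 _ M _ hNM
  have hp : p.Prime := Fact.out
  haveI : CharZero (T ⧸ 𝔭) := charZero_quot (𝒪 := 𝒪) 𝔭 h𝔭
  have hpA : (p : T ⧸ 𝔭) ∈ maximalIdeal (T ⧸ 𝔭) :=
    natCast_mem_maximalIdeal_quot 𝔭 (natCast_mem_maximalIdeal_T hp𝒪)
  have hp0 : (p : T ⧸ 𝔭) ≠ 0 := Nat.cast_ne_zero.mpr hp.ne_zero
  have hMT : ∀ q : ℕ, q.Prime → q ∣ M → q ∈ Tbad p N S := fun q hq hqM =>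
    mem_Tbad_of_dvd hq (by rw [hNM]; exact Dvd.dvd.mul_right hqM p)
  have hNT : ∀ q : ℕ, q.Prime → q ∣ N → q ∈ Tbad p N S := fun q hq hqN => mem_Tbad_of_dvd hq hqN
  exact ⟨{
    LamN := eigenSet p N (Tbad p N S) (cPt 𝔭 H)
    LamM := eigenSet p M (Tbad p N S) (cPt 𝔭 H)
    finN := finite_TJ p N
    finM := finite_TJ p M
    ne_bot := eigenSet_ne_bot hNS (chi 𝔭 H) (Tbad p N S)
      (fun ℓ hℓ hℓT => ⟨not_dvd_of_not_mem_Tbad hℓ hℓT, not_mem_of_not_mem_Tbad hℓT⟩)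
      (cPt 𝔭 H) (cPt_eq 𝔭 H)
    satN := fun w hw => saturated_eigenSet (Tbad p N S) (cPt 𝔭 H) hp0 hw
    satM := fun w hw => saturated_eigenSet (Tbad p N S) (cPt 𝔭 H) hp0 hw
    stabN := fun g w hw => stab_eigenSet (Tbad p N S) (cPt 𝔭 H) g hw
    stabM := fun g w hw => stab_eigenSet (Tbad p N S) (cPt 𝔭 H) g hw
    chN := fun g w hw => ch_eigenSet hpA (Tbad p N S) (mem_Tbad_self p N S) hNT (cPt 𝔭 H)
      (pt 𝔭 H) (charpoly_frob_cPt 𝔭 H) g w hw
    chM := fun g w hw => ch_eigenSet hpA (Tbad p N S) (mem_Tbad_self p N S) hMT (cPt 𝔭 H)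
      (pt 𝔭 H) (charpoly_frob_cPt 𝔭 H) g w hw
    push := fun f hf w hw => map_mem_of_galois f hf (Tbad p N S)
      (Fermat.Agent.ORD.Alg.TateHeckeEq83.tateHeckeEquivariant (Tbad p N S)
        (mem_Tbad_self p N S) hNT hMT) (cPt 𝔭 H) hw }⟩

/-- **All internal contracts of programme ORD are closed.** -/
theorem openContracts : OpenContracts :=
  Fermat.Agent.ORD.Z.Contracts83.openContracts_of_eigen eigenPackageExists

/-- **S33 from the two external inputs** (chapter G and programme FFJ), conclusion literally the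
frozen S33. -/
theorem s33_of_geo_flat (hgeo : Fermat.Agent.ORD.Spec.GeoLite40.GeoStmtLite)
    (hflat : ∀ (p : ℕ) [Fact p.Prime] (M : ℕ) [NeZero M], ¬ p ∣ M →
      Fermat.Agent.ORD.Spec.Spec40.FlatTorsion p M)
    [Finite (IsLocalRing.ResidueField 𝒪)] [CharZero 𝒪]
    (hp : p.Prime) (hp2 : p ≠ 2) (hp𝒪 : (p : 𝒪) ∈ IsLocalRing.maximalIdeal 𝒪)
    (hN : p ∣ N ∧ ¬ p ^ 2 ∣ N) (hNS : ∀ q : ℕ, q.Prime → q ∣ N → q ∈ S)
    (H : CuspForm.HeckeGaloisRepDatum N (↑S : Set ℕ) 𝒪 θ T)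
    (hres : (GaloisRepAdic.ofResidualGaloisRep H.ρ.residual).IsOrdinaryAt p) :
    H.ρ.IsOrdinaryAt p :=
  s33_of_openContracts openContracts hgeo hflat hp hp2 hp𝒪 hN hNS H hres

end Point

end Fermat.Agent.ORD.Alg.EigenPkg83
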