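/-
Programme ORD (S33), glue brick (helper72, integrator): **a complete discrete valuation ring of
characteristic zero with finite residue field of characteristic `p` is finite free over `ℤ_[p]`**, and
so is every domain of characteristic zero which is finite over it (the points `T ⧸ 𝔮` of the Hecke ring).

Needed by the OLD-point bricks O1/O2 (`A` finite free over `ℤ_[p]`, so that
`(A ⊗ T_pJ)/pⁿ ≅ (J[pⁿ])^r`) and by N1 (`A` flat over `ℤ_[p]`).  Mathlib only.

* `isPrecomplete_pi`               : `ι → R` is precomplete when `R` is (finite `ι`);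
* `finite_of_finite_quotient`      : a `(p)`-adically Hausdorff `ℤ_[p]`-module `B` with `B ⧸ pB`
                                     finite is finitely generated (any `[Module ℤ_[p] B]`);
* `finite_padic_of_complete`       : `Module.Finite ℤ_[p] 𝒪` for a complete local noetherian ring `𝒪`
                                     with finite residue field and `p ∈ 𝔪` (any `[Algebra ℤ_[p] 𝒪]`);
* `finite_padic_of_finite`         : transitivity, for `A` finite over such an `𝒪`;
* `algebraMap_padic_injective`     : `ℤ_[p] → A` is injective for `A` nontrivial of characteristic `0`;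
* `free_padic_of_isDomain`         : `Module.Free ℤ_[p] A` for a domain `A` of characteristic zero,
                                     finite over `ℤ_[p]`.
-/
import Mathlib

set_option autoImplicit false

open Submodule

namespace Fermat.Agent.ORD.Alg.PadicFinite72

/-! ### Precompleteness of finite products -/

section Pi

variable {R : Type*} [CommRing R] {ι : Type*} [Finite ι]

/-- membership in `J • ⊤` for a finite power of `R` is coordinatewise. -/
theorem mem_smul_top_pi (J : Ideal R) (x : ι → R) :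
    x ∈ (J • ⊤ : Submodule R (ι → R)) ↔ ∀ i, x i ∈ J := by
  classical
  constructor
  · intro hx i
    refine Submodule.smul_induction_on (p := fun y => y i ∈ J) hx ?_ ?_
    · intro a ha y _
      rw [Pi.smul_apply, smul_eq_mul]
      exact J.mul_mem_right _ ha
    · intro y z hy hz
      rw [Pi.add_apply]
      exact J.add_mem hy hz
  · intro hx
    haveI := Fintype.ofFinite ι
    have e : x = ∑ i, x i • (Pi.single i (1 : R) : ι → R) := by
      ext j
      rw [Finset.sum_apply]
      simp [Pi.single_apply]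
    rw [e]
    exact Submodule.sum_mem _ fun i _ => Submodule.smul_mem_smul (hx i) Submodule.mem_top

/-- A finite power of a precomplete ring is precomplete. -/
theorem isPrecomplete_pi (I : Ideal R) [IsPrecomplete I R] : IsPrecomplete I (ι → R) := by
  refine ⟨fun f hf => ?_⟩
  have hcoord : ∀ i : ι, ∃ L : R, ∀ n, f n i ≡ L [SMOD (I ^ n • ⊤ : Submodule R R)] := by
    intro i
    refine IsPrecomplete.prec ‹IsPrecomplete I R› (f := fun n => f n i) ?_
    intro m n hmn
    have h := hf hmn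
    rw [SModEq.sub_mem, mem_smul_top_pi] at h
    rw [SModEq.sub_mem, smul_eq_mul, Ideal.mul_top]
    exact h i
  choose L hL using hcoord
  refine ⟨L, fun n => ?_⟩
  rw [SModEq.sub_mem, mem_smul_top_pi]
  intro i
  have h := hL i n
  rw [SModEq.sub_mem, smul_eq_mul, Ideal.mul_top] at h
  exact h

end Pi

/-! ### Finiteness over `ℤ_[p]` -/

section Finite

variable (p : ℕ) [hp : Fact p.Prime]

/-- **Complete Nakayama over `ℤ_[p]`**: a `ℤ_[p]`-module which is `(p)`-adically Hausdorff and finite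
modulo `p` is finitely generated. -/
theorem finite_of_finite_quotient {B : Type*} [AddCommGroup B] [Module ℤ_[p] B]
    [IsHausdorff (IsLocalRing.maximalIdeal ℤ_[p]) B]
    [hfin : Finite (B ⧸ (IsLocalRing.maximalIdeal ℤ_[p] • ⊤ : Submodule ℤ_[p] B))] :
    Module.Finite ℤ_[p] B := by
  classical
  set I := IsLocalRing.maximalIdeal ℤ_[p] with hI
  set Q := B ⧸ (I • ⊤ : Submodule ℤ_[p] B) with hQ
  haveI := Fintype.ofFinite Q
  -- lifts of all the classes
  have hs : ∀ q : Q, ∃ b : B, (I • ⊤ : Submodule ℤ_[p] B).mkQ b = q := fun q =>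
    Submodule.mkQ_surjective _ q
  choose s hs using hs
  let f : (Q → ℤ_[p]) →ₗ[ℤ_[p]] B := Fintype.linearCombination ℤ_[p] s
  haveI : IsPrecomplete I (Q → ℤ_[p]) := isPrecomplete_pi I
  have hsurj : Function.Surjective ((I • ⊤ : Submodule ℤ_[p] B).mkQ ∘ₗ f) := by
    intro q
    refine ⟨Pi.single q 1, ?_⟩
    rw [LinearMap.comp_apply]
    have : f (Pi.single q 1) = s q := by
      show Fintype.linearCombination ℤ_[p] s (Pi.single q 1) = s q
      rw [Fintype.linearCombination_apply_single, one_smul]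
    rw [this, hs]
  have hf : Function.Surjective f := surjective_of_mkQ_comp_surjective (I := I) hsurj
  exact Module.Finite.of_surjective f hf

variable {𝒪 : Type*} [CommRing 𝒪] [IsLocalRing 𝒪] [IsNoetherianRing 𝒪]
  [IsAdicComplete (IsLocalRing.maximalIdeal 𝒪) 𝒪] [Algebra ℤ_[p] 𝒪]

omit [IsNoetherianRing 𝒪] [IsAdicComplete (IsLocalRing.maximalIdeal 𝒪) 𝒪] in
/-- `𝔪_{ℤ_p}^n • ⊤ ≤ 𝔪_𝒪^n` inside `𝒪`. -/
theorem pow_smul_top_le (hp𝒪 : (p : 𝒪) ∈ IsLocalRing.maximalIdeal 𝒪) (n : ℕ) (x : 𝒪)
    (hx : x ∈ (IsLocalRing.maximalIdeal ℤ_[p] ^ n • ⊤ : Submodule ℤ_[p] 𝒪)) :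
    x ∈ IsLocalRing.maximalIdeal 𝒪 ^ n := by
  rw [PadicInt.maximalIdeal_eq_span_p, Ideal.span_singleton_pow] at hx
  refine Submodule.smul_induction_on hx ?_ ?_
  · intro a ha y _
    obtain ⟨c, rfl⟩ := Ideal.mem_span_singleton'.mp ha
    rw [Algebra.smul_def, map_mul, map_pow, map_natCast, mul_assoc]
    exact Ideal.mul_mem_left _ _ (Ideal.mul_mem_right _ _ (Ideal.pow_mem_pow hp𝒪 n))
  · intro y z hy hz
    exact Ideal.add_mem _ hy hz

omit [IsNoetherianRing 𝒪] in
/-- `𝒪` is `(p)`-adically Hausdorff as a `ℤ_[p]`-module. -/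
theorem isHausdorff_padic (hp𝒪 : (p : 𝒪) ∈ IsLocalRing.maximalIdeal 𝒪) :
    IsHausdorff (IsLocalRing.maximalIdeal ℤ_[p]) 𝒪 := by
  refine ⟨fun x hx => ?_⟩
  have hH : IsHausdorff (IsLocalRing.maximalIdeal 𝒪) 𝒪 := inferInstance
  apply hH.haus x
  intro n
  rw [SModEq.zero, smul_eq_mul, Ideal.mul_top]
  have h := hx n
  rw [SModEq.zero] at h
  exact pow_smul_top_le p hp𝒪 n x h

omit [IsAdicComplete (IsLocalRing.maximalIdeal 𝒪) 𝒪] in
/-- `𝒪 ⧸ p𝒪` is finite when `p` is a nonzero element of the maximal ideal of a local noetherian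
domain of dimension one... here: whenever some power of `𝔪` lies in `p𝒪` and the residue field is
finite. -/
theorem finite_quotient_of_pow_le [Finite (IsLocalRing.ResidueField 𝒪)] (e : ℕ)
    (he : IsLocalRing.maximalIdeal 𝒪 ^ e ≤ Ideal.span {(p : 𝒪)}) :
    Finite (𝒪 ⧸ (IsLocalRing.maximalIdeal ℤ_[p] • ⊤ : Submodule ℤ_[p] 𝒪)) := by
  haveI : Finite (𝒪 ⧸ IsLocalRing.maximalIdeal 𝒪) := ‹Finite (IsLocalRing.ResidueField 𝒪)›
  haveI : Finite (𝒪 ⧸ IsLocalRing.maximalIdeal 𝒪 ^ e) :=
    Ideal.finite_quotient_pow (IsNoetherian.noetherian _) e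
  -- `𝔪^e ⊆ p𝒪 = 𝔪_{ℤ_p} • ⊤`
  have hle : ((IsLocalRing.maximalIdeal 𝒪 ^ e : Ideal 𝒪).restrictScalars ℤ_[p]) ≤
      (IsLocalRing.maximalIdeal ℤ_[p] • ⊤ : Submodule ℤ_[p] 𝒪) := by
    intro x hx
    have hx' : x ∈ Ideal.span {(p : 𝒪)} := he hx
    obtain ⟨c, rfl⟩ := Ideal.mem_span_singleton'.mp hx'
    have : c * (p : 𝒪) = (p : ℤ_[p]) • c := by
      rw [Algebra.smul_def, map_natCast, mul_comm]
    rw [this]
    refine Submodule.smul_mem_smul ?_ Submodule.mem_top
    rw [PadicInt.maximalIdeal_eq_span_p]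
    exact Ideal.mem_span_singleton_self _
  -- a quotient of a finite set
  let g : (𝒪 ⧸ IsLocalRing.maximalIdeal 𝒪 ^ e) →
      (𝒪 ⧸ (IsLocalRing.maximalIdeal ℤ_[p] • ⊤ : Submodule ℤ_[p] 𝒪)) :=
    fun q => Quotient.liftOn' q (fun x => Submodule.Quotient.mk x) (by
      intro a b hab
      rw [Submodule.Quotient.eq]
      apply hle
      have := QuotientAddGroup.leftRel_apply.mp hab
      have h2 : a - b ∈ IsLocalRing.maximalIdeal 𝒪 ^ e := by
        have h3 : -a + b ∈ IsLocalRing.maximalIdeal 𝒪 ^ e := this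
        have : a - b = -(-a + b) := by ring
        rw [this]
        exact Ideal.neg_mem_iff _ |>.mpr h3
      exact h2)
  have hg : Function.Surjective g := by
    intro y
    obtain ⟨x, rfl⟩ := Submodule.Quotient.mk_surjective _ y
    exact ⟨Ideal.Quotient.mk _ x, rfl⟩
  exact Finite.of_surjective g hg

/-- **`𝒪` is finite over `ℤ_[p]`**, abstract form: `𝒪` complete local noetherian, `p ∈ 𝔪`, finite
residue field, and some power of `𝔪` inside `p𝒪`. -/
theorem finite_padic_of_pow_le [Finite (IsLocalRing.ResidueField 𝒪)]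
    (hp𝒪 : (p : 𝒪) ∈ IsLocalRing.maximalIdeal 𝒪) (e : ℕ)
    (he : IsLocalRing.maximalIdeal 𝒪 ^ e ≤ Ideal.span {(p : 𝒪)}) :
    Module.Finite ℤ_[p] 𝒪 := by
  haveI := isHausdorff_padic p hp𝒪
  haveI := finite_quotient_of_pow_le p e he
  exact finite_of_finite_quotient p

/-- **A complete discrete valuation ring of characteristic zero with finite residue field of
characteristic `p` is finite over `ℤ_[p]`** (for any `ℤ_[p]`-algebra structure). -/
theorem finite_padic_of_complete [IsDomain 𝒪] [IsDiscreteValuationRing 𝒪] [CharZero 𝒪]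
    [Finite (IsLocalRing.ResidueField 𝒪)]
    (hp𝒪 : (p : 𝒪) ∈ IsLocalRing.maximalIdeal 𝒪) : Module.Finite ℤ_[p] 𝒪 := by
  obtain ⟨ϖ, hϖ⟩ := IsDiscreteValuationRing.exists_irreducible 𝒪
  have hp0 : Ideal.span {(p : 𝒪)} ≠ ⊥ := by
    rw [Ne, Ideal.span_singleton_eq_bot]
    exact_mod_cast hp.out.ne_zero
  obtain ⟨e, he⟩ := IsDiscreteValuationRing.ideal_eq_span_pow_irreducible hp0 hϖ
  refine finite_padic_of_pow_le p hp𝒪 e ?_
  rw [he, hϖ.maximalIdeal_eq, Ideal.span_singleton_pow]

end Finite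

/-! ### Freeness -/

section Free

variable (p : ℕ) [hp : Fact p.Prime] {A : Type*} [CommRing A] [Algebra ℤ_[p] A]

/-- `ℤ_[p] → A` is injective when `A` is a nontrivial ring of characteristic zero... precisely: when
`(p : A)` is not nilpotent; here for a domain of characteristic zero. -/
theorem algebraMap_padic_injective [IsDomain A] [CharZero A] :
    Function.Injective (algebraMap ℤ_[p] A) := by
  rw [injective_iff_map_eq_zero]
  intro x hx
  by_contra hx0
  obtain ⟨u, hu⟩ : ∃ u : ℤ_[p]ˣ, x = u * (p : ℤ_[p]) ^ x.valuation :=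
    ⟨PadicInt.unitCoeff hx0, PadicInt.unitCoeff_spec hx0⟩
  rw [hu, map_mul, map_pow, map_natCast] at hx
  rcases mul_eq_zero.mp hx with h | h
  · have : IsUnit (algebraMap ℤ_[p] A (u : ℤ_[p])) := u.isUnit.map _
    exact this.ne_zero h
  · have hpA : (p : A) ≠ 0 := by exact_mod_cast hp.out.ne_zero
    exact pow_ne_zero _ hpA h

/-- a domain of characteristic zero is torsion-free over `ℤ_[p]`. -/
theorem isTorsionFree_padic [IsDomain A] [CharZero A] : Module.IsTorsionFree ℤ_[p] A := by
  apply Module.IsTorsionFree.of_smul_eq_zero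
  intro a m h
  rw [Algebra.smul_def] at h
  rcases mul_eq_zero.mp h with h1 | h1
  · left
    exact (injective_iff_map_eq_zero _).mp (algebraMap_padic_injective p) a h1
  · exact Or.inr h1

/-- **A domain of characteristic zero which is finite over `ℤ_[p]` is free over `ℤ_[p]`.** -/
theorem free_padic_of_isDomain [IsDomain A] [CharZero A] [Module.Finite ℤ_[p] A] :
    Module.Free ℤ_[p] A := by
  haveI := isTorsionFree_padic (A := A) p
  exact Module.free_of_finite_type_torsion_free'

end Free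

/-! ### The points of a finite `𝒪`-algebra -/

section Points

variable (p : ℕ) [hp : Fact p.Prime]
  {𝒪 : Type*} [CommRing 𝒪] [IsLocalRing 𝒪] [IsNoetherianRing 𝒪]
  [IsAdicComplete (IsLocalRing.maximalIdeal 𝒪) 𝒪] [IsDomain 𝒪] [IsDiscreteValuationRing 𝒪]
  [CharZero 𝒪] [Finite (IsLocalRing.ResidueField 𝒪)] [Algebra ℤ_[p] 𝒪]
  {A : Type*} [CommRing A] [Algebra 𝒪 A] [Module.Finite 𝒪 A] [Algebra ℤ_[p] A]
  [IsScalarTower ℤ_[p] 𝒪 A]

/-- transitivity: a finite `𝒪`-algebra is finite over `ℤ_[p]`. -/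
theorem finite_padic_of_finite (hp𝒪 : (p : 𝒪) ∈ IsLocalRing.maximalIdeal 𝒪) :
    Module.Finite ℤ_[p] A := by
  haveI := finite_padic_of_complete p hp𝒪
  exact Module.Finite.trans 𝒪 A

end Points

end Fermat.Agent.ORD.Alg.PadicFinite72
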