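/-
ORD (S33), brick D1 — helper93: **push-forward of Hecke eigen-submodules along degeneracy maps**.

LIGHT CLOSURE: Mathlib + `ES/J/TateModule13` + `ORD/Spec/Spec40` only (as `New/FunctionalOfGeoData51`).
`TateJZero13.TJ p N`, `TateJZero13.rhoT p N`, `TateJZero13.tT p N ℓ` are BY `rfl` the terms
`TateModule p (JZero N)`, `rho p (JZero N)`, `tHecke p N ℓ` used here; the literal restatements with
`TJ`, `rhoT`, `tT` (and A1's `eigenSub`) are in `ORD/Alg/PushEigenTJ93`.

Input: additive maps `f : J₀(N) →+ J₀(M)` which are Galois-equivariant and commute with the Hecke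
operators `T_ℓ`, `ℓ ∤ N` (the fields `pα, pα_galois, pα_hecke` of `Spec40.GeoData`, verbatim).

* `proj_map_push`           : `proj k (map f y) = f (proj k y)` (`rfl`);
* `map_rho`, `map_tHecke`   : `map f : T_p J₀(N) →ₗ[ℤ_[p]] T_p J₀(M)` intertwines the Galois actions
                              and the `T_ℓ` (`ℓ ∤ N`);
* `baseChange_map_rho`, `baseChange_map_tHecke` : the same after base change to a `ℤ_[p]`-algebra `A`;
* `baseChange_map_eigen`    : the base change of `map f` sends a simultaneous eigenvector of the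
                              `T_ℓ` (`ℓ ∉ Tbad`) at level `N` to one at level `M` with the SAME
                              eigenvalue function `c` (stated on the unfolded membership predicate of
                              `ORD/Alg/CHDense89.eigenSub`);
* `eigenSet`                : the simultaneous eigen-submodule itself (same carrier as A1's `eigenSub`);
* `baseChange_map_eq_zero`  : if the level-`M` eigen-submodule is `⊥`, the base change of `map f`
                              kills the level-`N` eigen-submodule (the `hpushα`, `hpushβ` hypotheses of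
                              `New/FunctionalOfGeoData51.functional_of_geoData`);
* `geoData_push_eq_zero`    : the two pushes of a `Spec40.GeoData` at once.

Generic part (any commutative ring, any modules): `baseChange_intertwine`, `baseChange_eigen`.
-/
import Mathlib
import Fermat.Agent.ES.J.TateModule13
import Fermat.Agent.ORD.Spec.Spec40

set_option autoImplicit false
set_option linter.unusedSectionVars false

noncomputable section

open TensorProduct ModularCurve

namespace Fermat.Agent.ORD.Alg.PushEigen93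

open Fermat.Agent.ES.J.TateModule13

local notation "Qb" => AlgebraicClosure ℚ
local notation "GQ" => (AlgebraicClosure ℚ ≃ₐ[ℚ] AlgebraicClosure ℚ)

/-! ### 0. generic: intertwiners and base change -/

section Generic

variable {R : Type*} [CommRing R] {T T' : Type*} [AddCommGroup T] [Module R T]
  [AddCommGroup T'] [Module R T'] (A : Type*) [CommRing A] [Algebra R A]

/-- an intertwiner stays an intertwiner after base change. -/
theorem baseChange_intertwine (f : T →ₗ[R] T') (t : Module.End R T) (t' : Module.End R T')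
    (h : ∀ x, f (t x) = t' (f x)) (w : A ⊗[R] T) :
    f.baseChange A (t.baseChange A w) = t'.baseChange A (f.baseChange A w) := by
  induction w using TensorProduct.induction_on with
  | zero => simp only [map_zero]
  | tmul a x =>
    rw [LinearMap.baseChange_tmul, LinearMap.baseChange_tmul, LinearMap.baseChange_tmul,
      LinearMap.baseChange_tmul, h]
  | add x y hx hy => rw [map_add, map_add, map_add, map_add, hx, hy]

/-- the base change of an intertwiner maps eigenvectors to eigenvectors, same eigenvalue. -/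
theorem baseChange_eigen (f : T →ₗ[R] T') (t : Module.End R T) (t' : Module.End R T')
    (h : ∀ x, f (t x) = t' (f x)) {c : A} {w : A ⊗[R] T} (hw : t.baseChange A w = c • w) :
    t'.baseChange A (f.baseChange A w) = c • f.baseChange A w := by
  rw [← baseChange_intertwine A f t t' h, hw, map_smul]

end Generic

/-! ### 1. the push on Tate modules -/

section Tate

variable {p : ℕ} [hp : Fact p.Prime] {N M : ℕ} [NeZero N] [NeZero M]

variable (p N) in
/-- the Hecke operator `T_ℓ` on `T_p J₀(N)`; `TateJZero13.tT p N ℓ` is the same term. -/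
abbrev tHecke (ℓ : Nat.Primes) : Module.End ℤ_[p] (TateModule p (JZero N)) :=
  map (heckeOperatorBar N ℓ).toAddMonoidHom

/-- `proj k (map f y) = f (proj k y)`. -/
theorem proj_map_push (f : JZero N →+ JZero M) (k : ℕ) (y : TateModule p (JZero N)) :
    proj k (map f y : TateModule p (JZero M)) = f (proj k y) := rfl

/-- `map f` commutes with the Galois action. -/
theorem map_rho (f : JZero N →+ JZero M) (hgal : ∀ (σ : GQ) (x : JZero N), f (σ • x) = σ • f x)
    (σ : GQ) (y : TateModule p (JZero N)) :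
    (map f (rho p (JZero N) σ y) : TateModule p (JZero M)) = rho p (JZero M) σ (map f y) := by
  ext k
  show f (σ • proj k y) = σ • f (proj k y)
  exact hgal σ _

/-- `map f` intertwines the Hecke operators `T_ℓ`, `ℓ ∤ N`. -/
theorem map_tHecke (f : JZero N →+ JZero M)
    (hhecke : ∀ ℓ : Nat.Primes, ¬ (ℓ : ℕ) ∣ N → ∀ x : JZero N,
      f (heckeOperatorBar N ℓ x) = heckeOperatorBar M ℓ (f x))
    (ℓ : Nat.Primes) (hℓ : ¬ (ℓ : ℕ) ∣ N) (y : TateModule p (JZero N)) :
    (map f (tHecke p N ℓ y) : TateModule p (JZero M)) = tHecke p M ℓ (map f y) := by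
  ext k
  show f (heckeOperatorBar N ℓ (proj k y)) = heckeOperatorBar M ℓ (f (proj k y))
  exact hhecke ℓ hℓ _

theorem map_comp_rho (f : JZero N →+ JZero M)
    (hgal : ∀ (σ : GQ) (x : JZero N), f (σ • x) = σ • f x) (σ : GQ) :
    (map f : TateModule p (JZero N) →ₗ[ℤ_[p]] TateModule p (JZero M)) ∘ₗ rho p (JZero N) σ =
      rho p (JZero M) σ ∘ₗ map f :=
  LinearMap.ext fun y => map_rho f hgal σ y

theorem map_comp_tHecke (f : JZero N →+ JZero M)
    (hhecke : ∀ ℓ : Nat.Primes, ¬ (ℓ : ℕ) ∣ N → ∀ x : JZero N,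
      f (heckeOperatorBar N ℓ x) = heckeOperatorBar M ℓ (f x))
    (ℓ : Nat.Primes) (hℓ : ¬ (ℓ : ℕ) ∣ N) :
    (map f : TateModule p (JZero N) →ₗ[ℤ_[p]] TateModule p (JZero M)) ∘ₗ tHecke p N ℓ =
      tHecke p M ℓ ∘ₗ map f :=
  LinearMap.ext fun y => map_tHecke f hhecke ℓ hℓ y

/-! ### 2. base change to a `ℤ_[p]`-algebra -/

variable (A : Type*) [CommRing A] [Algebra ℤ_[p] A]

/-- the base change of `map f` commutes with the base-changed Galois action. -/
theorem baseChange_map_rho (f : JZero N →+ JZero M)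
    (hgal : ∀ (σ : GQ) (x : JZero N), f (σ • x) = σ • f x) (σ : GQ)
    (w : A ⊗[ℤ_[p]] TateModule p (JZero N)) :
    (map f : TateModule p (JZero N) →ₗ[ℤ_[p]] TateModule p (JZero M)).baseChange A
        ((rho p (JZero N) σ).baseChange A w) =
      (rho p (JZero M) σ).baseChange A
        ((map f : TateModule p (JZero N) →ₗ[ℤ_[p]] TateModule p (JZero M)).baseChange A w) :=
  baseChange_intertwine A _ _ _ (map_rho f hgal σ) w

/-- the base change of `map f` intertwines the base-changed Hecke operators `T_ℓ`, `ℓ ∤ N`. -/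
theorem baseChange_map_tHecke (f : JZero N →+ JZero M)
    (hhecke : ∀ ℓ : Nat.Primes, ¬ (ℓ : ℕ) ∣ N → ∀ x : JZero N,
      f (heckeOperatorBar N ℓ x) = heckeOperatorBar M ℓ (f x))
    (ℓ : Nat.Primes) (hℓ : ¬ (ℓ : ℕ) ∣ N) (w : A ⊗[ℤ_[p]] TateModule p (JZero N)) :
    (map f : TateModule p (JZero N) →ₗ[ℤ_[p]] TateModule p (JZero M)).baseChange A
        ((tHecke p N ℓ).baseChange A w) =
      (tHecke p M ℓ).baseChange A
        ((map f : TateModule p (JZero N) →ₗ[ℤ_[p]] TateModule p (JZero M)).baseChange A w) :=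
  baseChange_intertwine A _ _ _ (map_tHecke f hhecke ℓ hℓ) w

variable {A}

/-- **eigenvectors push forward**, with the SAME eigenvalue function (unfolded membership form of
A1's `eigenSub`): if `Tbad` contains the primes dividing `N`, a simultaneous eigenvector of the
`T_ℓ`, `ℓ ∉ Tbad`, at level `N` is sent to one at level `M`. -/
theorem baseChange_map_eigen (f : JZero N →+ JZero M)
    (hhecke : ∀ ℓ : Nat.Primes, ¬ (ℓ : ℕ) ∣ N → ∀ x : JZero N,
      f (heckeOperatorBar N ℓ x) = heckeOperatorBar M ℓ (f x))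
    (Tbad : Finset ℕ) (hbad : ∀ q : ℕ, q.Prime → q ∣ N → q ∈ Tbad) (c : ℕ → A)
    {w : A ⊗[ℤ_[p]] TateModule p (JZero N)}
    (hw : ∀ (ℓ : ℕ) (hℓ : ℓ.Prime), ℓ ∉ Tbad → (tHecke p N ⟨ℓ, hℓ⟩).baseChange A w = c ℓ • w) :
    ∀ (ℓ : ℕ) (hℓ : ℓ.Prime), ℓ ∉ Tbad →
      (tHecke p M ⟨ℓ, hℓ⟩).baseChange A
          ((map f : TateModule p (JZero N) →ₗ[ℤ_[p]] TateModule p (JZero M)).baseChange A w) =
        c ℓ • (map f : TateModule p (JZero N) →ₗ[ℤ_[p]] TateModule p (JZero M)).baseChange A w := by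
  intro ℓ hℓ hℓT
  have hℓN : ¬ ((⟨ℓ, hℓ⟩ : Nat.Primes) : ℕ) ∣ N := fun hdvd => hℓT (hbad ℓ hℓ hdvd)
  exact baseChange_eigen A _ _ _ (map_tHecke f hhecke ⟨ℓ, hℓ⟩ hℓN) (hw ℓ hℓ hℓT)

/-! ### 3. the eigen-submodule (same carrier as `CHDense89.eigenSub`) and the vanishing corollary -/

variable (p) in
/-- the simultaneous eigen-submodule of the `T_ℓ`, `ℓ ∉ Tbad`, in `A ⊗ T_p J₀(L)`, eigenvalues `c ℓ`.
(Same carrier as A1's `CHDense89.eigenSub`.) -/
def eigenSet (L : ℕ) [NeZero L] (Tbad : Finset ℕ) (c : ℕ → A) :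
    Submodule A (A ⊗[ℤ_[p]] TateModule p (JZero L)) where
  carrier := {w | ∀ (ℓ : ℕ) (hℓ : ℓ.Prime), ℓ ∉ Tbad →
    (tHecke p L ⟨ℓ, hℓ⟩).baseChange A w = c ℓ • w}
  zero_mem' := fun ℓ hℓ _ => by rw [map_zero, smul_zero]
  add_mem' := fun {x y} hx hy ℓ hℓ hT => by rw [map_add, hx ℓ hℓ hT, hy ℓ hℓ hT, smul_add]
  smul_mem' := fun a x hx ℓ hℓ hT => by rw [map_smul, hx ℓ hℓ hT, smul_comm]

theorem mem_eigenSet_iff {L : ℕ} [NeZero L] {Tbad : Finset ℕ} {c : ℕ → A}
    {w : A ⊗[ℤ_[p]] TateModule p (JZero L)} :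
    w ∈ eigenSet p L Tbad c ↔
      ∀ (ℓ : ℕ) (hℓ : ℓ.Prime), ℓ ∉ Tbad →
        (tHecke p L ⟨ℓ, hℓ⟩).baseChange A w = c ℓ • w := Iff.rfl

/-- the push maps the level-`N` eigen-submodule into the level-`M` one. -/
theorem baseChange_map_mem_eigenSet (f : JZero N →+ JZero M)
    (hhecke : ∀ ℓ : Nat.Primes, ¬ (ℓ : ℕ) ∣ N → ∀ x : JZero N,
      f (heckeOperatorBar N ℓ x) = heckeOperatorBar M ℓ (f x))
    (Tbad : Finset ℕ) (hbad : ∀ q : ℕ, q.Prime → q ∣ N → q ∈ Tbad) (c : ℕ → A)
    {w : A ⊗[ℤ_[p]] TateModule p (JZero N)} (hw : w ∈ eigenSet p N Tbad c) :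
    (map f : TateModule p (JZero N) →ₗ[ℤ_[p]] TateModule p (JZero M)).baseChange A w ∈
      eigenSet p M Tbad c :=
  baseChange_map_eigen f hhecke Tbad hbad c hw

/-- `Submodule.map` form. -/
theorem map_eigenSet_le (f : JZero N →+ JZero M)
    (hhecke : ∀ ℓ : Nat.Primes, ¬ (ℓ : ℕ) ∣ N → ∀ x : JZero N,
      f (heckeOperatorBar N ℓ x) = heckeOperatorBar M ℓ (f x))
    (Tbad : Finset ℕ) (hbad : ∀ q : ℕ, q.Prime → q ∣ N → q ∈ Tbad) (c : ℕ → A) :
    (eigenSet p N Tbad c).map
        ((map f : TateModule p (JZero N) →ₗ[ℤ_[p]] TateModule p (JZero M)).baseChange A) ≤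
      eigenSet p M Tbad c := by
  rintro _ ⟨w, hw, rfl⟩
  exact baseChange_map_mem_eigenSet f hhecke Tbad hbad c hw

/-- the eigen-submodule is stable under the base-changed Galois action, provided the Hecke operators
commute with Galois on `J₀(L)` (`ES/HECKE/HeckeGalois12.heckeOperatorBar_smul`). -/
theorem rho_mem_eigenSet {L : ℕ} [NeZero L]
    (hcomm : ∀ (ℓ : Nat.Primes) (σ : GQ) (x : JZero L),
      heckeOperatorBar L ℓ (σ • x) = σ • heckeOperatorBar L ℓ x)
    (Tbad : Finset ℕ) (c : ℕ → A) (σ : GQ) {w : A ⊗[ℤ_[p]] TateModule p (JZero L)}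
    (hw : w ∈ eigenSet p L Tbad c) :
    (rho p (JZero L) σ).baseChange A w ∈ eigenSet p L Tbad c := by
  intro ℓ hℓ hℓT
  refine baseChange_eigen A (rho p (JZero L) σ) (tHecke p L ⟨ℓ, hℓ⟩) (tHecke p L ⟨ℓ, hℓ⟩) ?_
    (hw ℓ hℓ hℓT)
  intro y
  ext k
  show σ • heckeOperatorBar L ⟨ℓ, hℓ⟩ (proj k y) = heckeOperatorBar L ⟨ℓ, hℓ⟩ (σ • proj k y)
  exact (hcomm ⟨ℓ, hℓ⟩ σ _).symm

/-- **vanishing of the push** (unfolded form): if no nonzero vector of `A ⊗ T_p J₀(M)` is a
simultaneous eigenvector with eigenvalues `c`, the push kills every level-`N` eigenvector. -/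
theorem baseChange_map_eq_zero (f : JZero N →+ JZero M)
    (hhecke : ∀ ℓ : Nat.Primes, ¬ (ℓ : ℕ) ∣ N → ∀ x : JZero N,
      f (heckeOperatorBar N ℓ x) = heckeOperatorBar M ℓ (f x))
    (Tbad : Finset ℕ) (hbad : ∀ q : ℕ, q.Prime → q ∣ N → q ∈ Tbad) (c : ℕ → A)
    (hM : ∀ v : A ⊗[ℤ_[p]] TateModule p (JZero M),
      (∀ (ℓ : ℕ) (hℓ : ℓ.Prime), ℓ ∉ Tbad → (tHecke p M ⟨ℓ, hℓ⟩).baseChange A v = c ℓ • v) →
        v = 0)
    {w : A ⊗[ℤ_[p]] TateModule p (JZero N)}
    (hw : ∀ (ℓ : ℕ) (hℓ : ℓ.Prime), ℓ ∉ Tbad → (tHecke p N ⟨ℓ, hℓ⟩).baseChange A w = c ℓ • w) :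
    (map f : TateModule p (JZero N) →ₗ[ℤ_[p]] TateModule p (JZero M)).baseChange A w = 0 :=
  hM _ (baseChange_map_eigen f hhecke Tbad hbad c hw)

/-- **vanishing of the push** (submodule form): `eigenSet_M = ⊥` ⟹ the push kills `eigenSet_N`. -/
theorem baseChange_map_eq_zero_of_eigenSet_eq_bot (f : JZero N →+ JZero M)
    (hhecke : ∀ ℓ : Nat.Primes, ¬ (ℓ : ℕ) ∣ N → ∀ x : JZero N,
      f (heckeOperatorBar N ℓ x) = heckeOperatorBar M ℓ (f x))
    (Tbad : Finset ℕ) (hbad : ∀ q : ℕ, q.Prime → q ∣ N → q ∈ Tbad) (c : ℕ → A)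
    (hM : eigenSet p M Tbad c = ⊥) :
    ∀ w ∈ eigenSet p N Tbad c,
      (map f : TateModule p (JZero N) →ₗ[ℤ_[p]] TateModule p (JZero M)).baseChange A w = 0 := by
  intro w hw
  have h := baseChange_map_mem_eigenSet f hhecke Tbad hbad c hw
  rw [hM] at h
  exact (Submodule.mem_bot A).mp h

/-! ### 4. for a `Spec40.GeoData` -/

open Fermat.Agent.ORD.Spec

/-- **both pushes of a `GeoData` kill the level-`N` eigen-submodule** when the level-`M`
eigen-submodule (same eigenvalues) vanishes: exactly the hypotheses `hpushα`, `hpushβ` of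
`New/FunctionalOfGeoData51.functional_of_geoData` for `Λ := eigenSet p N Tbad c`. -/
theorem geoData_push_eq_zero {P : ValuationSubring Qb} (D : Spec40.GeoData p N M P)
    (Tbad : Finset ℕ) (hbad : ∀ q : ℕ, q.Prime → q ∣ N → q ∈ Tbad) (c : ℕ → A)
    (hM : eigenSet p M Tbad c = ⊥) :
    (∀ w ∈ eigenSet p N Tbad c,
        (map D.pα : TateModule p (JZero N) →ₗ[ℤ_[p]] TateModule p (JZero M)).baseChange A w = 0) ∧
      ∀ w ∈ eigenSet p N Tbad c,
        (map D.pβ : TateModule p (JZero N) →ₗ[ℤ_[p]] TateModule p (JZero M)).baseChange A w = 0 :=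
  ⟨baseChange_map_eq_zero_of_eigenSet_eq_bot D.pα D.pα_hecke Tbad hbad c hM,
    baseChange_map_eq_zero_of_eigenSet_eq_bot D.pβ D.pβ_hecke Tbad hbad c hM⟩

/-- the Galois-equivariance of the two pushes of a `GeoData`, after base change. -/
theorem geoData_push_rho {P : ValuationSubring Qb} (D : Spec40.GeoData p N M P) (σ : GQ)
    (w : A ⊗[ℤ_[p]] TateModule p (JZero N)) :
    (map D.pα : TateModule p (JZero N) →ₗ[ℤ_[p]] TateModule p (JZero M)).baseChange A
          ((rho p (JZero N) σ).baseChange A w) =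
        (rho p (JZero M) σ).baseChange A
          ((map D.pα : TateModule p (JZero N) →ₗ[ℤ_[p]] TateModule p (JZero M)).baseChange A w) ∧
      (map D.pβ : TateModule p (JZero N) →ₗ[ℤ_[p]] TateModule p (JZero M)).baseChange A
          ((rho p (JZero N) σ).baseChange A w) =
        (rho p (JZero M) σ).baseChange A
          ((map D.pβ : TateModule p (JZero N) →ₗ[ℤ_[p]] TateModule p (JZero M)).baseChange A w) :=
  ⟨baseChange_map_rho A D.pα D.pα_galois σ w, baseChange_map_rho A D.pβ D.pβ_galois σ w⟩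

end Tate

end Fermat.Agent.ORD.Alg.PushEigen93
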