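/-
ORD (S33), brick D1 (lite form) — helper93: **pushes of a `GeoDataLite` kill the level-`N`
eigen-submodule when the level-`M` eigen-submodule vanishes**, with the Hecke-equivariance ON TATE
MODULES as ONE explicit hypothesis `TateHeckeEquivariant` whose proof is `ES/N35/QNewCore19.push_tT`
(Eichler–Shimura at Frobenius lifts; heavy closure, hence kept out of this file).

LIGHT CLOSURE: Mathlib + `ES/J/TateModule13` + `ORD/Spec/{Spec40, GeoLite40}` + `ORD/Alg/PushEigen93`.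

* `lin_eigen`, `lin_mem_eigenSet`, `lin_eq_zero_of_eigenSet_eq_bot` : D1 for an ARBITRARY `ℤ_[p]`-linear
  `F : T_p J₀(N) → T_p J₀(M)` intertwining the `T_ℓ`, `ℓ ∉ Tbad`, on Tate modules;
* `TateHeckeEquivariant p N M Tbad` : every Galois-equivariant `ℤ_[p]`-linear `F` intertwines the `T_ℓ`,
  `ℓ ∉ Tbad` (`= QNewCore19.push_tT` when `Tbad ⊇ {p} ∪ primes of N ∪ primes of M`, up to `rfl`);
* `geoDataLite_push_eq_zero` : `hpushα ∧ hpushβ` of `GeoLite40.functional_of_geoDataLite` for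
  `Λ := eigenSet p N Tbad c`, from `eigenSet p M Tbad c = ⊥`;
* `geoDataLite_push_mem` : both pushes map `eigenSet_N` into `eigenSet_M` (same `c`, same `Tbad`).
-/
import Mathlib
import Fermat.Agent.ORD.Alg.PushEigen93
import Fermat.Agent.ORD.Spec.GeoLite40

set_option autoImplicit false
set_option linter.unusedSectionVars false

noncomputable section

open TensorProduct ModularCurve

namespace Fermat.Agent.ORD.Alg.PushEigenLite93

open Fermat.Agent.ES.J.TateModule13 Fermat.Agent.ORD.Alg.PushEigen93 Fermat.Agent.ORD.Spec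

local notation "Qb" => AlgebraicClosure ℚ
local notation "GQ" => (AlgebraicClosure ℚ ≃ₐ[ℚ] AlgebraicClosure ℚ)

variable {p : ℕ} [hp : Fact p.Prime] {N M : ℕ} [NeZero N] [NeZero M]
  {A : Type*} [CommRing A] [Algebra ℤ_[p] A]

/-! ### 1. arbitrary linear maps intertwining the Hecke operators on Tate modules -/

/-- eigenvectors push forward along any `ℤ_[p]`-linear map intertwining the `T_ℓ`, `ℓ ∉ Tbad`. -/
theorem lin_eigen (F : TateModule p (JZero N) →ₗ[ℤ_[p]] TateModule p (JZero M))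
    (Tbad : Finset ℕ)
    (hF : ∀ (ℓ : ℕ) (hℓ : ℓ.Prime), ℓ ∉ Tbad → ∀ y : TateModule p (JZero N),
      F (tHecke p N ⟨ℓ, hℓ⟩ y) = tHecke p M ⟨ℓ, hℓ⟩ (F y))
    (c : ℕ → A) {w : A ⊗[ℤ_[p]] TateModule p (JZero N)}
    (hw : ∀ (ℓ : ℕ) (hℓ : ℓ.Prime), ℓ ∉ Tbad → (tHecke p N ⟨ℓ, hℓ⟩).baseChange A w = c ℓ • w) :
    ∀ (ℓ : ℕ) (hℓ : ℓ.Prime), ℓ ∉ Tbad →
      (tHecke p M ⟨ℓ, hℓ⟩).baseChange A (F.baseChange A w) = c ℓ • F.baseChange A w :=
  fun ℓ hℓ hℓT => baseChange_eigen A F _ _ (hF ℓ hℓ hℓT) (hw ℓ hℓ hℓT)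

theorem lin_mem_eigenSet (F : TateModule p (JZero N) →ₗ[ℤ_[p]] TateModule p (JZero M))
    (Tbad : Finset ℕ)
    (hF : ∀ (ℓ : ℕ) (hℓ : ℓ.Prime), ℓ ∉ Tbad → ∀ y : TateModule p (JZero N),
      F (tHecke p N ⟨ℓ, hℓ⟩ y) = tHecke p M ⟨ℓ, hℓ⟩ (F y))
    (c : ℕ → A) {w : A ⊗[ℤ_[p]] TateModule p (JZero N)} (hw : w ∈ eigenSet p N Tbad c) :
    F.baseChange A w ∈ eigenSet p M Tbad c :=
  lin_eigen F Tbad hF c hw

theorem lin_eq_zero_of_eigenSet_eq_bot
    (F : TateModule p (JZero N) →ₗ[ℤ_[p]] TateModule p (JZero M)) (Tbad : Finset ℕ)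
    (hF : ∀ (ℓ : ℕ) (hℓ : ℓ.Prime), ℓ ∉ Tbad → ∀ y : TateModule p (JZero N),
      F (tHecke p N ⟨ℓ, hℓ⟩ y) = tHecke p M ⟨ℓ, hℓ⟩ (F y))
    (c : ℕ → A) (hM : eigenSet p M Tbad c = ⊥) :
    ∀ w ∈ eigenSet p N Tbad c, F.baseChange A w = 0 := by
  intro w hw
  have h := lin_mem_eigenSet F Tbad hF c hw
  rw [hM] at h
  exact (Submodule.mem_bot A).mp h

/-- unfolded form of `lin_eq_zero_of_eigenSet_eq_bot`. -/
theorem lin_eq_zero (F : TateModule p (JZero N) →ₗ[ℤ_[p]] TateModule p (JZero M))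
    (Tbad : Finset ℕ)
    (hF : ∀ (ℓ : ℕ) (hℓ : ℓ.Prime), ℓ ∉ Tbad → ∀ y : TateModule p (JZero N),
      F (tHecke p N ⟨ℓ, hℓ⟩ y) = tHecke p M ⟨ℓ, hℓ⟩ (F y))
    (c : ℕ → A)
    (hM : ∀ v : A ⊗[ℤ_[p]] TateModule p (JZero M),
      (∀ (ℓ : ℕ) (hℓ : ℓ.Prime), ℓ ∉ Tbad → (tHecke p M ⟨ℓ, hℓ⟩).baseChange A v = c ℓ • v) →
        v = 0)
    {w : A ⊗[ℤ_[p]] TateModule p (JZero N)}
    (hw : ∀ (ℓ : ℕ) (hℓ : ℓ.Prime), ℓ ∉ Tbad → (tHecke p N ⟨ℓ, hℓ⟩).baseChange A w = c ℓ • w) :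
    F.baseChange A w = 0 :=
  hM _ (lin_eigen F Tbad hF c hw)

/-! ### 2. the hypothesis `push_tT` and `GeoDataLite` -/

variable (p N M) in
/-- **Hecke equivariance on Tate modules is automatic**: every Galois-equivariant `ℤ_[p]`-linear map
`T_p J₀(N) → T_p J₀(M)` intertwines the `T_ℓ`, `ℓ ∉ Tbad`.  For `Tbad ⊇ {p} ∪ primes of N ∪ primes
of M` this is `ES/N35/QNewCore19.push_tT` (the terms agree up to `rfl`). -/
def TateHeckeEquivariant (Tbad : Finset ℕ) : Prop :=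
  ∀ F : TateModule p (JZero N) →ₗ[ℤ_[p]] TateModule p (JZero M),
    (∀ (σ : GQ) (x : TateModule p (JZero N)), F (rho p (JZero N) σ x) = rho p (JZero M) σ (F x)) →
    ∀ (ℓ : ℕ) (hℓ : ℓ.Prime), ℓ ∉ Tbad → ∀ y : TateModule p (JZero N),
      F (tHecke p N ⟨ℓ, hℓ⟩ y) = tHecke p M ⟨ℓ, hℓ⟩ (F y)

/-- a Galois-equivariant additive map kills `eigenSet_N` after `map`/base change when
`eigenSet_M = ⊥`. -/
theorem map_eq_zero_of_galois (f : JZero N →+ JZero M)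
    (hgal : ∀ (σ : GQ) (x : JZero N), f (σ • x) = σ • f x)
    (Tbad : Finset ℕ) (hT : TateHeckeEquivariant p N M Tbad) (c : ℕ → A)
    (hM : eigenSet p M Tbad c = ⊥) :
    ∀ w ∈ eigenSet p N Tbad c,
      (map f : TateModule p (JZero N) →ₗ[ℤ_[p]] TateModule p (JZero M)).baseChange A w = 0 :=
  lin_eq_zero_of_eigenSet_eq_bot _ Tbad (hT _ (map_rho f hgal)) c hM

/-- a Galois-equivariant additive map sends `eigenSet_N` into `eigenSet_M` after `map`/base change. -/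
theorem map_mem_of_galois (f : JZero N →+ JZero M)
    (hgal : ∀ (σ : GQ) (x : JZero N), f (σ • x) = σ • f x)
    (Tbad : Finset ℕ) (hT : TateHeckeEquivariant p N M Tbad) (c : ℕ → A)
    {w : A ⊗[ℤ_[p]] TateModule p (JZero N)} (hw : w ∈ eigenSet p N Tbad c) :
    (map f : TateModule p (JZero N) →ₗ[ℤ_[p]] TateModule p (JZero M)).baseChange A w ∈
      eigenSet p M Tbad c :=
  lin_mem_eigenSet _ Tbad (hT _ (map_rho f hgal)) c hw

/-- **D1 for `GeoDataLite`**: `hpushα ∧ hpushβ` of `GeoLite40.functional_of_geoDataLite` for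
`Λ := eigenSet p N Tbad c`, from `eigenSet p M Tbad c = ⊥`. -/
theorem geoDataLite_push_eq_zero {P : ValuationSubring Qb} (D : GeoLite40.GeoDataLite p N M P)
    (Tbad : Finset ℕ) (hT : TateHeckeEquivariant p N M Tbad) (c : ℕ → A)
    (hM : eigenSet p M Tbad c = ⊥) :
    (∀ w ∈ eigenSet p N Tbad c,
        (map D.pα : TateModule p (JZero N) →ₗ[ℤ_[p]] TateModule p (JZero M)).baseChange A w = 0) ∧
      ∀ w ∈ eigenSet p N Tbad c,
        (map D.pβ : TateModule p (JZero N) →ₗ[ℤ_[p]] TateModule p (JZero M)).baseChange A w = 0 :=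
  ⟨map_eq_zero_of_galois D.pα D.pα_galois Tbad hT c hM,
    map_eq_zero_of_galois D.pβ D.pβ_galois Tbad hT c hM⟩

/-- both pushes of a `GeoDataLite` map `eigenSet_N` into `eigenSet_M`. -/
theorem geoDataLite_push_mem {P : ValuationSubring Qb} (D : GeoLite40.GeoDataLite p N M P)
    (Tbad : Finset ℕ) (hT : TateHeckeEquivariant p N M Tbad) (c : ℕ → A)
    {w : A ⊗[ℤ_[p]] TateModule p (JZero N)} (hw : w ∈ eigenSet p N Tbad c) :
    (map D.pα : TateModule p (JZero N) →ₗ[ℤ_[p]] TateModule p (JZero M)).baseChange A w ∈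
        eigenSet p M Tbad c ∧
      (map D.pβ : TateModule p (JZero N) →ₗ[ℤ_[p]] TateModule p (JZero M)).baseChange A w ∈
        eigenSet p M Tbad c :=
  ⟨map_mem_of_galois D.pα D.pα_galois Tbad hT c hw, map_mem_of_galois D.pβ D.pβ_galois Tbad hT c hw⟩

end Fermat.Agent.ORD.Alg.PushEigenLite93
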